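import Fermat.Agent.HT.MW.Pairing

/-!
# The diagonal: tangent lines against canonical divisors

The main result is `CanData.lam_self_le`, the adjunction inequality for heights.
-/

set_option autoImplicit false

noncomputable section

open AlgebraicCurve Fermat.FF

namespace Fermat.HT.MW

/-- A polynomial at a point of size at most `B` is at most its adelic constant times `B ^ deg`. -/
theorem map_eval_le_pow {K : Type*} [Field K] {v : AbsoluteValue K ℝ} (hv : Nice v) {σ : Type*}
    (p : MvPolynomial σ K) {z : σ → K} {B : ℝ} (hB : 1 ≤ B) (hz : ∀ a, v (z a) ≤ B) :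
    v (MvPolynomial.eval z p) ≤ Bd (polyBd p) v * B ^ p.totalDegree := by
  rw [MvPolynomial.eval_eq]
  refine map_sum_mul_le hv _ _ _ (pow_nonneg (zero_le_one.trans hB) _) fun d hd => ?_
  rw [map_prod]
  refine (Finset.prod_le_prod (g := fun i => B ^ d i) (fun i _ => v.nonneg _) fun i _ => by
    simp only [map_pow]; exact pow_le_pow_left₀ (v.nonneg _) (hz i) _).trans ?_
  rw [Finset.prod_pow_eq_pow_sum]
  exact pow_le_pow_right₀ hB (MvPolynomial.le_totalDegree hd)

namespace Emb

section Chart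

variable {K F : Type*} [Field K] [Field F] [Algebra K F] [IsAlgClosed K] [IsFunctionField K F]
  (E : Emb K F)

/-- Every chart contains a place. -/
theorem exists_chart_place (b : Fin E.r) : ∃ P : Place K F, E.x P b ≠ 0 := by
  classical
  obtain ⟨P, hP⟩ := Infinite.exists_notMem_finset (divOf K (E.f b) + E.D).support
  rw [Finsupp.notMem_support_iff, Finsupp.add_apply, divOf_apply] at hP
  exact ⟨P, co_ne_zero_of_ord (E.f_ne_zero b) (by omega)⟩

/-- **Regular functions on a chart are bounded** on its small points. -/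
theorem chart_bounded (b : Fin E.r) {h : F}
    (hh : ∀ P : Place K F, E.x P b ≠ 0 → OrdGE P h 0) :
    ∃ S : Multiset K, ∀ v : AbsoluteValue K ℝ, Nice v → ∀ P : Place K F, E.x P b ≠ 0 →
      (∀ i, v (E.x P i / E.x P b) ≤ 1) → v (evalAt P h) ≤ Bd S v := by
  classical
  rcases eq_or_ne h 0 with rfl | h0
  · refine ⟨0, fun v _ P _ _ => ?_⟩
    rw [show evalAt P (0 : F) = 0 by simpa using evalAt_algebraMap P (0 : K), map_zero]
    exact (Bd_pos _).le
  -- `h` is a polynomial in `h⁻¹` and the chart coordinates, as `h⁻¹` has no zero on the chart.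
  set Z : Option (Fin E.r) → F := fun o => o.elim h⁻¹ (E.Y b)
  set R := (MvPolynomial.aeval Z : MvPolynomial _ K →ₐ[K] F).range
  set e : R := ⟨h⁻¹, ⟨MvPolynomial.X none, MvPolynomial.aeval_X _ _⟩⟩
  by_cases hI : Ideal.span {e} = ⊤
  swap
  · obtain ⟨P, hreg, hI1⟩ := exists_place_center R _ hI (Ideal.subset_span rfl)
      (fun he => inv_ne_zero h0 (congrArg Subtype.val he))
    have hY : ∀ j, OrdGE P (E.Y b j) 0 := fun j =>
      hreg ⟨E.Y b j, ⟨MvPolynomial.X (some j), MvPolynomial.aeval_X _ _⟩⟩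
    have h1 := ((hI1 _ (Ideal.subset_span rfl) : OrdGE P h⁻¹ 1).mul
      (hh P (E.x_ne_zero_of_regular hY)))
    rw [inv_mul_cancel₀ h0] at h1
    have := h1.le_ord one_ne_zero
    simp at this
  obtain ⟨c, hc⟩ := Ideal.mem_span_singleton'.1 ((Ideal.eq_top_iff_one _).1 hI)
  obtain ⟨q, hq⟩ := c.2
  have hqh : MvPolynomial.aeval Z q = h := by
    have h1 : (c : F) * h⁻¹ = 1 := congrArg Subtype.val hc
    rw [← div_eq_mul_inv, div_eq_one_iff_eq h0] at h1
    rw [← h1]
    exact hq
  -- So where `h` is large it is bounded by that polynomial.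
  refine ⟨polyBd q, fun v hv P hb hy => ?_⟩
  by_cases hsmall : v (evalAt P h) ≤ 1
  · exact hsmall.trans (one_le_Bd _)
  have hne : evalAt P h ≠ 0 := fun h1 => hsmall (by simp [h1])
  have hord : P.ord h = 0 := by
    by_contra h1
    refine hne ((evalAt_eq_zero_iff (hh P hb)).2 ((ordGE_iff_of_ne h0).2 ?_))
    have := (hh P hb).le_ord h0
    omega
  -- evaluate at `P`, where all arguments are at most `1`
  have hZ : ∀ o, OrdGE P (Z o) 0 := by
    rintro (_ | i)
    · exact ordGE_iff.2 (.inr (by change 0 ≤ P.ord h⁻¹; rw [P.ord_inv]; omega))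
    · exact E.ordGE_Y hb i
  have hz : ∀ o, evalAt P (Z o)
      = (fun o : Option (Fin E.r) => o.elim (evalAt P h)⁻¹ fun i => E.x P i / E.x P b) o := by
    rintro (_ | i)
    · exact evalAt_inv h0 hord
    · exact E.evalAt_Y hb i
  obtain ⟨-, hev⟩ := evalAt_aeval hZ hz q
  conv_lhs => rw [← hqh, hev]
  refine map_eval_le hv _ ?_
  rintro (_ | i)
  · change v (evalAt P h)⁻¹ ≤ 1
    rw [map_inv₀]
    exact inv_le_one_of_one_le₀ (not_le.1 hsmall).le
  · exact hy i

/-- **Regular functions without common zero on a chart** are not all small. -/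
theorem chart_not_small (b : Fin E.r) {ι : Type*} [Fintype ι] (h : ι → F)
    (hh : ∀ i, ∀ P : Place K F, E.x P b ≠ 0 → OrdGE P (h i) 0)
    (hne : ∀ P : Place K F, E.x P b ≠ 0 → ∃ i, evalAt P (h i) ≠ 0) :
    ∃ S : Multiset K, ∀ v : AbsoluteValue K ℝ, Nice v → ∀ P : Place K F, E.x P b ≠ 0 →
      (∀ i, v (E.x P i / E.x P b) ≤ 1) → ∃ i, 1 ≤ Bd S v * v (evalAt P (h i)) := by
  classical
  choose Sh hSh using fun i => E.chart_bounded b (hh i)
  set Z : Fin E.r ⊕ ι → F := Sum.elim (E.Y b) h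
  set R := (MvPolynomial.aeval Z : MvPolynomial _ K →ₐ[K] F).range
  set e : ι → R := fun i => ⟨h i, ⟨MvPolynomial.X (Sum.inr i), MvPolynomial.aeval_X _ _⟩⟩
  obtain ⟨P₀, hP₀⟩ := E.exists_chart_place b
  obtain ⟨i₀, hi₀⟩ := hne P₀ hP₀
  have he0 : e i₀ ≠ 0 := fun h0 => hi₀ (by
    rw [show h i₀ = 0 from congrArg Subtype.val h0]
    simpa using evalAt_algebraMap P₀ (0 : K))
  -- the functions `h i` generate the unit ideal on the chart
  by_cases hI : Ideal.span (Set.range e) = ⊤
  swap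
  · obtain ⟨P, hreg, hI1⟩ := exists_place_center R _ hI (Ideal.subset_span ⟨i₀, rfl⟩) he0
    have hb := E.x_ne_zero_of_regular (P := P) (b := b) fun j =>
      hreg ⟨E.Y b j, ⟨MvPolynomial.X (Sum.inl j), MvPolynomial.aeval_X _ _⟩⟩
    obtain ⟨i, hi⟩ := hne P hb
    exact absurd ((evalAt_eq_zero_iff (hh i P hb)).2 (hI1 _ (Ideal.subset_span ⟨i, rfl⟩))) hi
  obtain ⟨c, hc⟩ := Ideal.mem_span_range_iff_exists_fun.1 ((Ideal.eq_top_iff_one _).1 hI)
  choose q hq using fun i => (c i).2
  refine ⟨(Fintype.card ι : K) ::ₘ ∑ i, (polyBd (q i) + (q i).totalDegree • ∑ j, Sh j),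
    fun v hv P hb hy => ?_⟩
  have hZ : ∀ o, OrdGE P (Z o) 0 := by
    rintro (i | i)
    · exact E.ordGE_Y hb i
    · exact hh i P hb
  have hz : ∀ o, evalAt P (Z o)
      = Sum.elim (fun i => E.x P i / E.x P b) (fun i => evalAt P (h i)) o := by
    rintro (i | i)
    · exact E.evalAt_Y hb i
    · rfl
  -- bound the coefficients
  have hqev : ∀ i, v (evalAt P (c i : F))
      ≤ Bd (∑ i, (polyBd (q i) + (q i).totalDegree • ∑ j, Sh j)) v := fun i => by
    have hB : ∀ o, v (Sum.elim (fun i => E.x P i / E.x P b) (fun i => evalAt P (h i)) o)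
        ≤ Bd (∑ j, Sh j) v := by
      rintro (j | j)
      · exact (hy j).trans (one_le_Bd _)
      · exact (hSh j v hv P hb hy).trans (Bd_mono (by simpa using le_add_left_sum Sh 0 j))
    have h2 := map_eval_le_pow hv (q i) (one_le_Bd _) hB
    rw [← (evalAt_aeval hZ hz (q i)).2, ← Bd_nsmul, ← Bd_add] at h2
    refine le_trans (le_of_eq (by rw [← hq i]; rfl)) (h2.trans (Bd_mono ?_))
    exact Finset.single_le_sum (f := fun i => polyBd (q i) + (q i).totalDegree • ∑ j, Sh j)
      (fun i _ => Multiset.zero_le _) (Finset.mem_univ i)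
  have hci : ∀ i, OrdGE P (c i : F) 0 := fun i => by
    rw [← hq i]; exact (evalAt_aeval hZ hz (q i)).1
  -- the relation evaluated at `P` bounds the largest value from below
  have h1 : (∑ i, evalAt P (c i : F) * evalAt P (h i)) = 1 := by
    have : (∑ i, (c i : F) * h i) = 1 := by
      have := congrArg Subtype.val hc
      simpa [e] using this
    have h2 := congrArg (evalAt P) this
    rw [evalAt_one, evalAt_sum _ _ fun i _ => by simpa using (hci i).mul (hh i P hb)] at h2
    rw [← h2]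
    exact Finset.sum_congr rfl fun i _ => (evalAt_mul (hci i) (hh i P hb)).symm
  rcases isEmpty_or_nonempty ι with hι | hι
  · simp [Finset.univ_eq_empty] at h1
  obtain ⟨i, hi⟩ := Finite.exists_max fun i => v (evalAt P (h i))
  refine ⟨i, ?_⟩
  calc (1 : ℝ) = v (∑ i, evalAt P (c i : F) * evalAt P (h i)) := by rw [h1, map_one]
    _ ≤ max 1 (v ((Finset.univ : Finset ι).card : K))
          * (Bd (∑ i, (polyBd (q i) + (q i).totalDegree • ∑ j, Sh j)) v * v (evalAt P (h i))) := by
        refine map_sum_le hv _ _ (mul_nonneg (Bd_pos _).le (v.nonneg _)) fun j _ => ?_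
        rw [map_mul]
        exact mul_le_mul (hqev j) (hi j) (v.nonneg _) (Bd_pos _).le
    _ = _ := by rw [← mul_assoc]; simp [Bd, Finset.card_univ]

end Chart

end Emb

/-- A differential whose divisor is a rational multiple of the embedding divisor. -/
structure CanData {K F : Type*} [Field K] [Field F] [Algebra K F] [IsAlgClosed K]
    [IsFunctionField K F] (E : Emb K F) where
  /-- The differential `ω`. -/
  ω : Ω[F⁄K]
  /-- The differential is not zero. -/
  ω_ne : ω ≠ 0
  /-- The divisor `W` of the differential. -/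
  W : Divisor K F
  /-- The divisor gives the order of the differential at every place. -/
  hW : ∀ v : Place K F, W v = v.ordDifferential ω
  /-- The integer `d` in the ratio `W / D = (d - 2m) / m`. -/
  d : ℕ
  /-- The denominator `m` of this ratio. -/
  m : ℕ
  /-- The denominator is positive. -/
  m_pos : 0 < m
  /-- `d - 2m` times the embedding divisor is `m` times the divisor of the differential. -/
  rel : ∀ P : Place K F, ((d : ℤ) - 2 * m) * E.D P = m * W P

namespace CanData

variable {K F : Type*} [Field K] [Field F] [Algebra K F] [IsAlgClosed K] [IsFunctionField K F]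
  {E : Emb K F} (C : CanData E)

/-- Every differential `df` is a multiple of the chosen one. -/
theorem exists_coeff (f : F) : ∃ a : F, KaehlerDifferential.D K F f = a • C.ω := by
  have htop : Submodule.span F {C.ω} = ⊤ :=
    (finrank_eq_one_iff_of_nonzero _ C.ω_ne).mp finrank_kaehler_eq_one
  obtain ⟨a, ha⟩ := Submodule.mem_span_singleton.1
    (htop ▸ Submodule.mem_top : KaehlerDifferential.D K F f ∈ _)
  exact ⟨a, ha.symm⟩

/-- Differentiation against the differential. -/
def delta (f : F) : F := (C.exists_coeff f).choose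

/-- `df = δ(f) ω`. -/
theorem D_eq (f : F) : KaehlerDifferential.D K F f = C.delta f • C.ω :=
  (C.exists_coeff f).choose_spec

/-- The Wronskian functions. -/
def wf (p : Fin E.r × Fin E.r) : F := E.f p.1 * C.delta (E.f p.2) - E.f p.2 * C.delta (E.f p.1)

/-- The local generator of the canonical divisor at a place, with the tangent vector as value. -/
theorem wf_local (P : Place K F) :
    ∃ u : F, u ≠ 0 ∧ P.ord u = C.W P ∧ ∀ p, OrdGE P (C.wf p * unif P ^ (2 * E.D P) * u) 0 ∧
      evalAt P (C.wf p * unif P ^ (2 * E.D P) * u) = E.pw P P p := by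
  classical
  set t := unif P
  have ht0 : t ≠ 0 := unif_ne_zero P
  -- Write `ω = u dt` for a uniformiser `t`, so that `δ f = C.delta f * u` is `df/dt`.
  obtain ⟨δ, hδt, hδ, hreg⟩ := exists_dt P (ord_unif P)
  have hne := D_ne_zero_of_ord_eq_one P (ord_unif P)
  obtain ⟨u, hu⟩ := Submodule.mem_span_singleton.1
    (span_D_eq_top P (ord_unif P) ▸ Submodule.mem_top :
      C.ω ∈ Submodule.span F {KaehlerDifferential.D K F t})
  have hu0 : u ≠ 0 := fun h => C.ω_ne (by rw [← hu, h, zero_smul])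
  have hdu : ∀ f, C.delta f * u = δ f := fun f => by
    refine smul_left_injective F hne ?_
    change (C.delta f * u) • KaehlerDifferential.D K F t = δ f • KaehlerDifferential.D K F t
    rw [← smul_smul, hu, ← C.D_eq, ← hδ]
  refine ⟨u, hu0, by rw [C.hW P, ← hu, ordDifferential_smul_D P (ord_unif P)], fun p => ?_⟩
  set X : Fin E.r → F := fun i => E.f i * t ^ E.D P
  have hX : ∀ i, OrdGE P (X i) 0 ∧ evalAt P (X i) = E.x P i := fun i => by
    have := ordGE_co (ordGE_of_mem (E.f_mem i) P)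
    rw [sub_zero] at this
    exact ⟨this, by rw [Emb.x, co, sub_zero]⟩
  -- The scaled coordinates `X i` and their derivatives are regular, with values `x` and `dx`.
  have hXd : ∀ i, OrdGE P (δ (X i)) 0 ∧ evalAt P (δ (X i)) = E.dx P i := fun i => by
    refine ⟨hreg _ (hX i).1, ?_⟩
    set Z := (X i - algebraMap K F (E.x P i)) * t⁻¹
    have hZ : OrdGE P Z 0 := E.ordGE_dx P i
    have he : X i = algebraMap K F (E.x P i) + t * Z := by simp only [Z]; field_simp; ring
    have htZ : OrdGE P (t * δ Z) 1 :=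
      ((ordGE_iff.2 (.inr (ord_unif P).ge) : OrdGE P t 1).mul (hreg Z hZ)).mono (by simp)
    rw [he, map_add, Derivation.map_algebraMap, zero_add, Derivation.leibniz, hδt, smul_eq_mul,
      smul_eq_mul, mul_one, evalAt_add (htZ.mono zero_le_one) hZ,
      (evalAt_eq_zero_iff (htZ.mono zero_le_one)).2 htZ, zero_add]
    rfl
  -- The scaled Wronskian is the Wronskian of the `X i`.
  have hexp : C.wf p * t ^ (2 * E.D P) * u = X p.1 * δ (X p.2) - X p.2 * δ (X p.1) := by
    have hδp : ∀ i, δ (X i) = E.f i * δ (t ^ E.D P) + t ^ E.D P * δ (E.f i) := fun i => by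
      rw [Derivation.leibniz, smul_eq_mul, smul_eq_mul]
    rw [hδp, hδp, wf, ← hdu (E.f p.1), ← hdu (E.f p.2), two_mul, zpow_add₀ ht0]
    simp only [X]
    ring
  have h1 : OrdGE P (X p.1 * δ (X p.2)) 0 := by simpa using (hX p.1).1.mul (hXd p.2).1
  have h2 : OrdGE P (X p.2 * δ (X p.1)) 0 := by simpa using (hX p.2).1.mul (hXd p.1).1
  rw [hexp]
  refine ⟨h1.sub h2, ?_⟩
  rw [evalAt_sub h1 h2, evalAt_mul (hX _).1 (hXd _).1, evalAt_mul (hX _).1 (hXd _).1, (hX _).2,
    (hX _).2, (hXd _).2, (hXd _).2, Emb.pw, if_pos rfl]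
  rfl

/-- The chart functions built from the tangent lines. -/
def hfun (b : Fin E.r) (τ : Fin C.m → Fin E.r × Fin E.r) : F :=
  (∏ l, C.wf (τ l)) * (E.f b ^ C.d)⁻¹

/-- The value of the diagonal functions at a place. -/
theorem hfun_value (P : Place K F) :
    ∃ z : K, z ≠ 0 ∧ ∀ b, E.x P b ≠ 0 → ∀ τ, OrdGE P (C.hfun b τ) 0 ∧
      evalAt P (C.hfun b τ) = z * (∏ l, E.pw P P (τ l)) / E.x P b ^ C.d := by
  classical
  obtain ⟨u, hu0, huord, hu⟩ := C.wf_local P
  set t := unif P
  have ht0 : t ≠ 0 := unif_ne_zero P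
  -- A unit `ζ` collects the powers of `t` and `u`, independently of `b` and `τ`.
  set ζ : F := t ^ (((C.d : ℤ) - 2 * C.m) * E.D P) * (u ^ C.m)⁻¹
  have hζ0 : ζ ≠ 0 := mul_ne_zero (zpow_ne_zero _ ht0) (inv_ne_zero (pow_ne_zero _ hu0))
  have hζ : P.ord ζ = 0 := by
    rw [P.ord_mul (zpow_ne_zero _ ht0) (inv_ne_zero (pow_ne_zero _ hu0)), P.ord_zpow, ord_unif,
      P.ord_inv, ord_pow, huord, mul_one, C.rel P]
    ring
  refine ⟨evalAt P ζ, evalAt_ne_zero hζ0 hζ, fun b hb τ => ?_⟩
  set U : F := E.f b * t ^ E.D P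
  have hU0 : U ≠ 0 := mul_ne_zero (E.f_ne_zero b) (zpow_ne_zero _ ht0)
  have hUord : P.ord U = 0 := by
    rw [P.ord_mul (E.f_ne_zero b) (zpow_ne_zero _ ht0), E.ord_f_of_x_ne_zero hb, P.ord_zpow,
      ord_unif]
    ring
  have hUev : evalAt P U = E.x P b := by rw [Emb.x, co, sub_zero]
  -- Then `hfun` is the product of the local Wronskians times `ζ / U ^ d`.
  have hid : C.hfun b τ
      = (∏ l, C.wf (τ l) * t ^ (2 * E.D P) * u) * ζ * (U ^ C.d)⁻¹ := by
    simp only [hfun, ζ, U, Finset.prod_mul_distrib, Finset.prod_const, Finset.card_univ,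
      Fintype.card_fin]
    rw [mul_pow, ← zpow_natCast (t ^ E.D P), ← zpow_natCast (t ^ (2 * E.D P)), ← zpow_mul,
      ← zpow_mul, sub_mul, zpow_sub₀ ht0, show (C.d : ℤ) * E.D P = E.D P * C.d by ring,
      show 2 * (C.m : ℤ) * E.D P = 2 * E.D P * C.m by ring]
    field_simp [E.f_ne_zero b]
  -- Evaluate factor by factor.
  have hprod : ∀ S : Finset (Fin C.m), OrdGE P (∏ l ∈ S, C.wf (τ l) * t ^ (2 * E.D P) * u) 0 ∧
      evalAt P (∏ l ∈ S, C.wf (τ l) * t ^ (2 * E.D P) * u) = ∏ l ∈ S, E.pw P P (τ l) := fun S => by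
    induction S using Finset.induction_on with
    | empty => exact ⟨by simpa using ordGE_one P, by simp⟩
    | insert j S hj ih =>
      rw [Finset.prod_insert hj, Finset.prod_insert hj]
      exact ⟨by simpa using (hu _).1.mul ih.1, by rw [evalAt_mul (hu _).1 ih.1, ih.2, (hu _).2]⟩
  have hζr : OrdGE P ζ 0 := ordGE_of_ord_eq_zero hζ
  have h1 : OrdGE P ((∏ l, C.wf (τ l) * t ^ (2 * E.D P) * u) * ζ) 0 := by
    simpa using (hprod Finset.univ).1.mul hζr
  have hUd : P.ord (U ^ C.d) = 0 := by rw [ord_pow, hUord, mul_zero]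
  obtain ⟨r1, r2⟩ := Emb.evalAt_div_unit h1 (pow_ne_zero _ hU0) hUd
  rw [hid]
  refine ⟨r1, ?_⟩
  rw [r2, evalAt_mul (hprod Finset.univ).1 hζr, (hprod Finset.univ).2,
    evalAt_pow (ordGE_of_ord_eq_zero hUord), hUev]
  ring

/-- Some product of tangent coordinates at `P` is nonzero. -/
theorem exists_pw_ne (P : Place K F) : ∃ τ : Fin C.m → Fin E.r × Fin E.r,
    (∏ l, E.pw P P (τ l)) ≠ 0 := by
  obtain ⟨p, hp⟩ := Function.ne_iff.1 (E.pw_ne_zero P P)
  exact ⟨fun _ => p, Finset.prod_ne_zero_iff.2 fun _ _ => hp⟩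

/-- **Adjunction inequality**, locally. -/
theorem diag_local :
    ∃ S : Multiset K, ∀ P : Place K F, ∃ z : K, z ≠ 0 ∧ ∀ v : AbsoluteValue K ℝ, Nice v →
      nrm v (E.x P) ^ C.d ≤ Bd S v * (v z * nrm v (E.pw P P) ^ C.m) := by
  classical
  have hb : ∀ b : Fin E.r, ∃ S : Multiset K, ∀ v : AbsoluteValue K ℝ, Nice v →
      ∀ P : Place K F, E.x P b ≠ 0 → (∀ i, v (E.x P i / E.x P b) ≤ 1) →
        ∃ τ, 1 ≤ Bd S v * v (evalAt P (C.hfun b τ)) := fun b =>
    E.chart_not_small b (fun τ => C.hfun b τ)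
      (fun τ P hP => ((C.hfun_value P).choose_spec.2 b hP τ).1) fun P hP => by
        obtain ⟨z, hz0, hz⟩ := C.hfun_value P
        obtain ⟨τ, hτ⟩ := C.exists_pw_ne P
        exact ⟨τ, by
          rw [(hz b hP τ).2]
          exact div_ne_zero (mul_ne_zero hz0 hτ) (pow_ne_zero _ hP)⟩
  choose S hS using hb
  refine ⟨∑ b, S b, fun P => ?_⟩
  obtain ⟨z, hz0, hz⟩ := C.hfun_value P
  refine ⟨z, hz0, fun v hv => ?_⟩
  obtain ⟨b, hb, hb0⟩ := exists_nrm_eq (v := v) (E.x_ne_zero P)
  obtain ⟨τ, hτ⟩ := hS b v hv P hb0 fun i => by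
    rw [map_div₀, div_le_one (v.pos hb0), ← hb]; exact le_nrm _ _
  rw [(hz b hb0 τ).2, map_div₀, map_mul, map_pow, ← hb, ← mul_div_assoc,
    one_le_div (pow_pos (nrm_pos (E.x_ne_zero P)) _), map_prod] at hτ
  refine hτ.trans (mul_le_mul (Bd_mono (Finset.single_le_sum
      (fun i _ => Multiset.zero_le (S i)) (Finset.mem_univ b)))
    (mul_le_mul_of_nonneg_left ?_ (v.nonneg _))
    (mul_nonneg (v.nonneg _) (Finset.prod_nonneg fun l _ => v.nonneg _)) (Bd_pos _).le)
  refine (Finset.prod_le_prod (fun l _ => v.nonneg _) fun l _ => le_nrm _ _).trans ?_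
  rw [Finset.prod_const, Finset.card_univ, Fintype.card_fin]

end CanData

/-- **Adjunction inequality** for heights: the self-pairing of a place is at most `2 - d / m` times
its height, up to a constant. -/
theorem CanData.lam_self_le {F : Type*} [Field F] [Algebra Qb F] [IsFunctionField Qb F]
    {E : Emb Qb F} (C : CanData E) :
    ∃ B : ℝ, ∀ P, E.lam P P ≤ (2 - (C.d : ℝ) / C.m) * E.hP P + B := by
  obtain ⟨S, hS'⟩ := C.diag_local
  refine ⟨hS S / C.m, fun P => ?_⟩
  obtain ⟨z, hz0, hz⟩ := hS' P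
  have g := heights_le S (fun _ : Fin 1 => z) (fun _ => hz0) (fun _ => -1)
    (fun _ : Fin 1 => E.x P) (fun _ => E.x_ne_zero P) (fun _ => (C.d : ℝ))
    (fun _ : Fin 1 => E.pw P P) (fun _ => E.pw_ne_zero P P) (fun _ => -(C.m : ℝ)) fun v hv => by
      have h1 := Real.log_le_log (pow_pos (nrm_pos (E.x_ne_zero P)) _) (hz v hv)
      have hp1 := nrm_pos (v := v) (E.pw_ne_zero P P)
      rw [Real.log_pow, Real.log_mul (Bd_pos _).ne'
        (mul_ne_zero (v.pos hz0).ne' (pow_ne_zero _ hp1.ne')),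
        Real.log_mul (v.pos hz0).ne' (pow_ne_zero _ hp1.ne'), Real.log_pow] at h1
      simp only [Finset.univ_unique, Finset.sum_singleton]
      linarith
  simp only [Finset.univ_unique, Finset.sum_singleton] at g
  have hm : (0 : ℝ) < C.m := Nat.cast_pos.2 C.m_pos
  rw [Emb.lam, Emb.hP]
  rw [show (2 - (C.d : ℝ) / C.m) * absH (E.x P) + hS S / C.m
    = ((2 * C.m - C.d) * absH (E.x P) + hS S) / C.m by field_simp, le_div_iff₀ hm]
  linarith

end Fermat.HT.MW

end
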