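import Fermat.Agent.HT.MW.Positive
import Fermat.Agent.HT.MW.Diag
import Fermat.Prelude.Def_AlgebraicCurve_BaseChangeGalois
import Fermat.Agent.FF.Genus

/-!
# The height form on the Jacobian and the finiteness theorem

The main result is `exists_height_form`.
-/

set_option autoImplicit false
set_option linter.unusedSectionVars false

noncomputable section

open AlgebraicCurve Fermat.FF

namespace Fermat.HT.MW

section General

variable {K F : Type*} [Field K] [Field F] [Algebra K F] [IsAlgClosed K] [IsFunctionField K F]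

/-- An effective divisor of degree `n` is a sum of `n` places. -/
theorem exists_enum {A : Divisor K F} (hA : 0 ≤ A) {n : ℕ} (hn : Divisor.degree A = n) :
    ∃ P : Fin n → Place K F, A = ∑ i, Finsupp.single (P i) (1 : ℤ) := by
  induction n generalizing A with
  | zero => exact ⟨Fin.elim0, by simp [eq_zero_of_nonneg_of_degree hA (by simpa using hn)]⟩
  | succ n ih =>
    obtain ⟨P, hP⟩ : ∃ P, A P ≠ 0 := by
      by_contra hcon
      push Not at hcon
      rw [show A = 0 from Finsupp.ext hcon, map_zero] at hn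
      omega
    have hA' : 0 ≤ A - Finsupp.single P 1 := Finsupp.le_def.2 fun R => by
      have h0 : (0 : ℤ) ≤ A R := by simpa using Finsupp.le_def.1 hA R
      rcases eq_or_ne R P with rfl | hR
      · simp; omega
      · simpa [Finsupp.single_eq_of_ne hR] using h0
    obtain ⟨Q, hQ⟩ := ih hA' (by rw [map_sub, hn, degree_single_one]; push_cast; ring)
    refine ⟨Fin.cons P Q, ?_⟩
    rw [Fin.sum_univ_succ]
    simp only [Fin.cons_zero, Fin.cons_succ, ← hQ]
    abel

/-- A sum of places is effective. -/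
theorem single_sum_nonneg {n : ℕ} (P : Fin n → Place K F) :
    (0 : Divisor K F) ≤ ∑ i, Finsupp.single (P i) (1 : ℤ) :=
  Finset.sum_nonneg fun i _ => by simp

/-- A sum of `n` places has degree `n`. -/
theorem degree_single_fin {n : ℕ} (P : Fin n → Place K F) :
    Divisor.degree (∑ i, Finsupp.single (P i) (1 : ℤ)) = n := by
  simp [map_sum, deg_eq_one]

/-- An effective divisor with `ℓ = 1` is alone in its class. -/
theorem eq_of_ell_one {A A' : Divisor K F} (hA : 0 ≤ A) (hA' : 0 ≤ A') (hl : ell A = 1)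
    (h : Divisor.IsPrincipal (A' - A)) : A' = A := by
  obtain ⟨f, hf, hd⟩ := h
  have hfm : f ∈ riemannRochSpace A := (nonneg_add_divOf_iff hf).1 (by
    rw [show A + divOf K f = A' from Finsupp.ext fun v => by
      rw [Finsupp.add_apply, divOf_apply, ← hd v, Finsupp.sub_apply]; ring]
    exact hA')
  have h0 : riemannRochSpace (0 : Divisor K F) = riemannRochSpace A :=
    Submodule.eq_of_le_of_finrank_le (riemannRochSpace_mono hA) (by
      change ell A ≤ ell (0 : Divisor K F)
      rw [hl, ell_zero])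
  rw [← h0, riemannRochSpace_zero] at hfm
  obtain ⟨c, rfl⟩ := hfm
  refine Finsupp.ext fun v => sub_eq_zero.1 ?_
  rw [← Finsupp.sub_apply, hd v, Algebra.linearMap_apply, ord_algebraMap]

/-- Every class has a reduced representative of degree at most the genus. -/
theorem exists_min_rep (o : Place K F) (c : Pic0 K F) :
    ∃ (r : ℕ) (A : Divisor K F), r ≤ genusFF K F ∧ 0 ≤ A ∧ Divisor.degree A = r ∧ ell A = 1 ∧
      cls (A - Finsupp.single o (r : ℤ)) = c := by
  classical
  obtain ⟨⟨X, hX⟩, rfl⟩ := Pic0.mk_surjective c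
  replace hX : Divisor.degree X = 0 := hX
  have hdeg : ∀ n : ℕ, Divisor.degree (X + Finsupp.single o (n : ℤ)) = n := fun n => by
    rw [map_add, hX, Divisor.degree_single, deg_eq_one]; simp
  -- by Riemann some `X + n o` with `n ≤ g` has sections; take the least such `n`
  have hex : ∃ n : ℕ, ell (X + Finsupp.single o (n : ℤ)) ≠ 0 :=
    ⟨genusFF K F, by
      have := FF.riemann_inequality (X + Finsupp.single o (genusFF K F : ℤ))
      rw [hdeg] at this
      omega⟩
  set r := Nat.find hex
  have hr : ell (X + Finsupp.single o (r : ℤ)) ≠ 0 := Nat.find_spec hex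
  have hrg : r ≤ genusFF K F := Nat.find_min' hex (by
    have := FF.riemann_inequality (X + Finsupp.single o (genusFF K F : ℤ))
    rw [hdeg] at this
    omega)
  -- by minimality it has a one dimensional space of sections
  have h1 : ell (X + Finsupp.single o (r : ℤ)) = 1 := by
    rcases Nat.eq_zero_or_pos r with h0 | h0
    · obtain ⟨f, hf, e⟩ := ell_eq_one_of_degree_zero (by rw [hdeg, h0]; rfl) hr
      rw [e, ← zero_add (divOf K f), ell_add_divOf _ hf, ell_zero]
    · have hz : ell (X + Finsupp.single o ((r - 1 : ℕ) : ℤ)) = 0 := by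
        have := Nat.find_min hex (show r - 1 < r by omega)
        omega
      have := (finrank_riemannRochSpace_add_single (X + Finsupp.single o ((r - 1 : ℕ) : ℤ)) o).2
      rw [add_assoc, ← Finsupp.single_add,
        show ((r - 1 : ℕ) : ℤ) + 1 = (r : ℤ) by omega, hz] at this
      omega
  -- an effective divisor in its class gives the representative
  obtain ⟨f, hf0, hf⟩ := exists_effective_of_ell_ne_zero hr
  refine ⟨r, X + Finsupp.single o (r : ℤ) + divOf K f, hrg, hf, ?_, ?_, ?_⟩
  · rw [map_add, hdeg, degree_divOf, add_zero]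
  · rw [ell_add_divOf _ hf0, h1]
  · have h2 : Divisor.degree (X + Finsupp.single o (r : ℤ) + divOf K f - Finsupp.single o
        (r : ℤ)) = 0 := by
      rw [map_sub, map_add, hdeg, degree_divOf, Divisor.degree_single, deg_eq_one]; simp
    rw [cls, dif_pos h2, Pic0.mk, Pic0.mk, QuotientAddGroup.eq, AddSubgroup.mem_addSubgroupOf]
    refine ⟨f⁻¹, inv_ne_zero hf0, fun v => ?_⟩
    simp [v.ord_inv]
    ring

/-- A fixed finite pool completes every minimal representative to a nonspecial divisor. -/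
theorem exists_completion {W : Divisor K F} (hW : IsCanonical W) (S : Finset (Place K F))
    (hS : 2 * genusFF K F ≤ S.card) :
    ∀ (k : ℕ) (A : Divisor K F), 0 ≤ A → Divisor.degree A + k = genusFF K F → ell A = 1 →
      ∃ T : Fin k → S, ell (A + ∑ i, Finsupp.single (T i : Place K F) (1 : ℤ)) = 1 := by
  classical
  intro k
  induction k with
  | zero => intro A _ _ hl; exact ⟨Fin.elim0, by simpa using hl⟩
  | succ k ih =>
    intro A hA hd hl
    have hRR := hW.riemann_roch A
    -- As `ell A = 1` some effective `Z` is equivalent to `W - A`.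
    obtain ⟨f, hf0, hf⟩ := exists_effective_of_ell_ne_zero (D := W - A) (by
      intro h0
      rw [hl, h0] at hRR
      push_cast at hd hRR
      omega)
    set Z := W - A + divOf K f
    -- The pool is too large to lie in its support: choose `P` outside.
    obtain ⟨P, hPS, hP⟩ : ∃ P ∈ S, Z P = 0 := by
      by_contra hcon
      push Not at hcon
      have hle : (∑ P ∈ S, Finsupp.single P (1 : ℤ)) ≤ Z := Finsupp.le_def.2 fun R => by
        simp only [Finsupp.finsetSum_apply, Finsupp.single_apply, Finset.sum_ite_eq']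
        have h0 : (0 : ℤ) ≤ Z R := by simpa using Finsupp.le_def.1 hf R
        split
        · have := hcon R ‹_›; omega
        · exact h0
      have h1 := degree_mono hle
      rw [degree_single_sum, map_add, map_sub, degree_divOf, hW.1] at h1
      have := degree_nonneg hA
      omega
    -- Then adding `P` keeps `ell = 1`, by Riemann–Roch.
    have hnot : ell (W - A - Finsupp.single P 1) < ell (W - A) :=
      Submodule.finrank_lt_finrank_of_lt (lt_of_le_of_ne (riemannRochSpace_mono
        (sub_le_self _ (by simp))) fun h => by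
          have hm : f ∈ riemannRochSpace (W - A - Finsupp.single P 1) :=
            h ▸ (nonneg_add_divOf_iff hf0).1 hf
          have := (mem_riemannRochSpace.1 hm P).le_ord hf0
          simp only [Z, Finsupp.add_apply, Finsupp.sub_apply, divOf_apply, Finsupp.single_eq_same]
            at hP this
          omega)
    have hAP : 0 ≤ A + Finsupp.single P 1 := add_nonneg hA (by simp)
    have h2 := hW.riemann_roch (A + Finsupp.single P 1)
    rw [← sub_sub, map_add, degree_single_one] at h2
    have h3 : 1 ≤ ell (A + Finsupp.single P 1) := hl ▸ ell_mono (le_add_of_nonneg_right (by simp))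
    rw [hl] at hRR
    obtain ⟨T, hT⟩ := ih (A + Finsupp.single P 1) hAP
      (by rw [map_add, degree_single_one]; push_cast at hd; omega) (by omega)
    refine ⟨Fin.cons ⟨P, hPS⟩ T, ?_⟩
    rwa [Fin.sum_univ_succ, Fin.cons_zero, ← add_assoc,
      Finset.sum_congr rfl fun i _ => by rw [Fin.cons_succ]]

/-- The class map is equivariant. -/
theorem smul_cls (γ : SemilinearAut K F) {X : Divisor K F} (hX : Divisor.degree X = 0) :
    γ • cls X = cls (γ • X) := by
  rw [cls, cls, dif_pos hX, dif_pos (by rw [SemilinearAut.degree_smul, hX]),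
    SemilinearAut.pic0_smul_mk]
  rfl

/-- Semilinear automorphisms preserve effectiveness. -/
theorem divisor_smul_nonneg (γ : SemilinearAut K F) {A : Divisor K F} (hA : 0 ≤ A) : 0 ≤ γ • A :=
  Finsupp.le_def.2 fun w => by
    rw [SemilinearAut.divisor_smul_apply]; simpa using Finsupp.le_def.1 hA (γ⁻¹ • w)

end General

namespace Emb

variable {F : Type*} [Field F] [Algebra Qb F] [IsFunctionField Qb F] (E : Emb Qb F)

/-- A symmetric double sum is twice the part below the diagonal plus the diagonal. -/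
theorem sum_pairs {n : ℕ} (f : Fin n → Fin n → ℝ) (h : ∀ i j, f i j = f j i) :
    ∑ l, ∑ i, f l i = 2 * ∑ l, ∑ i ∈ Finset.Iio l, f l i + ∑ l, f l l := by
  have hsplit : ∀ l, ∑ i, f l i
      = ∑ i ∈ Finset.Iio l, f l i + f l l + ∑ i ∈ Finset.Ioi l, f l i := fun l => by
    have e1 := Finset.sum_filter_add_sum_filter_not Finset.univ (fun i => i < l) (f l)
    have e2 := Finset.sum_filter_add_sum_filter_not
      (Finset.univ.filter fun i => ¬i < l) (fun i => i = l) (f l)
    rw [Finset.filter_filter, Finset.filter_filter] at e2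
    rw [← e1, ← e2, show (Finset.univ.filter fun i => i < l) = Finset.Iio l by ext i; simp,
      show (Finset.univ.filter fun i => ¬i < l ∧ i = l) = {l} by
        ext i; simp only [Finset.mem_filter, Finset.mem_univ, true_and, Finset.mem_singleton]
        exact ⟨fun h => h.2, fun h => ⟨by subst h; exact lt_irrefl i, h⟩⟩,
      show (Finset.univ.filter fun i => ¬i < l ∧ ¬i = l) = Finset.Ioi l by
        ext i; simp only [Finset.mem_filter, Finset.mem_univ, true_and, Finset.mem_Ioi]
        exact ⟨fun h => lt_of_le_of_ne (not_lt.1 h.1) (Ne.symm h.2), fun h => ⟨h.le.not_gt, h.ne'⟩⟩,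
      Finset.sum_singleton]
    ring
  have hswap : ∑ l, ∑ i ∈ Finset.Ioi l, f l i = ∑ l, ∑ i ∈ Finset.Iio l, f l i := by
    rw [Finset.sum_comm' (t' := Finset.univ) (s' := fun i => Finset.Iio i) (by simp)]
    exact Finset.sum_congr rfl fun l _ => Finset.sum_congr rfl fun i _ => h i l
  simp only [hsplit, Finset.sum_add_distrib, hswap]
  ring

/-- The height sum of a sum of places. -/
theorem hA_sum {n : ℕ} (P : Fin n → Place Qb F) :
    ((∑ i, Finsupp.single (P i) (1 : ℤ) : Divisor Qb F).sum fun R m => (m : ℝ) * E.hP R)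
      = ∑ i, E.hP (P i) := by
  rw [← Finsupp.sum_finsetSum_index (fun R => by simp) fun R a b => by push_cast; ring]
  exact Finset.sum_congr rfl fun i _ => by simp

/-- The pairing of a sum of places with itself. -/
theorem lamD_sum {n : ℕ} (P : Fin n → Place Qb F) :
    E.lamD (∑ i, Finsupp.single (P i) (1 : ℤ)) (∑ i, Finsupp.single (P i) (1 : ℤ))
      = ∑ l, ∑ i, E.lam (P l) (P i) := by
  simp [map_sum, AddMonoidHom.finsetSum_apply]
  exact Finset.sum_comm

end Emb

variable {F : Type*} [Field F] [Algebra Qb F] [IsFunctionField Qb F]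

/-- An embedding for which nonspecial divisors have height bounded by the quadratic expression. -/
theorem exists_good_emb (hg : 1 ≤ genusFF Qb F) :
    ∃ (E : Emb Qb F) (ε C : ℝ), 0 < ε ∧ ∀ A : Divisor Qb F, 0 ≤ A →
      Divisor.degree A = genusFF Qb F → ell A = 1 →
      ε * (A.sum fun P n => (n : ℝ) * E.hP P) - C
        ≤ 2 * (genusFF Qb F : ℝ) / E.M * (A.sum fun P n => (n : ℝ) * E.hP P) - E.lamD A A := by
  classical
  obtain ⟨x, hx, -, -⟩ := IsFunctionField.exists_separating (K := Qb) (F := F)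
  set ω := KaehlerDifferential.D Qb F x
  have hω : ω ≠ 0 := D_ne_zero_of_separable hx (separable_of_charZero hx)
  set W := canonicalDivisorOf hω
  have hW : IsCanonical W := isCanonical_canonicalDivisorOf hω
  by_cases hg1 : genusFF Qb F = 1
  · -- genus one: embed by `4∞`
    obtain ⟨f, hf0, hf⟩ := exists_effective_of_ell_ne_zero (D := W) (by rw [hW.2]; omega)
    have hz : W + divOf Qb f = 0 := eq_zero_of_nonneg_of_degree hf (by
      rw [map_add, degree_divOf, hW.1, hg1]; norm_num)
    obtain ⟨o⟩ := nonempty_place Qb F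
    let E : Emb Qb F := ⟨4 • Finsupp.single o 1, by omega, by
      rw [map_nsmul, degree_single_one, hg1]; norm_num⟩
    let C : CanData E :=
      { ω := f • ω
        ω_ne := smul_ne_zero hf0 hω
        W := 0
        hW := fun v => by
          rw [ordDifferential_smul v hf0 hω, ← canonicalDivisorOf_apply hω v, ← divOf_apply]
          have := congrArg (fun Z : Divisor Qb F => Z v) hz
          simp only [Finsupp.add_apply, Finsupp.zero_apply] at this ⊢
          change (0 : ℤ) = _ + W v
          omega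
        d := 2
        m := 1
        m_pos := one_pos
        rel := fun P => by simp }
    obtain ⟨B, hB⟩ := C.lam_self_le
    have hM : E.M = 4 := by
      have := E.M_eq
      rw [show Divisor.degree E.D = 4 by
        change Divisor.degree (4 • Finsupp.single o (1 : ℤ)) = 4
        rw [map_nsmul, degree_single_one]; norm_num] at this
      omega
    refine ⟨E, 1 / 2, B, by norm_num, fun A hA hd _ => ?_⟩
    rw [hg1] at hd
    obtain ⟨P, rfl⟩ := exists_enum hA (n := 1) hd
    rw [E.hA_sum, E.lamD_sum, hg1, hM]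
    simp only [Fin.sum_univ_one]
    have := hB (P 0)
    simp only [C] at this
    norm_num at this ⊢
    linarith [E.hP_nonneg (P 0)]
  · -- higher genus: embed by `4W`
    set g := genusFF Qb F
    let E : Emb Qb F := ⟨4 • W, hg, by
      rw [map_nsmul, hW.1]; simp only [g, nsmul_eq_mul] at *; push_cast; omega⟩
    let C : CanData E :=
      { ω := ω
        ω_ne := hω
        W := W
        hW := canonicalDivisorOf_apply hω
        d := 9
        m := 4
        m_pos := by norm_num
        rel := fun P => by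
          change ((9 : ℕ) : ℤ) - 2 * ((4 : ℕ) : ℤ) * 1 |> fun z => z * (4 • W : Divisor Qb F) P = _
          simp }
    obtain ⟨B, hB⟩ := C.lam_self_le
    obtain ⟨C₁, hC₁⟩ := E.exists_sum_lam_le hW (n := 4) (by norm_num) rfl
    have hM : (E.M : ℝ) = 4 * (2 * g - 2) := by
      have h := E.M_eq
      rw [show Divisor.degree E.D = 4 * (2 * (g : ℤ) - 2) by
        change Divisor.degree (4 • W) = _
        rw [map_nsmul, hW.1]; ring] at h
      exact_mod_cast h
    have hgR : (2 : ℝ) ≤ g := by exact_mod_cast (show 2 ≤ g by omega)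
    refine ⟨E, 1 / (4 * ((g : ℝ) - 1)), C₁ / 2 + g * B,
      by apply div_pos one_pos; linarith, fun A hA hd hl => ?_⟩
    -- combine the positivity with the diagonal bound
    obtain ⟨P, rfl⟩ := exists_enum hA hd
    rw [E.hA_sum, E.lamD_sum, Emb.sum_pairs _ fun i j => E.lam_comm _ _]
    have h1 := hC₁ P hl
    have h2 : ∑ l, E.lam (P l) (P l) ≤ -(1 / 4) * (∑ l, E.hP (P l)) + g * B := by
      rw [Finset.mul_sum]
      have : ∀ l, E.lam (P l) (P l) ≤ -(1 / 4) * E.hP (P l) + B := fun l => by
        have := hB (P l)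
        simp only [C] at this
        norm_num at this ⊢
        linarith
      refine (Finset.sum_le_sum fun l _ => this l).trans (le_of_eq ?_)
      rw [Finset.sum_add_distrib, Finset.sum_const, Finset.card_univ,
        Fintype.card_fin, nsmul_eq_mul]
    have hne : (g : ℝ) - 1 ≠ 0 := by linarith
    -- the coefficient of the height
    have e : 2 * (g : ℝ) / E.M * (∑ l, E.hP (P l))
        = (1 / 4) * (∑ l, E.hP (P l)) + 1 / (4 * ((g : ℝ) - 1)) * ∑ l, E.hP (P l) := by
      rw [hM, show (4 : ℝ) * (2 * g - 2) = 8 * (g - 1) by ring]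
      field_simp
      ring
    rw [e]
    push_cast at h1
    linarith

/-- The index of a shift: a degree `r ≤ g` and `g - r` places in the pool `S`. -/
abbrev ShiftIdx (g : ℕ) (S : Finset (Place Qb F)) : Type _ :=
  Σ r : Fin (g + 1), (Fin (g - r) → S)

/-- The completing divisor of a shift. -/
def shiftDiv {g : ℕ} {S : Finset (Place Qb F)} (x : ShiftIdx g S) : Divisor Qb F :=
  ∑ i, Finsupp.single (x.2 i : Place Qb F) (1 : ℤ)

/-- The class of a shift. -/
def shiftCls {g : ℕ} {S : Finset (Place Qb F)} (o : Place Qb F) (x : ShiftIdx g S) : Pic0 Qb F :=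
  cls (shiftDiv x - Finsupp.single o ((g - x.1 : ℕ) : ℤ))

/-- Every class has, after one of finitely many shifts, a nonspecial representative, whose height
is bounded by the quadratic form. -/
theorem exists_shift_bound (o : Place Qb F) {W : Divisor Qb F}
    (hW : IsCanonical W) {S : Finset (Place Qb F)} (hS : 2 * genusFF Qb F ≤ S.card)
    (E : Emb Qb F) {ε C Cq : ℝ} {κ : Pic0 Qb F} (B : Pic0 Qb F →+ Pic0 Qb F →+ ℝ)
    (hEC : ∀ A : Divisor Qb F, 0 ≤ A → Divisor.degree A = genusFF Qb F → ell A = 1 →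
      ε * (A.sum fun P n => (n : ℝ) * E.hP P) - C
        ≤ 2 * (genusFF Qb F : ℝ) / E.M * (A.sum fun P n => (n : ℝ) * E.hP P) - E.lamD A A)
    (hCq : ∀ A : Divisor Qb F, 0 ≤ A → Divisor.degree A = genusFF Qb F →
      (E.M : ℝ) ^ 2 * (2 * (genusFF Qb F : ℝ) / E.M * (A.sum fun P n => (n : ℝ) * E.hP P) -
          E.lamD A A) - Cq
        ≤ B (E.M • cls (A - Finsupp.single o (genusFF Qb F : ℤ)) + κ)
            (E.M • cls (A - Finsupp.single o (genusFF Qb F : ℤ)) + κ))
    (c : Pic0 Qb F) :
    ∃ (x : ShiftIdx (genusFF Qb F) S) (A₀ : Divisor Qb F), 0 ≤ A₀ ∧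
      Divisor.degree A₀ = (x.1 : ℕ) ∧ ell A₀ = 1 ∧
      cls (A₀ - Finsupp.single o ((x.1 : ℕ) : ℤ)) = c ∧
      (E.M : ℝ) ^ 2 * (ε * ((A₀ + shiftDiv x).sum fun P n => (n : ℝ) * E.hP P) - C) - Cq
        ≤ B (E.M • (c + shiftCls o x) + κ) (E.M • (c + shiftCls o x) + κ) := by
  classical
  set g := genusFF Qb F
  obtain ⟨r, A₀, hr, hA₀, hd, hl, hc⟩ := exists_min_rep o c
  obtain ⟨T, hT⟩ := exists_completion hW S hS (g - r) A₀ hA₀
    (by rw [hd]; simp only [g] at *; omega) hl
  refine ⟨⟨⟨r, by omega⟩, T⟩, A₀, hA₀, hd, hl, hc, ?_⟩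
  set x : ShiftIdx g S := ⟨⟨r, by omega⟩, T⟩
  have hdA : Divisor.degree (A₀ + shiftDiv x) = g := by
    rw [map_add, hd, shiftDiv, degree_single_fin]; simp only [x]; omega
  have hA : 0 ≤ A₀ + shiftDiv x := add_nonneg hA₀ (single_sum_nonneg _)
  have hcl : cls (A₀ + shiftDiv x - Finsupp.single o (g : ℤ)) = c + shiftCls o x := by
    rw [← hc, shiftCls, ← cls_add (by rw [map_sub, hd, Divisor.degree_single, deg_eq_one]; simp)
      (by rw [map_sub, shiftDiv, degree_single_fin, Divisor.degree_single, deg_eq_one]; simp [x]),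
      sub_add_sub_comm, ← Finsupp.single_add]
    congr 3
    simp only [x]; omega
  have h1 := hCq _ hA hdA
  rw [hcl] at h1
  have h2 := mul_le_mul_of_nonneg_left (hEC _ hA hdA hT) (sq_nonneg (E.M : ℝ))
  linarith

/-- A shifted quadratic form expanded. -/
theorem pairing_expand {G : Type*} [AddCommGroup G] (B : G →+ G →+ ℝ)
    (hBs : ∀ a b, B a b = B b a) (M : ℕ) (κ y s : G) :
    B (M • (y + s) + κ) (M • (y + s) + κ)
      = (M : ℝ) ^ 2 * B y y + 2 * M * B y (M • s + κ) + B (M • s + κ) (M • s + κ) := by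
  simp only [map_add, map_nsmul, AddMonoidHom.add_apply, AddMonoidHom.nsmul_apply, nsmul_eq_mul,
    hBs s y, hBs κ y, hBs κ s]
  ring

/-- A symmetric pairing whose quadratic form is bounded below at one of finitely many shifts of
every element is positive semidefinite. -/
theorem nonneg_of_shifted_lower_bound {G : Type*} [AddCommGroup G] {ι : Type*} [Fintype ι]
    (B : G →+ G →+ ℝ) (hBs : ∀ a b, B a b = B b a) {M : ℕ} (hM : 0 < M) (κ : G) (s : ι → G)
    (K : ℝ) (h : ∀ y, ∃ x, -K ≤ B (M • (y + s x) + κ) (M • (y + s x) + κ)) (y : G) :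
    0 ≤ B y y := by
  classical
  have hM0 : (0 : ℝ) < M := Nat.cast_pos.2 hM
  by_contra hneg
  push Not at hneg
  set a := ∑ x : ι, |2 * (M : ℝ) * B y (M • s x + κ)|
  set b := ∑ x : ι, |B (M • s x + κ) (M • s x + κ)| + |K|
  have hab : ∀ n : ℕ, 0 ≤ (M : ℝ) ^ 2 * n ^ 2 * B y y + n * a + b := fun n => by
    obtain ⟨x, h⟩ := h (n • y)
    rw [pairing_expand B hBs] at h
    simp only [map_nsmul, AddMonoidHom.nsmul_apply, nsmul_eq_mul] at h
    have h1 : 2 * (M : ℝ) * B y (M • s x + κ) ≤ a := (le_abs_self _).trans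
      (Finset.single_le_sum (f := fun x : ι => |2 * (M : ℝ) * B y (M • s x + κ)|)
        (fun i _ => abs_nonneg _) (Finset.mem_univ x))
    have h2 : B (M • s x + κ) (M • s x + κ)
        ≤ ∑ x : ι, |B (M • s x + κ) (M • s x + κ)| := (le_abs_self _).trans
      (Finset.single_le_sum (f := fun x : ι => |B (M • s x + κ) (M • s x + κ)|)
        (fun i _ => abs_nonneg _) (Finset.mem_univ x))
    have h3 := mul_le_mul_of_nonneg_left h1 (Nat.cast_nonneg (α := ℝ) n)
    simp only [b]
    linarith [le_abs_self K]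
  have hb0 : 0 ≤ b := by positivity
  set d := -((M : ℝ) ^ 2 * B y y)
  have hd : 0 < d := neg_pos.2 (mul_neg_of_pos_of_neg (pow_pos hM0 2) hneg)
  obtain ⟨n, hn⟩ := exists_nat_gt (max 1 ((a + b) / d))
  have hn1 : (1 : ℝ) ≤ n := (le_max_left _ _).trans hn.le
  have hn2 : a + b < n * d := by
    rw [← div_lt_iff₀ hd]
    exact lt_of_le_of_lt (le_max_right _ _) hn
  nlinarith [hab n, mul_lt_mul_of_pos_left hn2 (lt_of_lt_of_le one_pos hn1),
    mul_le_mul_of_nonneg_right hn1 hb0]

/-- For a semidefinite pairing a shifted value is bounded by twice the unshifted one and twice the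
value of the shift. -/
theorem shifted_le_two_mul {G : Type*} [AddCommGroup G] (B : G →+ G →+ ℝ)
    (hBs : ∀ a b, B a b = B b a) (hpos : ∀ y, 0 ≤ B y y) (M : ℕ) (κ c s : G) :
    B (M • (c + s) + κ) (M • (c + s) + κ)
      ≤ 2 * (M : ℝ) ^ 2 * B c c + 2 * B (M • s + κ) (M • s + κ) := by
  have h1 := hpos ((M • c) - (M • s + κ))
  simp only [map_sub, map_nsmul, AddMonoidHom.sub_apply, AddMonoidHom.nsmul_apply,
    nsmul_eq_mul, hBs (M • s + κ) c] at h1
  rw [pairing_expand B hBs]
  linarith

/-- Only finitely many places have all coordinate ratios in a given finite set. -/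
theorem finite_places_of_ratios (E : Emb Qb F) {N : Set Qb} (hN : N.Finite) :
    {P : Place Qb F | ∃ b, E.x P b ≠ 0 ∧ ∀ i, E.x P i / E.x P b ∈ N}.Finite := by
  classical
  let Pts := {P : Place Qb F | ∃ b, E.x P b ≠ 0 ∧ ∀ i, E.x P i / E.x P b ∈ N}
  have hcodes : (Set.univ ×ˢ Set.pi Set.univ fun _ : Fin E.r => N :
      Set (Fin E.r × (Fin E.r → Qb))).Finite := Set.finite_univ.prod (Set.Finite.pi fun _ => hN)
  let code : Pts → (Set.univ ×ˢ Set.pi Set.univ fun _ : Fin E.r => N :
      Set (Fin E.r × (Fin E.r → Qb))) := fun P =>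
    ⟨(P.2.choose, fun i => E.x P.1 i / E.x P.1 P.2.choose),
      ⟨trivial, fun i _ => P.2.choose_spec.2 i⟩⟩
  have := hcodes.to_subtype
  refine Set.finite_coe_iff.1 (Finite.of_injective code fun P P' h => ?_)
  simp only [code, Subtype.mk.injEq, Prod.mk.injEq] at h
  refine Subtype.ext (E.place_ext (c := E.x P.1 P.2.choose / E.x P'.1 P'.2.choose) fun i => ?_)
  have h1 := congrFun h.2 i
  have n1 := P.2.choose_spec.1
  have n2 := P'.2.choose_spec.1
  field_simp at h1 ⊢
  linear_combination h1

/-- The minimal representative of a fixed class is fixed. -/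
theorem smul_eq_of_cls_fixed {o : Place Qb F} {γ : SemilinearAut Qb F} (ho : γ • o = o)
    {A₀ : Divisor Qb F} {r : ℕ} (hA₀ : 0 ≤ A₀) (hd₀ : Divisor.degree A₀ = r) (hl₀ : ell A₀ = 1)
    (hfix : γ • cls (A₀ - Finsupp.single o (r : ℤ)) = cls (A₀ - Finsupp.single o (r : ℤ))) :
    γ • A₀ = A₀ := by
  have hdz : Divisor.degree (A₀ - Finsupp.single o (r : ℤ)) = 0 := by
    rw [map_sub, hd₀, Divisor.degree_single, deg_eq_one]; simp
  refine eq_of_ell_one hA₀ (divisor_smul_nonneg _ hA₀) hl₀ ?_
  have h2 : cls (γ • A₀ - Finsupp.single o (r : ℤ)) = cls (A₀ - Finsupp.single o (r : ℤ)) := by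
    have h := smul_cls γ hdz
    rw [smul_sub, SemilinearAut.smul_single, ho, hfix] at h
    exact h.symm
  have h3 := isPrincipal_of_cls_eq (by
    rw [map_sub, SemilinearAut.degree_smul, hd₀, Divisor.degree_single, deg_eq_one]; simp) hdz h2
  rwa [sub_sub_sub_cancel_right] at h3

/-- The conjugates of a coordinate ratio of a point of a fixed divisor are values at its points of
the conjugates of one function. -/
theorem conj_ratio_bound {n : ℕ} (E : Emb Qb F) (ρ : (Qb ≃ₐ[ℚ] Qb) →* SemilinearAut Qb F)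
    (hρ : ∀ σ a, SemilinearAut.baseAut (ρ σ) a = σ a) {P : Fin n → Place Qb F}
    (hfix : ∀ σ, ρ σ • (∑ i, Finsupp.single (P i) (1 : ℤ) : Divisor Qb F) =
      ∑ i, Finsupp.single (P i) (1 : ℤ))
    (j : Fin n) {b : Fin E.r} (hb : E.x (P j) b ≠ 0) (i : Fin E.r)
    (horb : (Set.range fun σ => ρ σ • E.Y b i).Finite) :
    (Set.range fun σ : Qb ≃ₐ[ℚ] Qb => σ (E.x (P j) i / E.x (P j) b)).Finite ∧
      (Set.range fun σ : Qb ≃ₐ[ℚ] Qb => σ (E.x (P j) i / E.x (P j) b)).ncard ≤
        n * horb.toFinset.card := by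
  classical
  have hsub : (Set.range fun σ : Qb ≃ₐ[ℚ] Qb => σ (E.x (P j) i / E.x (P j) b))
      ⊆ ↑((Finset.univ.image P ×ˢ horb.toFinset).image fun q => evalAt q.1 q.2) := by
    rintro _ ⟨σ, rfl⟩
    simp only [Finset.coe_image, Set.mem_image, Finset.mem_coe, Finset.mem_product,
      Finset.mem_image, Finset.mem_univ, true_and]
    refine ⟨(ρ σ • P j, ρ σ • E.Y b i), ⟨?_, ?_⟩, ?_⟩
    · by_contra hcon
      push Not at hcon
      have h1 : (ρ σ • (∑ i, Finsupp.single (P i) (1 : ℤ) : Divisor Qb F)) (ρ σ • P j) =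
          (∑ i, Finsupp.single (P i) (1 : ℤ) : Divisor Qb F) (P j) :=
        SemilinearAut.divisor_smul_apply_smul _ _ _
      rw [hfix] at h1
      simp only [Finsupp.finsetSum_apply, Finsupp.single_apply, Finset.sum_boole] at h1
      rw [Finset.filter_false_of_mem fun i _ => hcon i, Finset.card_empty] at h1
      have : 0 < (Finset.univ.filter fun i => P i = P j).card := Finset.card_pos.2 ⟨j, by simp⟩
      omega
    · exact horb.mem_toFinset.2 ⟨σ, rfl⟩
    · change evalAt (ρ σ • P j) (ρ σ • E.Y b i) = _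
      rw [JAC.evalAt_smul _ (E.ordGE_Y hb i), E.evalAt_Y hb, hρ]
  refine ⟨(Finset.finite_toSet _).subset hsub, ?_⟩
  refine (Set.ncard_le_ncard hsub (Finset.finite_toSet _)).trans ?_
  rw [Set.ncard_coe_finset]
  refine Finset.card_image_le.trans ?_
  rw [Finset.card_product]
  refine Nat.mul_le_mul_right _ (Finset.card_image_le.trans ?_)
  rw [Finset.card_univ, Fintype.card_fin]

/-- **The height form**: a nonnegative quadratic form on divisor classes with finitely many
classes of bounded height among those fixed by a semilinear Galois action. -/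
theorem exists_height_form (hg : 1 ≤ genusFF Qb F)
    (ρ : (Qb ≃ₐ[ℚ] Qb) →* SemilinearAut Qb F)
    (hρ : ∀ σ a, SemilinearAut.baseAut (ρ σ) a = σ a)
    (horb : ∀ f : F, (Set.range fun σ => ρ σ • f).Finite)
    (o : Place Qb F) (ho : ∀ σ, ρ σ • o = o) :
    ∃ B : Pic0 Qb F →+ Pic0 Qb F →+ ℝ, (∀ a b, B a b = B b a) ∧ (∀ a, 0 ≤ B a a) ∧
      ∀ R : ℝ, {c : Pic0 Qb F | (∀ σ, ρ σ • c = c) ∧ B c c ≤ R}.Finite := by
  classical
  obtain ⟨W, hW⟩ := exists_isCanonical Qb F
  obtain ⟨E, ε, C, hε, hEC⟩ := exists_good_emb hg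
  obtain ⟨B, hBs, hB⟩ := E.exists_pairing o
  obtain ⟨κ, Cq, hCq⟩ := E.exists_quadratic_formula o B hBs hB
  set g := genusFF Qb F
  obtain ⟨S, hS⟩ := Infinite.exists_subset_card_eq (Place Qb F) (2 * g)
  have main := exists_shift_bound o hW hS.ge E B hEC fun A hA hdA => (hCq A hA hdA).1
  have hA_nonneg : ∀ A : Divisor Qb F, 0 ≤ A → 0 ≤ A.sum fun P n => (n : ℝ) * E.hP P :=
    fun A hA => Finset.sum_nonneg fun P _ =>
      mul_nonneg (Int.cast_nonneg (by simpa using Finsupp.le_def.1 hA P)) (E.hP_nonneg P)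
  have hM0 : (0 : ℝ) < E.M := Nat.cast_pos.2 (lt_of_lt_of_le (by norm_num) E.four_le_M)
  -- semipositivity
  have hpos : ∀ y, 0 ≤ B y y := nonneg_of_shifted_lower_bound B hBs (Nat.cast_pos.1 hM0) κ
    (shiftCls (g := g) (S := S) o) ((E.M : ℝ) ^ 2 * C + Cq) fun y => by
      obtain ⟨x, A₀, hA₀, -, -, -, h⟩ := main y
      refine ⟨x, le_trans ?_ h⟩
      have h4 : 0 ≤ (E.M : ℝ) ^ 2 * (ε * ((A₀ + shiftDiv x).sum fun P n => (n : ℝ) * E.hP P)) :=
        mul_nonneg (sq_nonneg _)
          (mul_nonneg hε.le (hA_nonneg _ (add_nonneg hA₀ (single_sum_nonneg _))))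
      linarith
  refine ⟨B, hBs, hpos, fun R => ?_⟩
  -- Northcott
  let sh : ShiftIdx g S → Pic0 Qb F := shiftCls o
  set R' := 2 * (E.M : ℝ) ^ 2 * R +
    2 * ∑ x : ShiftIdx g S, |B (E.M • sh x + κ) (E.M • sh x + κ)|
  set H := ((R' + Cq) / (E.M : ℝ) ^ 2 + C) / ε
  let orb : Fin E.r → Fin E.r → Finset F := fun b i => (horb (E.Y b i)).toFinset
  set d := g * (∑ b, ∑ i, (orb b i).card)
  let N := {a : Qb | absH₁ a ≤ H ∧ (Set.range fun σ : Qb ≃ₐ[ℚ] Qb => σ a).Finite ∧
      (Set.range fun σ : Qb ≃ₐ[ℚ] Qb => σ a).ncard ≤ d}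
  let Pts := {P : Place Qb F | ∃ b, E.x P b ≠ 0 ∧ ∀ i, E.x P i / E.x P b ∈ N}
  have hPfin : Pts.Finite := finite_places_of_ratios E (finite_absH₁_le H d)
  have := hPfin.to_subtype
  let mkc : (Σ r : Fin (g + 1), Fin r → Pts) → Pic0 Qb F := fun x =>
    cls (∑ i, Finsupp.single (x.2 i : Place Qb F) (1 : ℤ) - Finsupp.single o ((x.1 : ℕ) : ℤ))
  refine (Set.finite_range mkc).subset fun c hc => ?_
  obtain ⟨hfix, hBc⟩ := hc
  obtain ⟨x, A₀, hA₀, hd₀, hl₀, hcl, hmain⟩ := main c
  -- bound the height of the representative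
  have hH : ((A₀ + shiftDiv x).sum fun P n => (n : ℝ) * E.hP P) ≤ H := by
    have h1 := shifted_le_two_mul B hBs hpos E.M κ c (sh x)
    have h2 : B (E.M • sh x + κ) (E.M • sh x + κ)
        ≤ ∑ x, |B (E.M • sh x + κ) (E.M • sh x + κ)| := (le_abs_self _).trans
      (Finset.single_le_sum (f := fun x => |B (E.M • sh x + κ) (E.M • sh x + κ)|)
        (fun i _ => abs_nonneg _) (Finset.mem_univ x))
    have h3 := mul_le_mul_of_nonneg_left hBc (sq_nonneg (E.M : ℝ))
    have h4 : (E.M : ℝ) ^ 2 * (ε * ((A₀ + shiftDiv x).sum fun P n => (n : ℝ) * E.hP P) - C)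
        ≤ R' + Cq := by
      simp only [R']
      linarith
    simp only [H]
    rw [le_div_iff₀ hε, mul_comm]
    have := (le_div_iff₀' (pow_pos hM0 2)).2 h4
    linarith
  -- Its points have bounded height and degree, hence lie in a finite set.
  obtain ⟨P, hP⟩ := exists_enum hA₀ hd₀
  have hσA : ∀ σ, ρ σ • A₀ = A₀ := fun σ =>
    smul_eq_of_cls_fixed (ho σ) hA₀ hd₀ hl₀ (by rw [hcl, hfix σ])
  have hmem : ∀ j, P j ∈ Pts := fun j => by
    obtain ⟨b, hb⟩ := Function.ne_iff.1 (E.x_ne_zero (P j))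
    refine ⟨b, hb, fun i => ⟨?_, ?_⟩⟩
    · refine (absH₁_div_le (E.x (P j)) b i).trans (le_trans ?_ hH)
      rw [hP, shiftDiv,
        Finsupp.sum_add_index' (fun R => by simp) (fun R a b => by push_cast; ring), E.hA_sum,
        E.hA_sum]
      have h1 : E.hP (P j) ≤ ∑ i, E.hP (P i) :=
        Finset.single_le_sum (fun i _ => E.hP_nonneg _) (Finset.mem_univ j)
      have h2 : 0 ≤ ∑ i, E.hP (x.2 i : Place Qb F) := Finset.sum_nonneg fun i _ => E.hP_nonneg _
      exact h1.trans (by linarith)
    · obtain ⟨hfin, hle⟩ := conj_ratio_bound E ρ hρ (fun σ => hP ▸ hσA σ) j hb i (horb (E.Y b i))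
      refine ⟨hfin, hle.trans (Nat.mul_le_mul (Nat.le_of_lt_succ x.1.2) ?_)⟩
      exact (Finset.single_le_sum (f := fun i => (orb b i).card) (fun i _ => Nat.zero_le _)
        (Finset.mem_univ i)).trans (Finset.single_le_sum (f := fun b => ∑ i, (orb b i).card)
        (fun i _ => Nat.zero_le _) (Finset.mem_univ b))
  refine ⟨⟨x.1, fun i => ⟨P i, hmem i⟩⟩, ?_⟩
  simp only [mkc]
  rw [← hP, hcl]

end Fermat.HT.MW

end
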