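import Fermat.Agent.HT.MW.HomFinite
import Fermat.Agent.HT.MW.Finite
import Fermat.Agent.GR.ES.JZeroGalois
import Fermat.Agent.JAC.X0.Act
import Fermat.Agent.RED.Spec.Final
import Fermat.Agent.MC.Count
import Fermat.Agent.JAC.ConstExtExists
import Fermat.Agent.CFT.Galois.Levels

/-!
# Mordell–Weil for `J₀(N)` over `ℚ`

Weak Mordell–Weil (division by two gives characters unramified outside `2N`) and descent by the
height form.
-/

set_option autoImplicit false

noncomputable section

open AlgebraicCurve ModularCurve Fermat.FF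

namespace Fermat.HT.MW

local notation "ℚbar" => AlgebraicClosure ℚ
local notation "Γℚ" => (AlgebraicClosure ℚ ≃ₐ[ℚ] AlgebraicClosure ℚ)

variable (N : ℕ) [NeZero N]

/-- The group of rational points. -/
abbrev RatPts := FixedPoints.addSubgroup Γℚ (JZero N)

/-- Inertia outside `2N` fixes the halves of a rational point. -/
theorem inertia_fixes_half {y x : JZero N} (hy : ∀ σ : Γℚ, σ • y = y) (hx : x + x = y) {ℓ : ℕ}
    (hℓ : ℓ.Prime) (hℓN : ¬ ℓ ∣ N * 2) {A : ValuationSubring ℚbar} (hA : A.LiesOverPrime ℓ)
    {σ : Γℚ} (hσ : σ ∈ A.inertiaSubgroupIn ℚ) : σ • x = x := by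
  have hcomm := Fermat.JAC.X0.heckeOperatorsCommuteBar N
  let := heckeModuleBar N
  obtain ⟨J', _, _, sp, F, hsp, -⟩ := Fermat.RED.specializationExists N 2 hcomm
    (Fermat.GR.smulCommClass_heckeModuleBar hcomm) ℓ hℓ hℓN A hA
  refine sub_eq_zero.mp (hsp.injective_torsion _ ⟨1, ?_⟩ ?_)
  · rw [pow_one, two_nsmul, sub_add_sub_comm]
    exact sub_eq_zero.mpr (((smul_add σ x x).symm.trans ((congrArg (σ • ·) hx).trans (hy σ))).trans
      hx.symm)
  · rw [map_sub, hsp.inertia_comm σ hσ, sub_self]

/-- Multiplication by two is surjective on `J₀(N)(ℚ̄)`. -/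
theorem exists_half (y : JZero N) : ∃ x, x + x = y := by
  obtain ⟨x, hx⟩ := Fermat.RED.picDivisible_modularFunctionFieldBar N 2 (by norm_num) y
  exact ⟨x, by rw [← two_nsmul]; exact hx⟩

/-- The two-torsion is finite. -/
theorem finite_two_torsion : {t : JZero N | t + t = 0}.Finite := by
  have := Fermat.GR.isFunctionField_modularFunctionFieldBar N
  have hc := Fermat.JAC.natCard_torsion_of_ringHom (k := ℚbar) (F₀ := modularFunctionFieldBar N)
    (IsAlgClosed.lift : ℚbar →ₐ[ℚ] ℂ).toRingHom 2 (by norm_num)
  have : Finite (Pic0.torsion ℚbar (modularFunctionFieldBar N) 2) :=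
    Nat.finite_of_card_ne_zero (by rw [hc]; exact pow_ne_zero _ (by norm_num))
  refine (Set.finite_range (fun t : Pic0.torsion ℚbar (modularFunctionFieldBar N) 2 =>
    (t : JZero N))).subset fun t ht => ⟨⟨t, ?_⟩, rfl⟩
  have h2 : (2 : ℕ) • t = 0 := by rw [two_nsmul]; exact ht
  exact h2

section Halves

variable {G M : Type*} [Group G] [AddCommGroup M] [DistribMulAction G M]

variable (M) in
/-- The two-torsion. -/
private def twoTorsion : AddSubgroup M where
  carrier := {t | t + t = 0}
  zero_mem' := zero_add 0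
  add_mem' := fun {a b} ha hb => by
    change a + b + (a + b) = 0
    rw [add_add_add_comm, ha, hb, add_zero]
  neg_mem' := fun {a} ha => by
    change -a + -a = 0
    rw [← neg_add, ha, neg_zero]

/-- The group moves a half of a fixed element by two-torsion. -/
private theorem smul_half_sub_mem {y x : M} (hy : ∀ σ : G, σ • y = y) (hx : x + x = y) (σ : G) :
    σ • x - x ∈ twoTorsion M := by
  change σ • x - x + (σ • x - x) = 0
  rw [sub_add_sub_comm]
  exact sub_eq_zero.mpr (((smul_add σ x x).symm.trans ((congrArg (σ • ·) hx).trans (hy σ))).trans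
    hx.symm)

/-- The quadratic character cut out by a functional on the two-torsion and a half of a fixed
element, on a subgroup fixing the two-torsion. -/
private def halfChar {H : Subgroup G} (hT : ∀ t ∈ twoTorsion M, ∀ σ : H, (σ : G) • t = t)
    (f : twoTorsion M →+ ZMod 2) {y x : M} (hy : ∀ σ : G, σ • y = y) (hx : x + x = y) :
    H →* ℤˣ where
  toFun σ := if f ⟨(σ : G) • x - x, smul_half_sub_mem hy hx σ⟩ = 0 then 1 else -1
  map_one' := by
    rw [if_pos]
    rw [← map_zero f]
    exact congrArg f (Subtype.ext (show ((1 : H) : G) • x - x = 0 by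
      rw [OneMemClass.coe_one, one_smul, sub_self]))
  map_mul' σ τ := by
    have key : ∀ a b : ZMod 2, (if a + b = 0 then (1 : ℤˣ) else -1) =
        (if a = 0 then 1 else -1) * (if b = 0 then 1 else -1) := by decide
    rw [← key, ← map_add]
    congr 2
    refine congrArg f (Subtype.ext ?_)
    change ((σ : G) * (τ : G)) • x - x = ((σ : G) • x - x) + ((τ : G) • x - x)
    have := hT _ (smul_half_sub_mem hy hx τ) σ
    rw [smul_sub] at this
    rw [mul_smul]
    linear_combination (norm := abel) this

/-- Two elements moved equally by a subgroup and by representatives of its cosets differ by a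
fixed element. -/
private theorem smul_sub_eq_of_forall {H : Subgroup G} {x x' : M}
    (hrep : ∀ σ : G, ∃ ρ : G, ρ⁻¹ * σ ∈ H ∧ ρ • x - x = ρ • x' - x')
    (hfix : ∀ τ ∈ H, τ • x - x = τ • x' - x') (σ : G) : σ • (x - x') = x - x' := by
  obtain ⟨ρ, hk, e1⟩ := hrep σ
  have e2 := hfix _ hk
  have e3 : (ρ⁻¹ * σ) • (x - x') = x - x' := by
    rw [smul_sub]; linear_combination (norm := abel) e2
  rw [mul_smul, inv_smul_eq_iff] at e3
  rw [e3, smul_sub]
  linear_combination (norm := abel) e1

end Halves

variable {N} in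
/-- The characters of halves are unramified outside `2N`. -/
private theorem halfChar_mem_unramChars {L : IntermediateField ℚ ℚbar}
    (hT : ∀ t ∈ twoTorsion (JZero N), ∀ σ : L.fixingSubgroup, (σ : Γℚ) • t = t)
    (f : twoTorsion (JZero N) →+ ZMod 2) {y x : JZero N} (hy : ∀ σ : Γℚ, σ • y = y)
    (hx : x + x = y) :
    halfChar hT f hy hx ∈ unramChars L (2 :: N.primeFactorsList).toFinset := by
  have hone : ∀ σ : L.fixingSubgroup, (σ : Γℚ) • x = x → halfChar hT f hy hx σ = 1 :=
    fun σ h => by
      change (if f ⟨(σ : Γℚ) • x - x, _⟩ = 0 then (1 : ℤˣ) else -1) = 1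
      rw [if_pos]
      rw [← map_zero f]
      exact congrArg f (Subtype.ext (sub_eq_zero.mpr h))
  constructor
  · obtain ⟨E, hE, hEfix⟩ := Fermat.GR.exists_field_fix_point (x : JZero N)
    exact ⟨E, hE, fun σ hσ => hone σ (hEfix σ.1
      fun a ha => (IntermediateField.mem_fixingSubgroup_iff E σ.1).mp hσ a ha)⟩
  · intro ℓ hℓ hℓT A hA σ hσ
    have hℓN : ¬ ℓ ∣ N * 2 := by
      intro hd
      rcases (Nat.Prime.dvd_mul hℓ).mp hd with h | h
      · exact hℓT (List.mem_toFinset.mpr (List.mem_cons_of_mem _
          (Nat.mem_primeFactorsList_iff_dvd (NeZero.ne N) hℓ |>.mpr h)))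
      · exact hℓT (List.mem_toFinset.mpr (by
          rw [(Nat.prime_dvd_prime_iff_eq hℓ Nat.prime_two).mp h]; simp))
    exact hone σ (inertia_fixes_half N hy hx hℓ hℓN hA hσ)

/-- **Weak Mordell–Weil.** Finitely many points represent all rational points modulo twice a
point. -/
theorem exists_reps :
    ∃ reps : Finset (RatPts N), ∀ x : RatPts N, ∃ r ∈ reps, ∃ y, x = r + 2 • y := by
  classical
  obtain ⟨L₀, hL₀, hfix⟩ := Fermat.GR.exists_field_fix_set (finite_two_torsion N)
  have := hL₀
  set L : IntermediateField ℚ ℚbar := IntermediateField.normalClosure ℚ L₀ ℚbar with hL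
  have : FiniteDimensional ℚ L := by rw [hL]; infer_instance
  have : Normal ℚ L := by rw [hL]; exact normalClosure.normal ℚ L₀ ℚbar
  have hL₀L : L₀ ≤ L := IntermediateField.le_normalClosure L₀
  have : Finite (twoTorsion (JZero N)) := (finite_two_torsion N).to_subtype
  have hT : ∀ t ∈ twoTorsion (JZero N), ∀ σ : L.fixingSubgroup, (σ : Γℚ) • t = t := fun t ht σ =>
    hfix σ.1 (fun a ha => (IntermediateField.mem_fixingSubgroup_iff L σ.1).mp σ.2 a (hL₀L ha)) t ht
  choose half hhalf using exists_half N
  -- representatives of the cosets of `Γ_L`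
  choose rep hrep using fun g : L ≃ₐ[ℚ] L =>
    AlgEquiv.restrictNormalHom_surjective ℚbar (F := ℚ) (K₁ := L) g
  have : NumberField L := ⟨⟩
  have : Finite (unramChars L (2 :: N.primeFactorsList).toFinset) :=
    (finite_unramChars L _).to_subtype
  -- A point is sent to the translates of its half by the representatives and its characters.
  let Ψ : RatPts N → ((L ≃ₐ[ℚ] L) → twoTorsion (JZero N)) ×
      ((twoTorsion (JZero N) →+ ZMod 2) → unramChars L (2 :: N.primeFactorsList).toFinset) :=
    fun y =>
    (fun g => ⟨rep g • half y - half y, smul_half_sub_mem y.2 (hhalf y) _⟩,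
      fun f => ⟨halfChar hT f y.2 (hhalf y), halfChar_mem_unramChars hT f y.2 (hhalf y)⟩)
  have : Finite (twoTorsion (JZero N) →+ ZMod 2) := Finite.of_injective _ DFunLike.coe_injective
  obtain ⟨reps, hreps⟩ : ∃ reps : Finset (RatPts N), ∀ y, ∃ r ∈ reps, Ψ r = Ψ y := by
    choose g hg using fun z : Set.range Ψ => z.2
    have := Fintype.ofFinite (Set.range Ψ)
    exact ⟨Finset.univ.image g, fun y =>
      ⟨g ⟨Ψ y, y, rfl⟩, Finset.mem_image_of_mem _ (Finset.mem_univ _), hg _⟩⟩
  refine ⟨reps, fun y => ?_⟩
  obtain ⟨r, hr, hΨ⟩ := hreps y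
  let : Module (ZMod 2) (twoTorsion (JZero N)) := AddCommGroup.zmodModule fun t => by
    rw [two_nsmul]; exact Subtype.ext t.2
  -- Points with the same invariant have halves differing by a rational point.
  have hd : ∀ σ : Γℚ, σ • (half y - half r : JZero N) = half y - half r := by
    refine smul_sub_eq_of_forall (H := L.fixingSubgroup) (fun σ =>
      ⟨rep (AlgEquiv.restrictNormalHom L σ), ?_,
        congrArg Subtype.val (congrFun (congrArg Prod.fst hΨ) _).symm⟩) fun τ hτ => ?_
    · rw [← L.restrictNormalHom_ker, MonoidHom.mem_ker, map_mul, map_inv]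
      exact (congrArg (fun x : L ≃ₐ[ℚ] L => x⁻¹ * AlgEquiv.restrictNormalHom L σ)
        (hrep _)).trans (inv_mul_cancel _)
    refine congrArg Subtype.val (sub_eq_zero.mp ?_ :
      (⟨_, smul_half_sub_mem y.2 (hhalf y) τ⟩ : twoTorsion (JZero N)) =
        ⟨_, smul_half_sub_mem r.2 (hhalf r) τ⟩)
    refine (Module.forall_dual_apply_eq_zero_iff (ZMod 2) _).mp fun f => ?_
    have := congrArg
      (fun p => (p.2 f.toAddMonoidHom : L.fixingSubgroup →* ℤˣ) ⟨τ, hτ⟩) hΨ
    have key : ∀ a b : ZMod 2, (if a = 0 then (1 : ℤˣ) else -1) = (if b = 0 then 1 else -1) →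
        b - a = 0 := by decide
    rw [map_sub]
    exact key _ _ this
  refine ⟨r, hr, ⟨_, hd⟩, ?_⟩
  rw [two_nsmul]
  apply Subtype.ext
  change (y : JZero N) = r + ((half y - half r) + (half y - half r))
  conv_lhs => rw [← hhalf y]
  rw [← sub_eq_zero]
  linear_combination (norm := abel) hhalf (r : JZero N)

/-- The cusp `∞` is rational. -/
theorem exists_fixed_place : ∃ o : Place ℚbar (modularFunctionFieldBar N),
    ∀ σ : Γℚ, arithmeticGalois (modularFunctionFieldFull N) σ • o = o := by
  have := Fermat.GR.isFunctionField_modularFunctionFieldBar N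
  set τ : modularFunctionFieldBar N →+* LaurentSeries ℚbar :=
    (modularFunctionFieldBar N).val.toRingHom with hτ
  -- The series of order `≥ 0` form a valuation ring containing the constants.
  have hK : ∀ c : ℚbar, algebraMap ℚbar (modularFunctionFieldBar N) c ∈ Fermat.MC.pbSubring τ := by
    intro c
    rw [Fermat.MC.mem_pbSubring]
    rcases eq_or_ne c 0 with rfl | hc
    · exact Or.inl (map_zero _)
    · refine Or.inr (le_of_eq ?_)
      change (0 : ℤ) = (algebraMap ℚbar (LaurentSeries ℚbar) c).order
      simp [HahnSeries.algebraMap_apply', HahnSeries.C_apply, hc, HahnSeries.order_single]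
  -- It is proper, as `j` has a pole, so it is a place.
  have htop : Fermat.MC.pbSubring τ ≠ ⊤ := by
    intro htop
    set x : modularFunctionFieldBar N := ⟨coeffEmb ℚbar jq, Fermat.MC.jq_mem_FN N ℚbar⟩
    have hx : x ∈ Fermat.MC.pbSubring τ := htop ▸ ValuationSubring.mem_top _
    have hc : (coeffEmb ℚbar jq).coeff (-1) ≠ 0 := by
      simp [coeffEmb, coeff_jq_neg_one]
    rw [Fermat.MC.mem_pbSubring] at hx
    rcases hx with h | h
    · have := congrArg (fun z : modularFunctionFieldBar N => (z : LaurentSeries ℚbar)) h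
      exact hc (by simp [x] at this; simp [this])
    · have h1 : (coeffEmb ℚbar jq).order ≤ -1 := HahnSeries.order_le_of_coeff_ne_zero hc
      have h2 : (0 : ℤ) ≤ (coeffEmb ℚbar jq).order := h
      omega
  refine ⟨placeOfValuationSubring hK htop, fun σ => Place.ext ?_⟩
  rw [SemilinearAut.smul_toValuationSubring, placeOfValuationSubring_toValuationSubring]
  refine SetLike.ext fun f => ?_
  rw [ValuationSubring.mem_pointwise_smul_iff_inv_smul_mem, ← map_inv, Fermat.MC.mem_pbSubring,
    Fermat.MC.mem_pbSubring]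
  -- Galois acts on coefficients, so it preserves the order.
  have h1 : Fermat.MC.ordT τ (arithmeticGalois (modularFunctionFieldFull N) σ⁻¹ • f) =
      Fermat.MC.ordT τ f := by
    change (coeffMap ((σ⁻¹ : Γℚ) : ℚbar →+* ℚbar) (f : LaurentSeries ℚbar)).order =
      (f : LaurentSeries ℚbar).order
    rcases eq_or_ne (f : LaurentSeries ℚbar) 0 with h | h
    · simp [h]
    · have hne : ∀ n, (coeffMap ((σ⁻¹ : Γℚ) : ℚbar →+* ℚbar) (f : LaurentSeries ℚbar)).coeff n ≠ 0 ↔
          (f : LaurentSeries ℚbar).coeff n ≠ 0 := fun n => by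
        change ((σ⁻¹ : Γℚ) ((f : LaurentSeries ℚbar).coeff n)) ≠ 0 ↔ _
        simp
      refine le_antisymm (HahnSeries.order_le_of_coeff_ne_zero
        ((hne _).mpr (HahnSeries.coeff_order_eq_zero.not.mpr h))) ?_
      exact HahnSeries.order_le_of_coeff_ne_zero ((hne _).mp
        (HahnSeries.coeff_order_eq_zero.not.mpr fun e => h ((map_eq_zero _).mp e)))
  rw [h1, smul_eq_zero_iff_eq]

/-- **Mordell–Weil.** The group `RatPts N` of rational points is finitely generated. -/
theorem fg_ratPts : AddGroup.FG (RatPts N) := by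
  have := Fermat.GR.isFunctionField_modularFunctionFieldBar N
  -- Galois orbits of functions are finite
  have horb : ∀ f : modularFunctionFieldBar N,
      (Set.range fun σ : Γℚ => arithmeticGalois (modularFunctionFieldFull N) σ • f).Finite :=
    fun f => by
    obtain ⟨E, hE, hfix⟩ := Fermat.GR.exists_field_fix_fun f
    have := hE
    have : Finite (Γℚ ⧸ E.fixingSubgroup) :=
      @Subgroup.finite_quotient_of_finiteIndex _ _ _ (Fermat.CFT.fixingSubgroup_finiteIndex E)
    let F : Γℚ ⧸ E.fixingSubgroup → modularFunctionFieldBar N :=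
      Quotient.lift (fun σ => arithmeticGalois (modularFunctionFieldFull N) σ • f) fun a b hab => by
        replace hab := (QuotientGroup.leftRel_apply (s := E.fixingSubgroup)).mp hab
        have h := hfix _ fun x hx => (IntermediateField.mem_fixingSubgroup_iff E _).mp hab x hx
        rw [map_mul, map_inv, mul_smul, inv_smul_eq_iff] at h
        exact h.symm
    exact (Set.finite_range F).subset fun _ ⟨σ, hσ⟩ => ⟨QuotientGroup.mk σ, hσ⟩
  by_cases hg : 1 ≤ genusFF ℚbar (modularFunctionFieldBar N)
  -- in positive genus, descent with the height form and finitely many representatives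
  · obtain ⟨o, ho⟩ := exists_fixed_place N
    obtain ⟨B, hs, h0, hfin⟩ := exists_height_form hg
      (arithmeticGalois (modularFunctionFieldFull N))
      (fun σ a => rfl) horb o ho
    · obtain ⟨reps, hreps⟩ := exists_reps N
      refine fg_of_descent ((B.comp (RatPts N).subtype).flip.comp (RatPts N).subtype).flip
        (fun a b => hs a b) (fun a => h0 a) (fun R => ?_) ⟨reps, hreps⟩
      refine Set.Finite.subset ((hfin R).preimage (f := fun x : RatPts N => (x : JZero N))
        Subtype.val_injective.injOn) fun x hx => ⟨fun σ => x.2 σ, hx⟩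
  -- in genus zero the group is trivial
  · have htriv : ∀ c : JZero N, c = 0 := by
      intro c
      obtain ⟨⟨D, hD⟩, rfl⟩ := Pic0.mk_surjective c
      have hl : ell D ≠ 0 := fun h => by
        have := riemann_inequality D
        rw [Divisor.mem_degZero.mp hD, h] at this
        omega
      obtain ⟨f, hf, rfl⟩ := ell_eq_one_of_degree_zero (Divisor.mem_degZero.mp hD) hl
      exact (QuotientAddGroup.eq_zero_iff _).mpr ⟨f, hf, fun v => divOf_apply f v⟩
    exact ⟨⟨∅, eq_top_iff.mpr fun x _ => by
      rw [show x = 0 from Subtype.ext (htriv x)]; exact zero_mem _⟩⟩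

end Fermat.HT.MW

end
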