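import Fermat.Agent.CFT.Density.Places
import Mathlib.NumberTheory.Height.NumberField
import Mathlib.NumberTheory.NumberField.InfinitePlace.Ramification
import Mathlib.RingTheory.Ideal.Norm.RelNorm
import Mathlib.FieldTheory.IsAlgClosed.AlgebraicClosure

/-!
# Absolute heights of tuples of algebraic numbers

The height is `absH`, and `finite_absH₁_le` is Northcott's theorem in bounded degree.
-/

set_option autoImplicit false

noncomputable section

open NumberField IntermediateField Module

namespace Fermat.HT.MW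

/-- The field of algebraic numbers. -/
abbrev Qb : Type := AlgebraicClosure ℚ

section BaseChange

variable {L L' : Type*} [Field L] [NumberField L] [Field L'] [NumberField L'] [Algebra L L']

/-- A sum over infinite places weighted by multiplicity is the sum over the embeddings. -/
theorem sum_mult_eq_sum_embeddings (g : (L →+* ℂ) → ℝ) (f : InfinitePlace L → ℝ)
    (h : ∀ φ, g φ = f (InfinitePlace.mk φ)) :
    ∑ v : InfinitePlace L, (v.mult : ℝ) * f v = ∑ φ : L →+* ℂ, g φ := by
  classical
  rw [← Finset.sum_fiberwise Finset.univ InfinitePlace.mk g]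
  refine Finset.sum_congr rfl fun v _ => ?_
  rw [Finset.sum_congr rfl fun φ hφ => (h φ).trans (congrArg f (Finset.mem_filter.1 hφ).2),
    Finset.sum_const, InfinitePlace.card_filter_mk_eq, nsmul_eq_mul]

/-- A sum over the embeddings of an extension is the degree times that over the field. -/
theorem sum_embeddings_comp (g : (L →+* ℂ) → ℝ) :
    ∑ φ : L' →+* ℂ, g (φ.comp (algebraMap L L')) = (finrank L L' : ℝ) * ∑ φ : L →+* ℂ, g φ := by
  classical
  rw [← Finset.sum_fiberwise Finset.univ (fun φ : L' →+* ℂ => φ.comp (algebraMap L L')) _,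
    Finset.mul_sum]
  refine Finset.sum_congr rfl fun φ _ => ?_
  rw [Finset.sum_congr rfl fun ψ hψ => congrArg g (Finset.mem_filter.1 hψ).2, Finset.sum_const,
    nsmul_eq_mul]
  congr 2
  let : Algebra L ℂ := φ.toAlgebra
  rw [← AlgHom.card L L' ℂ, ← Fintype.card_subtype]
  exact Fintype.card_congr
    { toFun := fun ψ =>
        { ψ.1 with commutes' := fun a => DFunLike.congr_fun ψ.2 a }
      invFun := fun e => ⟨e.toRingHom, RingHom.ext fun a => e.commutes a⟩
      left_inv := fun _ => rfl
      right_inv := fun _ => rfl }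

/-- The infinite part of the height. -/
def archH {ι : Type*} (x : ι → L) : ℝ := ∑ φ : L →+* ℂ, Real.log (⨆ i, ‖φ (x i)‖)

/-- The infinite part of the height in an extension is the degree times that over the field. -/
theorem archH_algebraMap {ι : Type*} (x : ι → L) :
    archH (fun i => algebraMap L L' (x i)) = (finrank L L' : ℝ) * archH x :=
  sum_embeddings_comp fun φ => Real.log (⨆ i, ‖φ (x i)‖)

variable {ι : Type*} [Finite ι]

/-- The height of an integral tuple is its archimedean height minus the logarithm of the norm of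
its content. -/
theorem logHeight_integral {x : ι → 𝓞 L} (hx : x ≠ 0) :
    Height.logHeight (fun i => (x i : L))
      = archH (fun i => (x i : L)) - Real.log (Ideal.absNorm (Ideal.span (Set.range x))) := by
  classical
  have hx' : (fun i => (x i : L)) ≠ 0 := fun h => hx (funext fun i => Subtype.ext (congrFun h i))
  obtain ⟨i₀, hi₀⟩ := Function.ne_iff.1 hx
  have hN : (Ideal.absNorm (Ideal.span (Set.range x)) : ℝ) ≠ 0 := by
    rw [Nat.cast_ne_zero, Ne, Ideal.absNorm_eq_zero_iff, Ideal.span_eq_bot]
    exact fun h => hi₀ (h _ ⟨i₀, rfl⟩)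
  have hfin := NumberField.absNorm_mul_finprod_finitePlace_eq_one hx
  have hpos : ∀ v : InfinitePlace L, 0 < ⨆ i, v (x i : L) := fun v =>
    lt_of_lt_of_le (InfinitePlace.pos_iff.2 (fun h => hi₀ (Subtype.ext h)))
      (Finite.le_ciSup (fun i => v (x i : L)) i₀)
  have hfp : (∏ᶠ v : FinitePlace L, ⨆ i, v (x i : L))
      = ((Ideal.absNorm (Ideal.span (Set.range x)) : ℝ))⁻¹ := eq_inv_of_mul_eq_one_right hfin
  rw [Height.logHeight_eq_log_mulHeight, NumberField.mulHeight_eq hx', hfp,
    Real.log_mul (Finset.prod_ne_zero_iff.2 fun v _ => pow_ne_zero _ (hpos v).ne')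
      (inv_ne_zero hN), Real.log_inv, Real.log_prod fun v _ => pow_ne_zero _ (hpos v).ne']
  simp only [Real.log_pow]
  rw [archH, ← sub_eq_add_neg, sum_mult_eq_sum_embeddings
    (fun φ => Real.log (⨆ i, ‖φ (x i : L)‖)) (fun v => Real.log (⨆ i, v (x i : L)))
    fun φ => by simp [InfinitePlace.apply]]

/-- The height in an extension is the degree times the height. -/
theorem logHeight_algebraMap (x : ι → L) :
    Height.logHeight (fun i => algebraMap L L' (x i))
      = (finrank L L' : ℝ) * Height.logHeight x := by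
  classical
  rcases eq_or_ne x 0 with rfl | hx
  · simp
  have := Fintype.ofFinite ι
  -- Scale to an integral tuple; its content extends to that of the tuple upstairs.
  obtain ⟨d, hd⟩ := IsLocalization.exist_integer_multiples (nonZeroDivisors (𝓞 L))
    (Finset.univ : Finset ι) x
  choose y hy using fun i => hd i (Finset.mem_univ i)
  have hy' : (fun i => (y i : L)) = ((d : 𝓞 L) : L) • x := funext fun i => by
    change (y i : L) = ((d : 𝓞 L) : L) • x i
    exact (hy i).trans (Algebra.smul_def _ _)
  have hd0 : ((d : 𝓞 L) : L) ≠ 0 := by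
    exact_mod_cast nonZeroDivisors.coe_ne_zero d
  have hy0 : y ≠ 0 := fun h => hx (funext fun i => by
    have := congrFun hy' i
    simp [h, hd0] at this
    exact this)
  let z : ι → 𝓞 L' := fun i => algebraMap (𝓞 L) (𝓞 L') (y i)
  have hz0 : z ≠ 0 := fun h => hy0 (funext fun i =>
    (FaithfulSMul.algebraMap_injective (𝓞 L) (𝓞 L')) (by simpa [z] using congrFun h i))
  have hz : (fun i => (z i : L')) = fun i => algebraMap L L' (y i : L) := rfl
  have hsmul : (fun i => algebraMap L L' (y i : L))
      = algebraMap L L' ((d : 𝓞 L) : L) • fun i => algebraMap L L' (x i) := funext fun i => by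
    change algebraMap L L' (y i : L) = _ * algebraMap L L' (x i)
    rw [← map_mul]
    exact congrArg _ (congrFun hy' i)
  have hsp : Ideal.span (Set.range z)
      = (Ideal.span (Set.range y)).map (algebraMap (𝓞 L) (𝓞 L')) := by
    rw [Ideal.map_span, ← Set.range_comp]
    rfl
  have hfr : finrank (𝓞 L) (𝓞 L') = finrank L L' :=
    (IsFractionRing.finrank_eq (𝓞 L) L (𝓞 L') L').symm
  rw [← Height.logHeight_smul_eq_logHeight x hd0, ← hy', ← Height.logHeight_smul_eq_logHeight
    (fun i => algebraMap L L' (x i)) (c := algebraMap L L' ((d : 𝓞 L) : L)) (by simp),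
    ← hsmul, ← hz, logHeight_integral hz0, logHeight_integral hy0, hz, archH_algebraMap, hsp,
    Ideal.absNorm_algebraMap, Nat.cast_pow, Real.log_pow, hfr]
  ring

end BaseChange

variable {ι : Type*} [Finite ι]

/-- Finitely many algebraic numbers generate a finite extension of `ℚ`. -/
theorem finiteDimensional_adjoin_range (x : ι → Qb) :
    FiniteDimensional ℚ (adjoin ℚ (Set.range x)) := by
  have := (Set.finite_range x).to_subtype
  exact IntermediateField.finiteDimensional_adjoin fun a _ => Algebra.IsIntegral.isIntegral a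

/-- The absolute logarithmic height of a tuple of algebraic numbers. -/
def absH (x : ι → Qb) : ℝ :=
  haveI := finiteDimensional_adjoin_range x
  haveI : NumberField (adjoin ℚ (Set.range x)) := Fermat.CFT.qbar_numberField _
  Height.logHeight (fun i => (⟨x i, subset_adjoin ℚ _ ⟨i, rfl⟩⟩ : adjoin ℚ (Set.range x)))
    / (finrank ℚ (adjoin ℚ (Set.range x)) : ℝ)

/-- The absolute height is the height divided by the degree. -/
theorem absH_comp_embedding {L : Type*} [Field L] [NumberField L] (e : L →+* Qb) (x : ι → L) :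
    absH (fun i => e (x i)) = Height.logHeight x / (finrank ℚ L : ℝ) := by
  set y : ι → Qb := fun i => e (x i)
  have := finiteDimensional_adjoin_range y
  set M := adjoin ℚ (Set.range y)
  let eA : L →ₐ[ℚ] Qb := RingHom.toRatAlgHom e
  have hle : M ≤ eA.fieldRange := adjoin_le_iff.2 (by
    rintro _ ⟨i, rfl⟩
    exact ⟨x i, rfl⟩)
  let f : M →+* L := (AlgEquiv.ofInjectiveField eA).symm.toRingEquiv.toRingHom.comp
    ((IntermediateField.inclusion hle).toRingHom)
  let : Algebra M L := f.toAlgebra
  have hf : ∀ i, algebraMap M L ⟨y i, subset_adjoin ℚ _ ⟨i, rfl⟩⟩ = x i := fun i => by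
    change (AlgEquiv.ofInjectiveField eA).symm _ = x i
    rw [AlgEquiv.symm_apply_eq]
    rfl
  have : IsScalarTower ℚ M L := IsScalarTower.of_algebraMap_eq' (RingHom.ext_rat _ _)
  have key := logHeight_algebraMap (L' := L)
    (fun i => (⟨y i, subset_adjoin ℚ _ ⟨i, rfl⟩⟩ : M))
  simp only [hf] at key
  rw [key, absH, ← Module.finrank_mul_finrank ℚ M L, Nat.cast_mul,
    mul_comm (finrank ℚ M : ℝ), mul_div_mul_left _ _ (Nat.cast_ne_zero.2 finrank_pos.ne')]

/-- The absolute height computed in any number field containing the coordinates. -/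
theorem absH_eq {L : IntermediateField ℚ Qb} [FiniteDimensional ℚ L] (x : ι → L) :
    absH (fun i => (x i : Qb)) = Height.logHeight x / (finrank ℚ L : ℝ) :=
  absH_comp_embedding L.val.toRingHom x

/-- The absolute height is nonnegative. -/
theorem absH_nonneg (x : ι → Qb) : 0 ≤ absH x := by
  have := finiteDimensional_adjoin_range x
  have : NumberField (adjoin ℚ (Set.range x)) := Fermat.CFT.qbar_numberField _
  exact div_nonneg (Height.logHeight_nonneg _) (Nat.cast_nonneg _)

/-- The absolute height is invariant under field endomorphisms. -/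
theorem absH_map (σ : Qb →+* Qb) (x : ι → Qb) : absH (fun i => σ (x i)) = absH x := by
  have := finiteDimensional_adjoin_range x
  exact absH_comp_embedding (σ.comp (adjoin ℚ (Set.range x)).val.toRingHom)
    fun i => ⟨x i, subset_adjoin ℚ _ ⟨i, rfl⟩⟩

/-- The absolute height is invariant under scaling. -/
theorem absH_smul (x : ι → Qb) {c : Qb} (hc : c ≠ 0) : absH (fun i => c * x i) = absH x := by
  set S := Set.range fun o : Option ι => o.elim c x
  have : FiniteDimensional ℚ (adjoin ℚ S) := finiteDimensional_adjoin_range _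
  let c' : adjoin ℚ S := ⟨c, subset_adjoin ℚ _ ⟨none, rfl⟩⟩
  let x' : ι → adjoin ℚ S := fun i => ⟨x i, subset_adjoin ℚ _ ⟨some i, rfl⟩⟩
  have h1 := absH_eq (c' • x')
  have h2 := absH_eq x'
  rw [Height.logHeight_smul_eq_logHeight x' (fun h => hc (congrArg Subtype.val h))] at h1
  exact h1.trans h2.symm

/-- The absolute height is invariant under negation. -/
theorem absH_neg (x : ι → Qb) : absH (fun i => -x i) = absH x := by
  simpa using absH_smul x (c := -1) (by norm_num)

/-- The absolute height of an algebraic number. -/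
def absH₁ (a : Qb) : ℝ := absH ![a, 1]

/-- The height of a number computed in any number field containing it. -/
theorem absH₁_eq {L : IntermediateField ℚ Qb} [FiniteDimensional ℚ L] (a : L) :
    absH₁ (a : Qb) = Height.logHeight₁ a / (finrank ℚ L : ℝ) := by
  rw [Height.logHeight₁_eq_logHeight, ← absH_eq ![a, 1], absH₁]
  congr 1
  ext i
  fin_cases i <;> rfl

/-- The height of a number is invariant under field endomorphisms. -/
theorem absH₁_map (σ : Qb →+* Qb) (a : Qb) : absH₁ (σ a) = absH₁ a := by
  have h := absH_map σ ![a, 1]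
  rw [absH₁, absH₁, ← h]
  congr 1
  ext i
  fin_cases i <;> simp

/-- The height of a ratio of two coordinates is at most the height of the tuple. -/
theorem absH₁_div_le (x : ι → Qb) (b i : ι) :
    absH₁ (x i / x b) ≤ absH x := by
  have := finiteDimensional_adjoin_range x
  let x' : ι → adjoin ℚ (Set.range x) := fun j => ⟨x j, subset_adjoin ℚ _ ⟨j, rfl⟩⟩
  have h := absH₁_eq (x' i / x' b)
  have h2 := absH_eq x'
  rw [show (x i / x b) = ((x' i / x' b : adjoin ℚ (Set.range x)) : Qb) from rfl, h,
    show absH x = absH (fun j => (x' j : Qb)) from rfl, h2,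
    Height.logHeight₁_div_eq_logHeight _ _]
  · refine div_le_div_of_nonneg_right ?_ (Nat.cast_nonneg _)
    have : ![x' i, x' b] = x' ∘ ![i, b] := by ext j; fin_cases j <;> rfl
    rw [this]
    exact Height.logHeight_comp_le _ _

/-- The heights of the coefficients of a product of linear factors are bounded by those of the
roots. -/
theorem logHeight₁_coeff_prod_le {L : Type*} [Field L] [NumberField L] {β : Type*} (O : Finset β)
    (f : β → L) {X : ℝ} (hX : 0 ≤ X) (hf : ∀ b ∈ O, Height.logHeight₁ (f b) ≤ X) (i : ℕ) :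
    Height.logHeight₁ ((∏ b ∈ O, (Polynomial.X - Polynomial.C (f b))).coeff i)
      ≤ 3 ^ O.card * (X + (finrank ℚ L : ℝ) * Real.log 2) := by
  classical
  set Y := (finrank ℚ L : ℝ) * Real.log 2
  have hY : 0 ≤ Y := mul_nonneg (Nat.cast_nonneg _) (Real.log_nonneg one_le_two)
  induction O using Finset.induction_on generalizing i with
  | empty =>
    rcases i with _ | i <;> simp [Polynomial.coeff_one] <;> positivity
  | insert b O hb ih =>
    replace ih := ih fun b' hb' => hf b' (Finset.mem_insert_of_mem hb')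
    have hfb := hf b (Finset.mem_insert_self b O)
    have h3 : (1 : ℝ) ≤ 3 ^ O.card := one_le_pow₀ (by norm_num)
    set q := ∏ b' ∈ O, (Polynomial.X - Polynomial.C (f b'))
    rw [Finset.prod_insert hb, Finset.card_insert_of_notMem hb, pow_succ]
    have hXY : X + Y ≤ 3 ^ O.card * (X + Y) := le_mul_of_one_le_left (by linarith) h3
    rcases i with _ | i
    · rw [Polynomial.mul_coeff_zero, Polynomial.coeff_sub, Polynomial.coeff_X_zero,
        Polynomial.coeff_C_zero, zero_sub, neg_mul, Height.logHeight₁_neg]
      linarith [Height.logHeight₁_mul_le (f b) (q.coeff 0), ih 0]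
    · rw [sub_mul, Polynomial.coeff_sub, Polynomial.coeff_X_mul, Polynomial.coeff_C_mul]
      have h := Height.logHeight₁_sub_le (q.coeff i) (f b * q.coeff (i + 1))
      rw [NumberField.totalWeight_eq_finrank] at h
      linarith [Height.logHeight₁_mul_le (f b) (q.coeff (i + 1)), ih i, ih (i + 1)]

/-- **Northcott** for algebraic numbers of bounded degree. -/
theorem finite_absH₁_le (B : ℝ) (d : ℕ) :
    {a : Qb | absH₁ a ≤ B ∧ (Set.range fun σ : Qb ≃ₐ[ℚ] Qb => σ a).Finite ∧
      (Set.range fun σ : Qb ≃ₐ[ℚ] Qb => σ a).ncard ≤ d}.Finite := by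
  classical
  set T := {a : Qb | absH₁ a ≤ B ∧ (Set.range fun σ : Qb ≃ₐ[ℚ] Qb => σ a).Finite ∧
    (Set.range fun σ : Qb ≃ₐ[ℚ] Qb => σ a).ncard ≤ d}
  set Bd := (3 : ℝ) ^ d * (|B| + Real.log 2) with hBd
  -- It suffices to find a polynomial over `ℚ` of bounded degree and coefficient heights.
  suffices h : ∀ a ∈ T, ∃ p : Polynomial ℚ, p ≠ 0 ∧ p.natDegree ≤ d ∧ Polynomial.aeval a p = 0 ∧
      ∀ i, Height.logHeight₁ (p.coeff i) ≤ Bd by
    let Q := {q : ℚ | Height.logHeight₁ q ≤ Bd}
    have hQ : Q.Finite := NumberField.finite_setOfPred_logHeight₁_le ℚ Bd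
    have := hQ.to_subtype
    let mk : (Fin (d + 1) → Q) → Polynomial ℚ := fun f =>
      ∑ i, Polynomial.monomial i.1 (f i : ℚ)
    refine ((Set.finite_range mk).biUnion fun p _ =>
      ((p.aroots Qb).toFinset.finite_toSet)).subset fun a ha => ?_
    obtain ⟨p, hp0, hpd, hpa, hpc⟩ := h a ha
    refine Set.mem_biUnion (x := p) ⟨fun i => ⟨p.coeff i, hpc i⟩, ?_⟩ ?_
    · exact ((p.as_sum_range' (d + 1) (by omega)).trans
        (Finset.sum_range (fun i => Polynomial.monomial i (p.coeff i)))).symm
    · simp [hp0, hpa]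
  intro a ha
  obtain ⟨haB, hfin, hcard⟩ := ha
  set O := hfin.toFinset
  -- the product over the conjugates of `a` is rational
  set P : Polynomial Qb := ∏ b ∈ O, (Polynomial.X - Polynomial.C b)
  have hmem : ∀ b, b ∈ O ↔ ∃ σ : Qb ≃ₐ[ℚ] Qb, σ a = b := fun b => by simp [O]
  have hOσ : ∀ σ : Qb ≃ₐ[ℚ] Qb, O.image σ = O := fun σ => by
    ext b
    simp only [Finset.mem_image, hmem]
    constructor
    · rintro ⟨_, ⟨τ, rfl⟩, rfl⟩
      exact ⟨σ * τ, rfl⟩
    · rintro ⟨τ, rfl⟩
      exact ⟨σ.symm (τ a), ⟨σ.symm * τ, rfl⟩, σ.apply_symm_apply _⟩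
  have hcf : ∀ i (σ : Qb ≃ₐ[ℚ] Qb), σ (P.coeff i) = P.coeff i := fun i σ => by
    have : P.map (σ : Qb →+* Qb) = P := by
      simp only [P, Polynomial.map_prod, Polynomial.map_sub, Polynomial.map_X, Polynomial.map_C]
      conv_rhs => rw [← hOσ σ, Finset.prod_image σ.injective.injOn]
      rfl
    conv_rhs => rw [← this, Polynomial.coeff_map]
    rfl
  have hrat : ∀ i, ∃ q : ℚ, algebraMap ℚ Qb q = P.coeff i := fun i =>
    IntermediateField.mem_bot.1 ((InfiniteGalois.mem_bot_iff_fixed _).2 fun σ => hcf i σ)
  obtain ⟨p, hp, hpdeg⟩ : ∃ p : Polynomial ℚ, p.map (algebraMap ℚ Qb) = P ∧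
      p.natDegree = P.natDegree := by
    obtain ⟨p, hp⟩ : P ∈ Polynomial.lifts (algebraMap ℚ Qb) :=
      (Polynomial.lifts_iff_coeff_lifts P).2 hrat
    exact ⟨p, hp, by rw [← hp]; exact (Polynomial.natDegree_map _).symm⟩
  have hmon : P.Monic :=
    Polynomial.monic_prod_of_monic _ _ fun (b : Qb) _ => Polynomial.monic_X_sub_C b
  have hdeg : P.natDegree = O.card := by
    simp [P, Polynomial.natDegree_prod_of_monic _ _ fun (b : Qb) _ => Polynomial.monic_X_sub_C b]
  have hOd : O.card ≤ d := by rwa [← Set.ncard_eq_toFinset_card _ hfin]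
  -- it has bounded degree and kills `a`
  refine ⟨p, fun h => ?_, by omega, ?_, fun i => ?_⟩
  · rw [h, Polynomial.map_zero] at hp
    exact hmon.ne_zero hp.symm
  · rw [Polynomial.aeval_def, ← Polynomial.eval_map, hp, Polynomial.eval_prod]
    exact Finset.prod_eq_zero ((hmem a).2 ⟨1, rfl⟩) (by simp)
  -- its coefficients have bounded height
  · set L := adjoin ℚ (O : Set Qb)
    have : FiniteDimensional ℚ L :=
      IntermediateField.finiteDimensional_adjoin fun b _ => Algebra.IsIntegral.isIntegral b
    have : NumberField L := Fermat.CFT.qbar_numberField L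
    let f : O → L := fun b => ⟨b.1, subset_adjoin ℚ _ b.2⟩
    have hf : ∀ b ∈ (Finset.univ : Finset O), Height.logHeight₁ (f b) ≤ finrank ℚ L * |B| :=
      fun b _ => by
        obtain ⟨σ, hσ⟩ := (hmem _).1 b.2
        have h1 : absH₁ (b.1 : Qb) ≤ |B| := by
          rw [← hσ]
          exact ((absH₁_map (σ : Qb →+* Qb) a).le.trans haB).trans (le_abs_self B)
        rw [show b.1 = (f b : Qb) from rfl, absH₁_eq (f b),
          div_le_iff₀ (Nat.cast_pos.2 (finrank_pos (R := ℚ) (M := L)))] at h1
        linarith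
    have key := logHeight₁_coeff_prod_le Finset.univ f (by positivity) hf i
    set c := (∏ b : O, (Polynomial.X - Polynomial.C (f b))).coeff i
    have hc : algebraMap ℚ Qb (p.coeff i) = (c : Qb) := by
      have : (∏ b : O, (Polynomial.X - Polynomial.C (f b))).map (L.val : L →+* Qb) = P := by
        rw [Polynomial.map_prod]
        simp only [Polynomial.map_sub, Polynomial.map_X, Polynomial.map_C]
        exact Finset.prod_coe_sort O fun b => Polynomial.X - Polynomial.C b
      rw [← Polynomial.coeff_map, hp, ← this, Polynomial.coeff_map]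
      rfl
    have hp' : absH₁ (algebraMap ℚ Qb (p.coeff i)) = Height.logHeight₁ (p.coeff i) := by
      have h := absH_comp_embedding (algebraMap ℚ Qb) ![p.coeff i, 1]
      rw [Module.finrank_self, Nat.cast_one, div_one, ← Height.logHeight₁_eq_logHeight] at h
      rw [← h, absH₁]
      congr 1
      ext j
      fin_cases j <;> simp
    rw [← hp', hc, absH₁_eq c, div_le_iff₀ (Nat.cast_pos.2 (finrank_pos (R := ℚ) (M := L)))]
    rw [Finset.card_univ, Fintype.card_coe] at key
    refine key.trans ?_
    have h3 : (3 : ℝ) ^ O.card ≤ 3 ^ d := pow_le_pow_right₀ (by norm_num) hOd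
    refine (mul_le_mul_of_nonneg_right h3 (by positivity)).trans (le_of_eq ?_)
    rw [hBd]
    ring

end Fermat.HT.MW

end
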