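import Fermat.Agent.HT.MW.Embed
import Fermat.Agent.JAC.EvalDiv

/-!
# The Chow form of the embedded curve

The main result is `exists_chowForm`, which cuts out the products of values at the zeros.
-/

set_option autoImplicit false

noncomputable section

open AlgebraicCurve Fermat.FF

namespace Fermat.HT.MW

section Linear

variable {K : Type*} [Field K]

/-- The polynomial of a linear form. -/
def linPoly {ι : Type*} [Fintype ι] (z : ι → K) : MvPolynomial ι K :=
  ∑ i, MvPolynomial.C (z i) * MvPolynomial.X i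

/-- The value of `linPoly z` at `u` is `u · z`. -/
theorem eval_linPoly {ι : Type*} [Fintype ι] (z u : ι → K) :
    MvPolynomial.eval u (linPoly z) = ∑ i, u i * z i := by
  simp [linPoly, mul_comm]

/-- The polynomial of a nonzero linear form is nonzero. -/
theorem linPoly_ne_zero {ι : Type*} [Fintype ι] {z : ι → K} (hz : z ≠ 0) : linPoly z ≠ 0 := by
  classical
  intro h
  refine hz (funext fun i => ?_)
  have := congrArg (MvPolynomial.eval (Pi.single i 1)) h
  simpa [eval_linPoly, Pi.single_apply] using this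

/-- Finitely many points interpolate all products of `M` linear forms. -/
theorem exists_interpolation (r M : ℕ) :
    ∃ (n : ℕ) (a : Fin n → Fin r → K) (L : Fin n → MvPolynomial (Fin r) K),
      ∀ (z : Fin M → Fin r → K) (s : Fin r → K),
        ∏ j, ∑ i, s i * z j i
          = ∑ k, MvPolynomial.eval s (L k) * ∏ j, ∑ i, a k i * z j i := by
  classical
  let T := Fin M → Fin r
  let μ : (Fin r → K) → T → K := fun s τ => ∏ j, s (τ j)
  -- Choose a basis of the span of the monomial vectors `μ s` among these vectors.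
  obtain ⟨b, hb, hspan, hli⟩ := exists_linearIndependent K (Set.range μ)
  have : Finite b := hli.finite
  let : Fintype b := Fintype.ofFinite b
  choose pre hpre using fun k : b => hb k.2
  let e := (Fintype.equivFin b).symm
  let Φ : (Fin (Fintype.card b) → K) →ₗ[K] T → K :=
    Fintype.linearCombination K fun k => (e k : T → K)
  have hΦ : LinearMap.ker Φ = ⊥ :=
    LinearMap.ker_eq_bot.2 ((hli.comp e e.injective).fintypeLinearCombination_injective)
  -- The coordinates in it are linear in `μ s`, so polynomials in `s`.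
  obtain ⟨G, hG⟩ := LinearMap.exists_leftInverse_of_injective Φ hΦ
  refine ⟨Fintype.card b, fun k => pre (e k), fun k => ∑ τ : T,
    MvPolynomial.C (G (Pi.single τ 1) k) * ∏ j, MvPolynomial.X (τ j), fun z s => ?_⟩
  have hs : μ s ∈ LinearMap.range Φ := by
    have : μ s ∈ Submodule.span K (b : Set (T → K)) :=
      hspan ▸ Submodule.subset_span ⟨s, rfl⟩
    rw [Fintype.range_linearCombination]
    refine Submodule.span_mono (fun w hw => ?_) this
    exact ⟨e.symm ⟨w, hw⟩, by simp⟩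
  obtain ⟨d, hd⟩ := hs
  have hGd : ∀ k, MvPolynomial.eval s (∑ τ : T,
      MvPolynomial.C (G (Pi.single τ 1) k) * ∏ j, MvPolynomial.X (τ j)) = d k := fun k => by
    have h1 : G (μ s) = d := by
      rw [← hd]; exact LinearMap.congr_fun hG d
    rw [← h1]
    conv_rhs => rw [← Finset.univ_sum_single (μ s)]
    simp only [map_sum, Finset.sum_apply, map_mul, MvPolynomial.eval_C, map_prod,
      MvPolynomial.eval_X]
    refine Finset.sum_congr rfl fun τ _ => ?_
    rw [show (Pi.single τ (μ s τ) : T → K) = μ s τ • (Pi.single τ 1 : T → K) by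
      rw [← Pi.single_smul, smul_eq_mul, mul_one], map_smul, Pi.smul_apply, smul_eq_mul, mul_comm]
  -- Expand both products into sums over monomials.
  simp only [hGd, Fintype.prod_sum, Finset.prod_mul_distrib]
  simp only [Finset.mul_sum, ← mul_assoc]
  rw [Finset.sum_comm]
  refine Finset.sum_congr rfl fun τ _ => ?_
  rw [← Finset.sum_mul]
  congr 1
  have := congrFun hd τ
  rw [show (∏ j, s (τ j)) = μ s τ from rfl, ← this]
  simp only [Φ, Fintype.linearCombination_apply, Finset.sum_apply, Pi.smul_apply, smul_eq_mul]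
  refine Finset.sum_congr rfl fun k _ => ?_
  rw [← hpre (e k)]

end Linear

namespace Emb

variable {K F : Type*} [Field K] [Field F] [Algebra K F] [IsAlgClosed K] [IsFunctionField K F]
  (E : Emb K F)

/-- The product of the values of a form at the zeros `Q`. -/
def evQ (Q : Fin E.M → Place K F) (u : Fin E.r → K) : K := ∏ j, ∑ i, u i * E.x (Q j) i

/-- The value of a ratio of two sections at a place. -/
theorem evalAt_ratio {s t : Fin E.r → K} {P : Place K F} (ht : ∑ i, t i * E.x P i ≠ 0) :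
    evalAt P (E.sec s / E.sec t) = (∑ i, s i * E.x P i) / ∑ i, t i * E.x P i := by
  have ht0 : E.sec t ≠ 0 := fun h => ht (by
    rw [← co_sec, h, co_zero])
  have hord : P.ord (E.sec t) = -E.D P := by
    rw [← co_sec, Ne, co_eq_zero_iff (ordGE_of_mem (E.sec_mem t) P), zero_add,
      ordGE_iff_of_ne ht0] at ht
    have := (ordGE_of_mem (E.sec_mem t) P).le_ord ht0
    omega
  have hreg : OrdGE P (E.sec s / E.sec t) 0 := by
    rw [div_eq_mul_inv]
    exact ((ordGE_of_mem (E.sec_mem s) P).mul (ordGE_iff.2 (.inr le_rfl) :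
      OrdGE P (E.sec t)⁻¹ (P.ord (E.sec t)⁻¹))).mono (by rw [P.ord_inv, hord]; omega)
  rw [eq_div_iff ht, ← co_sec, ← co_sec, co, co,
    ← evalAt_mul hreg (ordGE_co (ordGE_of_mem (E.sec_mem t) P))]
  congr 1
  field_simp

/-- A form not vanishing at any of the zeros `Q` is nonzero. -/
theorem ne_zero_of_evQ {Q : Fin E.M → Place K F} {u : Fin E.r → K} (h : E.evQ Q u ≠ 0) :
    u ≠ 0 := fun hu => h (by
  exact Finset.prod_eq_zero (Finset.mem_univ ⟨0, by have := E.four_le_M; omega⟩) (by simp [hu]))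

/-- Weil reciprocity for four sections. -/
theorem reciprocity {s s₀ u u₀ : Fin E.r → K} {Qs Qs₀ Qu Qu₀ : Fin E.M → Place K F}
    (hs : E.IsZeros s Qs) (hs₀ : E.IsZeros s₀ Qs₀) (hu : E.IsZeros u Qu) (hu₀ : E.IsZeros u₀ Qu₀)
    (hs' : s ≠ 0) (hs₀' : s₀ ≠ 0) (h1 : E.evQ Qs u ≠ 0) (h2 : E.evQ Qs₀ u ≠ 0)
    (h3 : E.evQ Qs u₀ ≠ 0) (h4 : E.evQ Qs₀ u₀ ≠ 0) :
    E.evQ Qu s / E.evQ Qu s₀ / (E.evQ Qu₀ s / E.evQ Qu₀ s₀)
      = E.evQ Qs u / E.evQ Qs u₀ / (E.evQ Qs₀ u / E.evQ Qs₀ u₀) := by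
  classical
  have hu' := E.ne_zero_of_evQ h1
  have hu₀' := E.ne_zero_of_evQ h3
  have nz : ∀ {t : Fin E.r → K}, t ≠ 0 → E.sec t ≠ 0 := fun ht h => ht (E.sec_eq_zero.1 h)
  -- common zeros
  have sep : ∀ {a b : Fin E.r → K} {A B : Fin E.M → Place K F}, E.IsZeros a A → E.IsZeros b B →
      b ≠ 0 → E.evQ A b ≠ 0 → ∀ i j, A i ≠ B j := fun {a b A B} hA hB hb hev i j hij =>
    hev (Finset.prod_eq_zero (Finset.mem_univ i) (by rw [hij]; exact hB.sum_eq_zero E hb j))
  have s1 := sep hs hu hu' h1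
  have s2 := sep hs₀ hu hu' h2
  have s3 := sep hs hu₀ hu₀' h3
  have s4 := sep hs₀ hu₀ hu₀' h4
  have ev : ∀ {t : Fin E.r → K} {T : Fin E.M → Place K F} (P : Place K F), E.IsZeros t T → t ≠ 0 →
      (∀ j, T j ≠ P) → ∑ i, t i * E.x P i ≠ 0 ∧ P.ord (E.sec t) = -E.D P :=
    fun {t T} P hT ht hP => by
      have h := hT.apply E P
      rw [Finset.filter_false_of_mem fun j _ => hP j, Finset.card_empty] at h
      refine ⟨fun h0 => ?_, by push_cast at h; omega⟩
      obtain ⟨j, hj⟩ := hT.exists_eq E ht h0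
      exact hP j hj
  -- the two evaluations
  have dv : ∀ {a b : Fin E.r → K} {A B : Fin E.M → Place K F}, E.IsZeros a A → E.IsZeros b B →
      a ≠ 0 → b ≠ 0 → divOf K (E.sec a / E.sec b)
        = ∑ j, Finsupp.single (A j) (1 : ℤ) + -∑ j, Finsupp.single (B j) (1 : ℤ) :=
    fun {a b A B} hA hB ha hb => by
      rw [show (∑ j, Finsupp.single (A j) (1 : ℤ)) = _ from hA,
        show (∑ j, Finsupp.single (B j) (1 : ℤ)) = _ from hB]
      ext P
      simp [div_eq_mul_inv, P.ord_mul (nz ha) (inv_ne_zero (nz hb)), P.ord_inv]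
  have evd : ∀ {a b c d : Fin E.r → K} {A B C D' : Fin E.M → Place K F}, E.IsZeros a A →
      E.IsZeros b B → E.IsZeros c C → E.IsZeros d D' → a ≠ 0 → b ≠ 0 → c ≠ 0 → d ≠ 0 →
      (∀ i j, A i ≠ C j) → (∀ i j, B i ≠ C j) → (∀ i j, A i ≠ D' j) → (∀ i j, B i ≠ D' j) →
      evalDiv (E.sec a / E.sec b) (divOf K (E.sec c / E.sec d))
        = E.evQ C a / E.evQ C b / (E.evQ D' a / E.evQ D' b) := by
    intro a b c d A B C D' hA hB hC hD ha hb hc hd n1 n2 n3 n4
    have av : ∀ (T : Fin E.M → Place K F), (∀ i j, A i ≠ T j) → (∀ i j, B i ≠ T j) → ∀ j,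
        (T j).ord (E.sec a / E.sec b) = 0 := fun T ta tb j => by
      rw [div_eq_mul_inv, (T j).ord_mul (nz ha) (inv_ne_zero (nz hb)), Place.ord_inv,
        (ev (T j) hA ha fun i => ta i j).2, (ev (T j) hB hb fun i => tb i j).2]
      ring
    have sum_eval : ∀ (T : Fin E.M → Place K F), (∀ i j, A i ≠ T j) → (∀ i j, B i ≠ T j) →
        Fermat.JAC.Avoids (E.sec a / E.sec b) (∑ j, Finsupp.single (T j) (1 : ℤ)) ∧
        evalDiv (E.sec a / E.sec b) (∑ j, Finsupp.single (T j) (1 : ℤ))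
          = E.evQ T a / E.evQ T b := fun T ta tb => by
      have key : ∀ S : Finset (Fin E.M),
          Fermat.JAC.Avoids (E.sec a / E.sec b) (∑ j ∈ S, Finsupp.single (T j) (1 : ℤ)) ∧
          evalDiv (E.sec a / E.sec b) (∑ j ∈ S, Finsupp.single (T j) (1 : ℤ))
            = ∏ j ∈ S, (∑ i, a i * E.x (T j) i) / ∑ i, b i * E.x (T j) i := fun S => by
        induction S using Finset.induction_on with
        | empty => exact ⟨fun v hv => (hv rfl).elim, by simp⟩
        | insert j S hj ih =>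
          have h1 := Fermat.JAC.avoids_single (f := E.sec a / E.sec b) (av T ta tb j) 1
          rw [Finset.sum_insert hj, Finset.prod_insert hj]
          refine ⟨fun v hv => ?_, ?_⟩
          · by_cases h : (Finsupp.single (T j) (1 : ℤ)) v = 0
            · exact ih.1 v (by rwa [Finsupp.add_apply, h, zero_add] at hv)
            · exact h1 v h
          · rw [Fermat.JAC.evalDiv_add (div_ne_zero (nz ha) (nz hb)) h1 ih.1, ih.2,
              Fermat.JAC.evalDiv_single, zpow_one,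
              E.evalAt_ratio (ev (T j) hB hb fun i => tb i j).1]
      obtain ⟨k1, k2⟩ := key Finset.univ
      exact ⟨k1, by rw [k2, Finset.prod_div_distrib]; rfl⟩
    obtain ⟨c1, c2⟩ := sum_eval C n1 n2
    obtain ⟨d1, d2⟩ := sum_eval D' n3 n4
    rw [dv hC hD hc hd, Fermat.JAC.evalDiv_add (div_ne_zero (nz ha) (nz hb)) c1
      (fun v hv => d1 v (by simpa using hv)), c2, Fermat.JAC.evalDiv_neg, d2]
    rw [← div_eq_mul_inv]
  rw [← evd hs hs₀ hu hu₀ hs' hs₀' hu' hu₀' s1 s2 s3 s4,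
    ← evd hu hu₀ hs hs₀ hu' hu₀' hs' hs₀' (fun i j => (s1 j i).symm) (fun i j => (s3 j i).symm)
      (fun i j => (s2 j i).symm) (fun i j => (s4 j i).symm)]
  refine weil_reciprocity (div_ne_zero (nz hs') (nz hs₀'))
    (div_ne_zero (nz hu') (nz hu₀')) fun v => ?_
  by_cases hv : ∃ j, Qu j = v ∨ Qu₀ j = v
  · left
    rw [div_eq_mul_inv, v.ord_mul (nz hs') (inv_ne_zero (nz hs₀')), v.ord_inv]
    obtain ⟨j, rfl | rfl⟩ := hv
    · rw [(ev _ hs hs' fun i => s1 i j).2, (ev _ hs₀ hs₀' fun i => s2 i j).2]; ring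
    · rw [(ev _ hs hs' fun i => s3 i j).2, (ev _ hs₀ hs₀' fun i => s4 i j).2]; ring
  · right
    push Not at hv
    rw [div_eq_mul_inv, v.ord_mul (nz hu') (inv_ne_zero (nz hu₀')), v.ord_inv,
      (ev _ hu hu' fun i => (hv i).1).2, (ev _ hu₀ hu₀' fun i => (hv i).2).2]
    ring

/-- Finitely many nonzero vectors admit a linear form nonzero on all of them. -/
theorem exists_avoid_forms {ι : Type*} [Fintype ι] (z : ι → Fin E.r → K) (hz : ∀ i, z i ≠ 0) :
    ∃ u : Fin E.r → K, ∀ i, ∑ l, u l * z i l ≠ 0 := by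
  by_contra hcon
  push Not at hcon
  refine (Finset.prod_ne_zero_iff.2 fun i (_ : i ∈ Finset.univ) => linPoly_ne_zero (hz i))
    (MvPolynomial.funext fun u => ?_)
  obtain ⟨i, hi⟩ := hcon u
  rw [map_prod, map_zero]
  exact Finset.prod_eq_zero (Finset.mem_univ i) (by rw [eval_linPoly]; exact hi)

/-- **Chow form**: a polynomial in `(s,u)` cutting out the products of values of `u` at the zeros
of `s`. -/
theorem exists_chowForm :
    ∃ R : MvPolynomial (Fin E.r ⊕ Fin E.r) K, ∀ s : Fin E.r → K, s ≠ 0 → ∀ Q, E.IsZeros s Q →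
      ∃ c : K, c ≠ 0 ∧ ∀ u, MvPolynomial.eval (Sum.elim s u) R = c * E.evQ Q u := by
  classical
  obtain ⟨n, a, L, hL⟩ := exists_interpolation (K := K) E.r E.M
  have : Nonempty (Fin E.r) := ⟨⟨0, by have := E.two_le_r; omega⟩⟩
  obtain ⟨b⟩ := ‹Nonempty (Fin E.r)›
  set s₀ : Fin E.r → K := Pi.single b 1
  have hs₀ : s₀ ≠ 0 := by simp [s₀]
  obtain ⟨Q₀, hQ₀⟩ := E.exists_isZeros hs₀
  -- the normalising constant
  let κ : (Fin E.r → K) → K := fun u =>
    if hu : u ≠ 0 then E.evQ Q₀ u / E.evQ (E.exists_isZeros hu).choose s₀ else 0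
  -- By reciprocity, `κ u` times the values of `s` at the zeros of `u` is a multiple of `evQ`.
  have key : ∀ s : Fin E.r → K, s ≠ 0 → ∀ Qs, E.IsZeros s Qs → ∃ c : K, c ≠ 0 ∧
      ∀ (u : Fin E.r → K) (hu : u ≠ 0), E.evQ Q₀ u ≠ 0 → E.evQ Qs u ≠ 0 →
        κ u * E.evQ (E.exists_isZeros hu).choose s = c * E.evQ Qs u := by
    intro s hs Qs hQs
    obtain ⟨u₀, hu₀⟩ := E.exists_avoid_forms (fun p : Fin E.M ⊕ Fin E.M => E.x (p.elim Qs Q₀))
      fun p => E.x_ne_zero _
    have g1 : E.evQ Qs u₀ ≠ 0 := Finset.prod_ne_zero_iff.2 fun j _ => hu₀ (.inl j)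
    have g2 : E.evQ Q₀ u₀ ≠ 0 := Finset.prod_ne_zero_iff.2 fun j _ => hu₀ (.inr j)
    have hu₀' : u₀ ≠ 0 := E.ne_zero_of_evQ g1
    obtain ⟨Qu₀, hQu₀⟩ := E.exists_isZeros hu₀'
    have off : ∀ {t : Fin E.r → K} {T : Fin E.M → Place K F} {u : Fin E.r → K}
        {U : Fin E.M → Place K F}, E.IsZeros t T → t ≠ 0 → E.IsZeros u U → u ≠ 0 →
        E.evQ T u ≠ 0 → E.evQ U t ≠ 0 := fun {t T u U} hT ht hU hu h => by
      refine Finset.prod_ne_zero_iff.2 fun j _ h0 => h ?_
      obtain ⟨i, hi⟩ := hT.exists_eq E ht h0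
      exact Finset.prod_eq_zero (Finset.mem_univ i) (by rw [hi]; exact hU.sum_eq_zero E hu j)
    have g3 := off hQs hs hQu₀ hu₀' g1
    have g4 := off hQ₀ hs₀ hQu₀ hu₀' g2
    refine ⟨E.evQ Qu₀ s * E.evQ Q₀ u₀ / (E.evQ Qu₀ s₀ * E.evQ Qs u₀),
      div_ne_zero (mul_ne_zero g3 g2) (mul_ne_zero g4 g1), fun u hu h0 h1 => ?_⟩
    have hQu := (E.exists_isZeros hu).choose_spec
    have g5 := off hQ₀ hs₀ hQu hu h0
    have hrec := E.reciprocity hQs hQ₀ hQu hQu₀ hs hs₀ h1 h0 g1 g2
    simp only [κ, dif_pos hu]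
    field_simp at hrec ⊢
    linear_combination hrec
  have key' : ∀ k, ∃ P : MvPolynomial (Fin E.r) K, ∃ T : Fin E.M → Place K F,
      ∀ (u : Fin E.r → K) (hu : u ≠ 0), E.evQ Q₀ u ≠ 0 → E.evQ T u ≠ 0 →
        κ u * E.evQ (E.exists_isZeros hu).choose (a k) = MvPolynomial.eval u P := fun k => by
    by_cases ha : a k = 0
    · refine ⟨0, Q₀, fun u hu _ _ => ?_⟩
      rw [map_zero, evQ, Finset.prod_eq_zero (Finset.mem_univ ⟨0, by have := E.four_le_M; omega⟩)
        (by simp [ha]), mul_zero]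
    · obtain ⟨T, hT⟩ := E.exists_isZeros ha
      obtain ⟨c, -, hc⟩ := key (a k) ha T hT
      exact ⟨MvPolynomial.C c * ∏ j, linPoly (E.x (T j)), T, fun u hu h0 h1 => by
        rw [hc u hu h0 h1, map_mul, MvPolynomial.eval_C, map_prod]
        simp only [eval_linPoly, evQ]⟩
  choose P T hP using key'
  refine ⟨∑ k, MvPolynomial.rename Sum.inl (L k) * MvPolynomial.rename Sum.inr (P k),
    fun s hs Qs hQs => ?_⟩
  obtain ⟨c, hc, hcs⟩ := key s hs Qs hQs
  refine ⟨c, hc, ?_⟩
  have heval : ∀ u, MvPolynomial.eval (Sum.elim s u)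
      (∑ k, MvPolynomial.rename Sum.inl (L k) * MvPolynomial.rename Sum.inr (P k))
      = MvPolynomial.eval u (∑ k, MvPolynomial.C (MvPolynomial.eval s (L k)) * P k) := fun u => by
    simp [map_sum, MvPolynomial.eval_rename]
  set p : MvPolynomial (Fin E.r) K := (∑ k, MvPolynomial.C (MvPolynomial.eval s (L k)) * P k)
    - MvPolynomial.C c * ∏ j, linPoly (E.x (Qs j)) with hp
  set q : MvPolynomial (Fin E.r) K := (∏ j, linPoly (E.x (Qs j))) * (∏ j, linPoly (E.x (Q₀ j)))
    * ∏ k, ∏ j, linPoly (E.x (T k j))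
  have hq : q ≠ 0 := mul_ne_zero (mul_ne_zero
    (Finset.prod_ne_zero_iff.2 fun j _ => linPoly_ne_zero (E.x_ne_zero _))
    (Finset.prod_ne_zero_iff.2 fun j _ => linPoly_ne_zero (E.x_ne_zero _)))
    (Finset.prod_ne_zero_iff.2 fun k _ => Finset.prod_ne_zero_iff.2 fun j _ =>
      linPoly_ne_zero (E.x_ne_zero _))
  have hpq : p * q = 0 := MvPolynomial.funext fun u => by
    rw [map_mul, map_zero]
    by_cases hqu : MvPolynomial.eval u q = 0
    · rw [hqu, mul_zero]
    simp only [q, map_mul, map_prod, eval_linPoly, mul_ne_zero_iff] at hqu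
    obtain ⟨⟨h1, h0⟩, hT⟩ := hqu
    have hu : u ≠ 0 := E.ne_zero_of_evQ (Q := Qs) h1
    refine mul_eq_zero_of_left ?_ _
    simp only [hp, map_sub, map_sum, map_mul, map_prod, MvPolynomial.eval_C, eval_linPoly]
    rw [sub_eq_zero, ← show κ u * E.evQ (E.exists_isZeros hu).choose s =
      c * ∏ j, ∑ i, u i * E.x (Qs j) i from hcs u hu h0 h1, evQ, hL, Finset.mul_sum]
    refine Finset.sum_congr rfl fun k _ => ?_
    rw [← hP k u hu h0 (Finset.prod_ne_zero_iff.1 hT k (Finset.mem_univ k)), evQ]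
    ring
  intro u
  have hp0 := (mul_eq_zero.1 hpq).resolve_right hq
  rw [hp, sub_eq_zero] at hp0
  rw [heval, hp0, map_mul, MvPolynomial.eval_C, map_prod]
  simp only [eval_linPoly, evQ]

end Emb

end Fermat.HT.MW

end
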