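import Fermat.Agent.FF.API

/-!
# Leading coefficients of sections at a place

The coefficient is `co`, nonzero at the exact order of vanishing by `co_ne_zero_of_ord`.
-/

set_option autoImplicit false
set_option linter.unusedSectionVars false

noncomputable section

open AlgebraicCurve Fermat.FF

namespace Fermat.HT.MW

variable {K F : Type*} [Field K] [Field F] [Algebra K F] [IsAlgClosed K] [IsFunctionField K F]

/-- A polynomial in functions regular at a place is regular there and evaluates to its value. -/
theorem evalAt_aeval {σ : Type*} {P : Place K F} {Y : σ → F} {z : σ → K}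
    (hY : ∀ i, OrdGE P (Y i) 0) (hz : ∀ i, evalAt P (Y i) = z i) (p : MvPolynomial σ K) :
    OrdGE P (MvPolynomial.aeval Y p) 0 ∧
      evalAt P (MvPolynomial.aeval Y p) = MvPolynomial.eval z p := by
  induction p using MvPolynomial.induction_on with
  | C a => simpa using ordGE_algebraMap P a
  | add p q hp hq =>
    rw [map_add, map_add]
    exact ⟨hp.1.add hq.1, by rw [evalAt_add hp.1 hq.1, hp.2, hq.2]⟩
  | mul_X p i hp =>
    rw [map_mul, map_mul, MvPolynomial.aeval_X, MvPolynomial.eval_X]
    exact ⟨by simpa using hp.1.mul (hY i), by rw [evalAt_mul hp.1 (hY i), hp.2, hz]⟩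

/-- A chosen uniformiser. -/
def unif (P : Place K F) : F := (exists_ord_eq_one P).choose

/-- The chosen uniformiser is nonzero. -/
theorem unif_ne_zero (P : Place K F) : unif P ≠ 0 := (exists_ord_eq_one P).choose_spec.1

/-- The chosen uniformiser has order one. -/
theorem ord_unif (P : Place K F) : P.ord (unif P) = 1 := (exists_ord_eq_one P).choose_spec.2

/-- The `n`-th power of the uniformiser has order at least `n`. -/
theorem ordGE_unif_zpow (P : Place K F) (n : ℤ) : OrdGE P (unif P ^ n) n :=
  ordGE_iff.2 (.inr (by rw [P.ord_zpow, ord_unif, mul_one]))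

/-- The `k`-th coefficient of a section of `D` at `P` vanishing to order `≥ k`. -/
def co (D : Divisor K F) (P : Place K F) (k : ℤ) (h : F) : K :=
  evalAt P (h * unif P ^ (D P - k))

/-- The normalised section defining `co` is regular at the place. -/
theorem ordGE_co {D : Divisor K F} {P : Place K F} {k : ℤ} {h : F} (hh : OrdGE P h (k - D P)) :
    OrdGE P (h * unif P ^ (D P - k)) 0 :=
  (hh.mul (ordGE_unif_zpow P (D P - k))).mono (by omega)

/-- `co` is linear on sections vanishing to order `k`. -/
theorem co_sum {α : Type*} (s : Finset α) (c : α → K) (h : α → F) {D : Divisor K F}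
    {P : Place K F} {k : ℤ} (hh : ∀ a ∈ s, OrdGE P (h a) (k - D P)) :
    co D P k (∑ a ∈ s, c a • h a) = ∑ a ∈ s, c a * co D P k (h a) := by
  rw [co, Finset.sum_mul, evalAt_sum _ _ fun a ha => by
    rw [smul_mul_assoc]; exact (ordGE_co (hh a ha)).smul _]
  exact Finset.sum_congr rfl
    fun a ha => by rw [smul_mul_assoc, evalAt_const_smul _ (ordGE_co (hh a ha))]; rfl

/-- `co` is additive on sections vanishing to order `k`. -/
theorem co_add {D : Divisor K F} {P : Place K F} {k : ℤ} {h h' : F}
    (hh : OrdGE P h (k - D P)) (hh' : OrdGE P h' (k - D P)) :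
    co D P k (h + h') = co D P k h + co D P k h' := by
  rw [co, add_mul, evalAt_add (ordGE_co hh) (ordGE_co hh')]; rfl

/-- `co` commutes with scalars. -/
theorem co_smul {D : Divisor K F} {P : Place K F} {k : ℤ} {h : F}
    (hh : OrdGE P h (k - D P)) (c : K) : co D P k (c • h) = c * co D P k h := by
  rw [co, smul_mul_assoc, evalAt_const_smul _ (ordGE_co hh)]; rfl

/-- The coefficient of the zero section is zero. -/
@[simp] theorem co_zero (D : Divisor K F) (P : Place K F) (k : ℤ) : co D P k 0 = 0 := by
  rw [co, zero_mul]; simpa using evalAt_algebraMap P (0 : K)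

/-- The `k`-th coefficient vanishes iff the section vanishes to order `k + 1`. -/
theorem co_eq_zero_iff {D : Divisor K F} {P : Place K F} {k : ℤ} {h : F}
    (hh : OrdGE P h (k - D P)) : co D P k h = 0 ↔ OrdGE P h (k + 1 - D P) := by
  rw [co, evalAt_eq_zero_iff (ordGE_co hh)]
  refine ⟨fun h1 => ?_, fun h1 => (h1.mul (ordGE_unif_zpow P (D P - k))).mono (by omega)⟩
  have h2 := (h1.mul (ordGE_unif_zpow P (k - D P))).mono (m := k + 1 - D P) (by omega)
  rwa [mul_assoc, ← zpow_add₀ (unif_ne_zero P), sub_add_sub_cancel, sub_self, zpow_zero,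
    mul_one] at h2

/-- A section vanishing to order exactly `k` has nonzero `k`-th coefficient. -/
theorem co_ne_zero_of_ord {D : Divisor K F} {P : Place K F} {k : ℤ} {h : F} (hh : h ≠ 0)
    (hord : P.ord h = k - D P) : co D P k h ≠ 0 := fun h0 => by
  rw [co_eq_zero_iff (ordGE_iff.2 (.inr hord.ge))] at h0
  have := h0.le_ord hh
  omega

/-- The leading coefficient of a power. -/
theorem co_pow {D : Divisor K F} {P : Place K F} {k : ℤ} {h : F} (hh : OrdGE P h (k - D P))
    (n : ℕ) : co (n • D) P (n * k) (h ^ n) = co D P k h ^ n := by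
  rw [co, co, Finsupp.smul_apply, ← evalAt_pow (ordGE_co hh), mul_pow, ← zpow_natCast (_ ^ (_ - k)),
    ← zpow_mul]
  congr 3
  rw [nsmul_eq_mul]
  ring

/-- A section of `D` has a pole of order at most `D P` at `P`. -/
theorem ordGE_of_mem {D : Divisor K F} {h : F} (hh : h ∈ riemannRochSpace D) (P : Place K F) :
    OrdGE P h (0 - D P) := by
  rw [zero_sub]; exact mem_riemannRochSpace.1 hh P

/-- A single place has degree one. -/
theorem degree_single_one (P : Place K F) : Divisor.degree (Finsupp.single P (1 : ℤ)) = 1 := by
  rw [Divisor.degree_single, deg_eq_one]; simp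

/-- In large degree some section of `D` is not a section of `D - P`. -/
theorem exists_mem_sub_single {D : Divisor K F} (P : Place K F)
    (hD : 2 * (genusFF K F : ℤ) ≤ Divisor.degree D) :
    ∃ h ∈ riemannRochSpace D, h ∉ riemannRochSpace (D - Finsupp.single P 1) := by
  refine SetLike.not_le_iff_exists.1 fun hle => ?_
  have h1 : ell D ≤ ell (D - Finsupp.single P 1) := Submodule.finrank_mono hle
  have h2 := ell_of_degree_ge (D := D) (by omega)
  have h3 := ell_of_degree_ge (D := D - Finsupp.single P 1)
    (by rw [map_sub, degree_single_one]; omega)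
  rw [map_sub, degree_single_one] at h3
  omega

end Fermat.HT.MW

end
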