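import Fermat.Agent.HT.MW.Coord

/-!
# The projective embedding given by a divisor of large degree

The coordinates of a place are `x`, and `IsZeros` says that a tuple lists the zeros of a linear
form.
-/

set_option autoImplicit false

noncomputable section

open AlgebraicCurve Fermat.FF

namespace Fermat.HT.MW

section Wedge

variable {K : Type*} [Field K] {ι : Type*}

/-- Plücker coordinates of a pair of vectors. -/
def wedge (a b : ι → K) : ι × ι → K := fun p => a p.1 * b p.2 - a p.2 * b p.1

/-- Plücker coordinates are antisymmetric. -/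
theorem wedge_comm (a b : ι → K) : wedge a b = fun p => -wedge b a p := by
  funext p; simp only [wedge]; ring

/-- If a form kills `a ≠ 0` but not `b`, then their Plücker vector is nonzero. -/
theorem wedge_ne_zero [Fintype ι] {a b : ι → K} (ha : a ≠ 0) (s : ι → K)
    (hsa : ∑ i, s i * a i = 0) (hsb : ∑ i, s i * b i ≠ 0) : wedge a b ≠ 0 := fun h => by
  refine ha (funext fun i => ?_)
  have h1 : ∀ j, s j * (a i * b j) = s j * (a j * b i) := fun j => by
    have := congrFun h (i, j)
    simp only [wedge, Pi.zero_apply, sub_eq_zero] at this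
    rw [this]
  have h2 : a i * ∑ j, s j * b j = b i * ∑ j, s j * a j := by
    rw [Finset.mul_sum, Finset.mul_sum]
    exact Finset.sum_congr rfl fun j _ => by linear_combination h1 j
  rw [hsa, mul_zero] at h2
  exact (mul_eq_zero.1 h2).resolve_right hsb

end Wedge

/-- A divisor of large degree, giving an embedding of the curve. -/
structure Emb (K F : Type*) [Field K] [Field F] [Algebra K F] [IsAlgClosed K]
    [IsFunctionField K F] where
  /-- The divisor `D` giving the embedding. -/
  D : Divisor K F
  /-- The genus is positive. -/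
  one_le_genus : 1 ≤ genusFF K F
  /-- The degree is at least four times the genus. -/
  deg_ge : 4 * (genusFF K F : ℤ) ≤ Divisor.degree D

namespace Emb

variable {K F : Type*} [Field K] [Field F] [Algebra K F] [IsAlgClosed K] [IsFunctionField K F]
  (E : Emb K F)

/-- The degree of the divisor of the embedding, as a natural number. -/
def M : ℕ := (Divisor.degree E.D).toNat

/-- `M` is the degree of the divisor. -/
theorem M_eq : (E.M : ℤ) = Divisor.degree E.D := Int.toNat_of_nonneg (by have := E.deg_ge; omega)

/-- The degree is at least four. -/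
theorem four_le_M : 4 ≤ E.M := by
  have := E.deg_ge; have := E.one_le_genus; have := E.M_eq; omega

/-- The dimension of the space of sections. -/
def r : ℕ := ell E.D

/-- Riemann–Roch for the embedding divisor. -/
theorem r_eq : (E.r : ℤ) = E.M + 1 - genusFF K F := by
  rw [E.M_eq]; exact ell_of_degree_ge (by have := E.deg_ge; have := E.one_le_genus; omega)

/-- There are at least two coordinates. -/
theorem two_le_r : 2 ≤ E.r := by
  have := E.r_eq; have := E.deg_ge; have := E.M_eq; have := E.one_le_genus; omega

/-- A basis of the space of sections. -/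
def basis : Module.Basis (Fin E.r) K ↥(riemannRochSpace E.D) := Module.finBasis K _

/-- The coordinate functions. -/
def f (i : Fin E.r) : F := (E.basis i : F)

/-- The coordinate functions are sections. -/
theorem f_mem (i : Fin E.r) : E.f i ∈ riemannRochSpace E.D := (E.basis i).2

/-- The coordinate functions are linearly independent. -/
theorem linearIndependent_f : LinearIndependent K E.f :=
  E.basis.linearIndependent.map' (riemannRochSpace E.D).subtype (Submodule.ker_subtype _)

/-- The coordinate functions are nonzero. -/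
theorem f_ne_zero (i : Fin E.r) : E.f i ≠ 0 := E.linearIndependent_f.ne_zero i

/-- The section with coordinate vector `s`. -/
def sec (s : Fin E.r → K) : F := ∑ i, s i • E.f i

/-- `sec s` is a section. -/
theorem sec_mem (s : Fin E.r → K) : E.sec s ∈ riemannRochSpace E.D :=
  Submodule.sum_mem _ fun i _ => Submodule.smul_mem _ _ (E.f_mem i)

/-- `sec s` vanishes only for `s = 0`. -/
theorem sec_eq_zero {s : Fin E.r → K} : E.sec s = 0 ↔ s = 0 := by
  refine ⟨fun h => funext fun i => Fintype.linearIndependent_iff.1 E.linearIndependent_f s h i,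
    fun h => by simp [sec, h]⟩

/-- The coordinates of a section. -/
def coord (h : F) : Fin E.r → K :=
  open Classical in
  if hh : h ∈ riemannRochSpace E.D then fun i => E.basis.repr ⟨h, hh⟩ i else 0

/-- A section is recovered from its coordinates. -/
theorem sec_coord {h : F} (hh : h ∈ riemannRochSpace E.D) : E.sec (E.coord h) = h := by
  rw [coord, dif_pos hh, sec]
  have := congrArg Subtype.val (E.basis.sum_repr ⟨h, hh⟩)
  rw [AddSubmonoidClass.coe_finsetSum] at this
  exact this

/-- The coordinates of a place. -/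
def x (P : Place K F) : Fin E.r → K := fun i => co E.D P 0 (E.f i)

/-- The value of a section at `P` is its form at the coordinates of `P`. -/
theorem co_sec (P : Place K F) (s : Fin E.r → K) :
    co E.D P 0 (E.sec s) = ∑ i, s i * E.x P i :=
  co_sum _ s E.f fun i _ => ordGE_of_mem (E.f_mem i) P

/-- The coordinates of a place are not all zero. -/
theorem x_ne_zero (P : Place K F) : E.x P ≠ 0 := fun hx => by
  obtain ⟨h, hh, hh'⟩ := exists_mem_sub_single (D := E.D) P (by have := E.deg_ge; omega)
  refine hh' (mem_riemannRochSpace.2 fun Q => ?_)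
  rcases eq_or_ne Q P with rfl | hQ
  · have h0 : co E.D Q 0 h = 0 := by rw [← E.sec_coord hh, co_sec, hx]; simp
    rw [co_eq_zero_iff (ordGE_of_mem hh Q)] at h0
    simpa [zero_add, neg_sub] using h0
  · simpa [Finsupp.single_eq_of_ne hQ] using mem_riemannRochSpace.1 hh Q

/-- The derivative of the coordinates. -/
def dx (P : Place K F) : Fin E.r → K := fun i =>
  evalAt P ((E.f i * unif P ^ (E.D P) - algebraMap K F (E.x P i)) * (unif P)⁻¹)

/-- The function defining `dx` is regular at the place. -/
theorem ordGE_dx (P : Place K F) (i : Fin E.r) :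
    OrdGE P ((E.f i * unif P ^ (E.D P) - algebraMap K F (E.x P i)) * (unif P)⁻¹) 0 := by
  have h := evalAt_spec (ordGE_co (ordGE_of_mem (E.f_mem i) P))
  simp only [sub_zero] at h
  rw [x, co, sub_zero, ← zpow_neg_one]
  exact (h.mul (ordGE_unif_zpow P (-1))).mono (by omega)

/-- For a form vanishing at `P`, its value on `dx` is the first coefficient of the section. -/
theorem sum_dx {P : Place K F} {s : Fin E.r → K} (hs : ∑ i, s i * E.x P i = 0) :
    ∑ i, s i * E.dx P i = co E.D P 1 (E.sec s) := by
  rw [co, zpow_sub_one₀ (unif_ne_zero P), ← mul_assoc]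
  have : E.sec s * unif P ^ (E.D P) * (unif P)⁻¹
      = ∑ i, s i • ((E.f i * unif P ^ (E.D P) - algebraMap K F (E.x P i)) * (unif P)⁻¹) := by
    have h0 : ∑ i, s i • (algebraMap K F (E.x P i) * (unif P)⁻¹) = 0 := by
      simp only [Algebra.smul_def, ← mul_assoc, ← Finset.sum_mul, ← map_mul, ← map_sum, hs,
        map_zero, zero_mul]
    simp only [sub_mul, smul_sub, Finset.sum_sub_distrib, h0, sub_zero, sec, Finset.sum_mul,
      smul_mul_assoc]
  rw [this, evalAt_sum _ _ fun i _ => (E.ordGE_dx P i).smul _]
  exact Finset.sum_congr rfl fun i _ => by rw [evalAt_const_smul _ (E.ordGE_dx P i)]; rfl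

/-- The secant or tangent line. -/
def pw (P Q : Place K F) : Fin E.r × Fin E.r → K :=
  open Classical in if P = Q then wedge (E.x P) (E.dx P) else wedge (E.x P) (E.x Q)

/-- The secant is symmetric up to sign. -/
theorem pw_comm (P Q : Place K F) :
    E.pw P Q = E.pw Q P ∨ E.pw P Q = fun p => -E.pw Q P p := by
  by_cases h : P = Q
  · exact .inl (by subst h; rfl)
  · right
    rw [pw, if_neg h, pw, if_neg (Ne.symm h)]
    exact wedge_comm _ _

/-- The Plücker vector of two places is nonzero. -/
theorem pw_ne_zero (P Q : Place K F) : E.pw P Q ≠ 0 := by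
  classical
  have hg := E.deg_ge
  have hg1 := E.one_le_genus
  obtain ⟨h, hh, hh'⟩ := exists_mem_sub_single (D := E.D - Finsupp.single P 1) Q
    (by rw [map_sub, degree_single_one]; omega)
  have hhD : h ∈ riemannRochSpace E.D := riemannRochSpace_mono (sub_le_self _ (by simp)) hh
  have hP : OrdGE P h (1 - E.D P) := by
    simpa [neg_sub] using mem_riemannRochSpace.1 hh P
  have hs0 : ∑ i, E.coord h i * E.x P i = 0 := by
    rw [← co_sec, E.sec_coord hhD, co_eq_zero_iff (ordGE_of_mem hhD P), zero_add]
    exact hP
  rw [pw]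
  split_ifs with hPQ
  · subst hPQ
    refine wedge_ne_zero (E.x_ne_zero P) _ hs0 ?_
    rw [E.sum_dx hs0, E.sec_coord hhD, Ne, co_eq_zero_iff hP]
    intro h0
    refine hh' (mem_riemannRochSpace.2 fun R => ?_)
    rcases eq_or_ne R P with rfl | hR
    · refine h0.mono (le_of_eq ?_)
      simp; ring
    · simpa [Finsupp.single_eq_of_ne hR] using mem_riemannRochSpace.1 hhD R
  · refine wedge_ne_zero (E.x_ne_zero P) _ hs0 ?_
    rw [← co_sec, E.sec_coord hhD, Ne, co_eq_zero_iff (ordGE_of_mem hhD Q)]
    intro h0
    refine hh' (mem_riemannRochSpace.2 fun R => ?_)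
    rcases eq_or_ne R Q with rfl | hR
    · refine h0.mono (le_of_eq ?_)
      simp [hPQ]
    · simpa [Finsupp.single_eq_of_ne hR] using mem_riemannRochSpace.1 hh R

/-- Proportional coordinates come from equal places. -/
theorem place_ext {P Q : Place K F} {c : K} (h : ∀ i, E.x P i = c * E.x Q i) : P = Q := by
  by_contra hPQ
  refine E.pw_ne_zero P Q ?_
  rw [pw, if_neg hPQ]
  funext p
  simp only [wedge, h, Pi.zero_apply]
  ring

/-! ### The affine charts -/

/-- The affine coordinate functions on the chart `b`. -/
def Y (b i : Fin E.r) : F := E.f i * (E.f b)⁻¹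

/-- The chart coordinate `Y b b` is `1`. -/
theorem Y_self (b : Fin E.r) : E.Y b b = 1 := mul_inv_cancel₀ (E.f_ne_zero b)

/-- On the chart `b` the section `f b` has exact order `-D P`. -/
theorem ord_f_of_x_ne_zero {P : Place K F} {b : Fin E.r} (hb : E.x P b ≠ 0) :
    P.ord (E.f b) = -E.D P := by
  rw [x, Ne, co_eq_zero_iff (ordGE_of_mem (E.f_mem b) P), zero_add, ordGE_iff_of_ne (E.f_ne_zero b)]
    at hb
  have := (ordGE_of_mem (E.f_mem b) P).le_ord (E.f_ne_zero b)
  omega

/-- The chart coordinates are regular on the chart. -/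
theorem ordGE_Y {P : Place K F} {b : Fin E.r} (hb : E.x P b ≠ 0) (i : Fin E.r) :
    OrdGE P (E.Y b i) 0 :=
  ((ordGE_of_mem (E.f_mem i) P).mul (ordGE_iff.2 (.inr le_rfl) :
    OrdGE P (E.f b)⁻¹ (P.ord (E.f b)⁻¹))).mono (by
      rw [P.ord_inv, E.ord_f_of_x_ne_zero hb]; omega)

/-- The chart coordinates take the values `x i / x b`. -/
theorem evalAt_Y {P : Place K F} {b : Fin E.r} (hb : E.x P b ≠ 0) (i : Fin E.r) :
    evalAt P (E.Y b i) = E.x P i / E.x P b := by
  rw [eq_div_iff hb, x, x, co, co, ← evalAt_mul (E.ordGE_Y hb i)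
    (ordGE_co (ordGE_of_mem (E.f_mem b) P)), Y]
  congr 1
  field_simp [E.f_ne_zero b]

/-- The ideal of relations of the chart `b`. -/
def Ib (b : Fin E.r) : Ideal (MvPolynomial (Fin E.r) K) := RingHom.ker (MvPolynomial.aeval (E.Y b))

/-- The relations of a chart vanish at its points. -/
theorem eval_of_mem_Ib {P : Place K F} {b : Fin E.r} (hb : E.x P b ≠ 0)
    {p : MvPolynomial (Fin E.r) K} (hp : p ∈ E.Ib b) :
    MvPolynomial.eval (fun i => E.x P i / E.x P b) p = 0 := by
  obtain ⟨-, h⟩ := evalAt_aeval (E.ordGE_Y hb) (E.evalAt_Y hb) p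
  rw [← h, (RingHom.mem_ker.1 hp : MvPolynomial.aeval (E.Y b) p = 0)]
  simpa using evalAt_algebraMap P (0 : K)

/-- A place where the coordinate functions of the chart `b` are regular lies in that chart. -/
theorem x_ne_zero_of_regular {P : Place K F} {b : Fin E.r} (hY : ∀ j, OrdGE P (E.Y b j) 0) :
    E.x P b ≠ 0 := fun h0 => by
  refine E.x_ne_zero P (funext fun j => ?_)
  have : E.f j * unif P ^ (E.D P - 0) = E.Y b j * (E.f b * unif P ^ (E.D P - 0)) := by
    rw [Y]; field_simp [E.f_ne_zero b]
  rw [x, co, this, evalAt_mul (hY j) (ordGE_co (ordGE_of_mem (E.f_mem b) P))]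
  exact mul_eq_zero_of_right _ h0

/-- A zero of the equations in an affine chart comes from a place. -/
theorem exists_place_of_zero {b : Fin E.r} {z : Fin E.r → K}
    (hz : ∀ p ∈ E.Ib b, MvPolynomial.eval z p = 0) :
    ∃ P : Place K F, E.x P b ≠ 0 ∧ z = fun i => E.x P i / E.x P b := by
  classical
  -- the coordinate ring and the ideal of the point `z` in it
  set R : Subalgebra K F := (MvPolynomial.aeval (E.Y b)).range
  let π : MvPolynomial (Fin E.r) K →ₐ[K] R := (MvPolynomial.aeval (E.Y b)).rangeRestrict
  set I : Ideal R := Ideal.span (Set.range fun i => π (MvPolynomial.X i - MvPolynomial.C (z i)))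
  have hker : ∀ p, π p = 0 → MvPolynomial.eval z p = 0 := fun p hp =>
    hz p (RingHom.mem_ker.2 (congrArg Subtype.val hp))
  -- the ideal is proper, as the equations vanish at `z`
  have hI : I ≠ ⊤ := fun hI => by
    have h1 : (1 : R) ∈ I := hI ▸ Submodule.mem_top
    obtain ⟨c, hc⟩ := Ideal.mem_span_range_iff_exists_fun.1 h1
    choose q hq using fun i => (AlgHom.rangeRestrict_surjective (MvPolynomial.aeval (E.Y b)) (c i))
    have h2 : π (1 - ∑ i, q i * (MvPolynomial.X i - MvPolynomial.C (z i))) = 0 := by
      rw [map_sub, map_one, map_sum, sub_eq_zero]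
      simp only [map_mul]
      exact hc.symm.trans (Finset.sum_congr rfl fun i _ => by rw [← hq i])
    simpa using hker _ h2
  -- some generator `Y i - z i` is nonzero, by linear independence
  obtain ⟨i, hi⟩ : ∃ i, i ≠ b := by
    have : Nontrivial (Fin E.r) := Fin.nontrivial_iff_two_le.2 E.two_le_r
    exact exists_ne b
  have hne : π (MvPolynomial.X i - MvPolynomial.C (z i)) ≠ 0 := fun h => by
    have h' : E.f i - z i • E.f b = 0 := by
      have h1 : E.Y b i - algebraMap K F (z i) = 0 := by
        simpa [π] using congrArg Subtype.val h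
      rw [sub_eq_zero, Y] at h1
      rw [sub_eq_zero, Algebra.smul_def, ← h1, mul_assoc, inv_mul_cancel₀ (E.f_ne_zero b), mul_one]
    have h2 := Fintype.linearIndependent_iff.1 E.linearIndependent_f
      (Pi.single i 1 - Pi.single b (z i)) (by
        simp [sub_smul, Finset.sum_sub_distrib, Pi.single_apply, ite_smul,
          Finset.sum_ite_eq', h']) i
    simp [hi] at h2
  -- so the ideal is centred at a place, where the coordinates take the values `z`
  obtain ⟨P, hreg, hI1⟩ := exists_place_center R I hI (Ideal.subset_span ⟨i, rfl⟩) hne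
  have hY : ∀ j, OrdGE P (E.Y b j) 0 := fun j =>
    hreg ⟨E.Y b j, ⟨MvPolynomial.X j, MvPolynomial.aeval_X _ _⟩⟩
  have hev : ∀ j, evalAt P (E.Y b j) = z j := fun j => evalAt_eq (by
    have := hI1 _ (Ideal.subset_span ⟨j, rfl⟩)
    simpa [π] using this)
  have hb : E.x P b ≠ 0 := E.x_ne_zero_of_regular hY
  exact ⟨P, hb, funext fun j => by rw [← hev j, E.evalAt_Y hb j]⟩

/-- A polynomial vanishing on all points of the chart is a relation. -/
theorem mem_Ib_of_forall {b : Fin E.r} {p : MvPolynomial (Fin E.r) K}
    (h : ∀ P : Place K F, E.x P b ≠ 0 → MvPolynomial.eval (fun i => E.x P i / E.x P b) p = 0) :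
    p ∈ E.Ib b := by
  classical
  rw [Ib, RingHom.mem_ker]
  by_contra hne
  obtain ⟨P, hP⟩ := Infinite.exists_notMem_finset
    ((divOf K (MvPolynomial.aeval (E.Y b) p)).support ∪ (divOf K (E.f b) + E.D).support)
  simp only [Finset.mem_union, Finsupp.mem_support_iff, divOf_apply, Finsupp.add_apply, not_or,
    not_not] at hP
  have hb : E.x P b ≠ 0 := co_ne_zero_of_ord (E.f_ne_zero b) (by omega)
  obtain ⟨hreg, hev⟩ := evalAt_aeval (E.ordGE_Y hb) (E.evalAt_Y hb) p
  rw [h P hb, evalAt_eq_zero_iff hreg] at hev
  have := hev.le_ord hne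
  omega

/-! ### Zeros of a section -/

/-- The zeros, with multiplicity, of the section `s`. -/
def IsZeros (s : Fin E.r → K) (Q : Fin E.M → Place K F) : Prop :=
  ∑ j, Finsupp.single (Q j) (1 : ℤ) = divOf K (E.sec s) + E.D

/-- A nonzero linear form has a tuple of zeros on the curve. -/
theorem exists_isZeros {s : Fin E.r → K} (hs : s ≠ 0) : ∃ Q, E.IsZeros s Q := by
  classical
  have hne : E.sec s ≠ 0 := fun h => hs (E.sec_eq_zero.1 h)
  set A := divOf K (E.sec s) + E.D
  -- the effective divisor of the section has degree `M`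
  have hA : 0 ≤ A := by
    rw [show A = E.D + divOf K (E.sec s) from add_comm _ _, nonneg_add_divOf_iff hne]
    exact E.sec_mem s
  obtain ⟨m, hm⟩ := exists_multiset_sum A hA
  have hcard : m.card = E.M := by
    have h1 : Divisor.degree A = Divisor.degree E.D := by simp [A]
    rw [← hm, map_multiset_sum, Multiset.map_map] at h1
    simp only [Function.comp_def, degree_single_one, Multiset.map_const', Multiset.sum_replicate,
        mul_one, nsmul_eq_mul, ← E.M_eq] at h1
    exact_mod_cast h1
  -- list its places with multiplicity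
  obtain ⟨l, rfl⟩ := Quot.exists_rep m
  have hlen : E.M = l.length := hcard.symm
  refine ⟨fun j => l.get (j.cast hlen), ?_⟩
  change _ = A
  have key : ∀ n (hn : n = l.length), ∑ j : Fin n, Finsupp.single (l.get (j.cast hn)) (1 : ℤ)
      = (l.map fun P => Finsupp.single P (1 : ℤ)).sum := by
    rintro n rfl
    rw [← List.sum_ofFn]
    exact congrArg List.sum (List.ext_getElem (by simp) fun i h1 h2 => by simp)
  rw [key _ hlen, ← hm]
  rfl
where
  exists_multiset_sum (A : Divisor K F) (hA : 0 ≤ A) :
      ∃ m : Multiset (Place K F), (m.map fun P => Finsupp.single P (1 : ℤ)).sum = A := by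
    classical
    refine ⟨∑ P ∈ A.support, (A P).toNat • {P}, ?_⟩
    rw [← Multiset.coe_mapAddMonoidHom, map_sum, Multiset.sum_sum]
    conv_rhs => rw [← A.sum_single, Finsupp.sum]
    refine Finset.sum_congr rfl fun P _ => ?_
    rw [map_nsmul, Multiset.sum_nsmul]
    simp [Int.toNat_of_nonneg (Finsupp.le_def.1 hA P)]

/-- The multiplicity of `P` among the zeros is the order of vanishing of the section. -/
theorem IsZeros.apply {s : Fin E.r → K} {Q : Fin E.M → Place K F} (h : E.IsZeros s Q)
    (P : Place K F) [DecidablePred fun j => Q j = P] :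
    ((Finset.univ.filter fun j => Q j = P).card : ℤ) = P.ord (E.sec s) + E.D P := by
  classical
  have := congrArg (fun A : Divisor K F => A P) h
  simp only [Finsupp.finsetSum_apply, Finsupp.single_apply, Finset.sum_boole, Finsupp.add_apply,
    divOf_apply] at this
  convert this

/-- A point where the form vanishes is among the zeros. -/
theorem IsZeros.exists_eq {s : Fin E.r → K} {Q : Fin E.M → Place K F} (h : E.IsZeros s Q)
    (hs : s ≠ 0) {P : Place K F} (hP : ∑ i, s i * E.x P i = 0) : ∃ j, Q j = P := by
  classical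
  by_contra hcon
  push Not at hcon
  have h1 := h.apply E P
  rw [Finset.filter_false_of_mem fun j _ => hcon j, Finset.card_empty] at h1
  rw [← co_sec] at hP
  exact co_ne_zero_of_ord (fun h0 => hs (E.sec_eq_zero.1 h0)) (by push_cast at h1; omega) hP

/-- The form vanishes at each of its zeros. -/
theorem IsZeros.sum_eq_zero {s : Fin E.r → K} {Q : Fin E.M → Place K F} (h : E.IsZeros s Q)
    (hs : s ≠ 0) (j : Fin E.M) : ∑ i, s i * E.x (Q j) i = 0 := by
  classical
  have h1 := h.apply E (Q j)
  have h2 : 0 < (Finset.univ.filter fun i => Q i = Q j).card := Finset.card_pos.2 ⟨j, by simp⟩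
  rw [← co_sec, co_eq_zero_iff (ordGE_of_mem (E.sec_mem s) _),
    ordGE_iff_of_ne fun h0 => hs (E.sec_eq_zero.1 h0)]
  omega

end Emb

end Fermat.HT.MW

end
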