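import Fermat.Agent.CFT.Kummer.SUnits
import Fermat.Agent.EC.Unramified

/-!
# Finitely many quadratic characters with bounded ramification

For a number field `L ⊆ ℚ̄` the homomorphisms `Gal(ℚ̄/L) → ℤˣ` with open kernel which are trivial
on inertia at the places not over a fixed finite set of primes are finite in number: such a
character is given by a square root of an element of the finite group of `S`-units modulo squares.
-/

set_option autoImplicit false

noncomputable section

open NumberField IntermediateField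
open Fermat.CFT

namespace Fermat.HT.MW

local notation "ℚbar" => AlgebraicClosure ℚ
local notation "Γℚ" => (AlgebraicClosure ℚ ≃ₐ[ℚ] AlgebraicClosure ℚ)

section Ram

variable {K F : Type*} [Field K] [NumberField K] [Field F] [NumberField F] [Algebra K F]

/-- The ramification index is the order of the inertia group. -/
theorem plRamIdx_eq_card_inertia [IsGalois K F] (w : Pl F) :
    plRamIdx K w = Nat.card (w.asIdeal.inertia (F ≃ₐ[K] F)) := by
  have : Finite (𝓞 K ⧸ (plUnder K w).asIdeal) :=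
    Ideal.finiteQuotientOfFreeOfNeBot _ (plUnder K w).ne_bot
  rw [plRamIdx_eq, ← Ideal.ramificationIdxIn_eq_ramificationIdx (plUnder K w).asIdeal w.asIdeal
    (F ≃ₐ[K] F), Ideal.card_inertia_eq_ramificationIdxIn (G := F ≃ₐ[K] F) (plUnder K w).asIdeal
    w.asIdeal]

/-- If the inertia group at `w` fixes a square root of `a`, the order of `a` below is even. -/
theorem even_ord_of_inertia_fixes [IsGalois K F] (w : Pl F) {a : K} {β : F}
    (hβ : β ^ 2 = algebraMap K F a) (hfix : ∀ g ∈ w.asIdeal.inertia (F ≃ₐ[K] F), g β = β) :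
    Even (ord (plUnder K w) a) := by
  set I := w.asIdeal.inertia (F ≃ₐ[K] F) with hI
  set K₁ : IntermediateField K F := IntermediateField.fixedField I with hK₁
  have : NumberField K₁ := NumberField.of_module_finite K K₁
  have : IsGalois K₁ F := IsGalois.tower_top_intermediateField K₁
  have hfs : K₁.fixingSubgroup = I := IntermediateField.fixingSubgroup_fixedField I
  -- the two inertia groups have the same order
  have hcard : plRamIdx K₁ w = plRamIdx K w := by
    rw [plRamIdx_eq_card_inertia, plRamIdx_eq_card_inertia, ← hI]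
    refine Nat.card_congr
      { toFun := fun g => ⟨g.1.restrictScalars K, g.2⟩
        invFun := fun g => ⟨(IntermediateField.fixingSubgroupEquiv K₁) ⟨g.1, hfs.symm ▸ g.2⟩,
          fun x => g.2 x⟩
        left_inv := fun g => Subtype.ext (AlgEquiv.ext fun x => rfl)
        right_inv := fun g => Subtype.ext (AlgEquiv.ext fun x => rfl) }
  have hmem : β ∈ K₁ := by
    rw [hK₁, IntermediateField.mem_fixedField_iff]
    exact hfix
  have h1 : ord w (algebraMap K F a) = (plRamIdx K w : ℤ) * ord (plUnder K w) a :=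
    ord_algebraMap_eq w a
  have h2 : ord w β = (plRamIdx K₁ w : ℤ) * ord (plUnder K₁ w) (⟨β, hmem⟩ : K₁) :=
    ord_algebraMap_eq (K := K₁) w ⟨β, hmem⟩
  rw [← hβ, ord_pow, h2, hcard] at h1
  refine ⟨ord (plUnder K₁ w) (⟨β, hmem⟩ : K₁), ?_⟩
  have hne : (plRamIdx K w : ℤ) ≠ 0 := by exact_mod_cast (plRamIdx_pos (K := K) w).ne'
  refine mul_left_cancel₀ hne ?_
  push_cast at h1
  linear_combination -h1

end Ram

variable (L : IntermediateField ℚ ℚbar) [FiniteDimensional ℚ L] [Normal ℚ L] (T : Finset ℕ)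

/-- The characters in question. -/
def unramChars : Set (L.fixingSubgroup →* ℤˣ) :=
  {χ | (∃ E : IntermediateField ℚ ℚbar, FiniteDimensional ℚ E ∧
      ∀ σ : L.fixingSubgroup, (σ : Γℚ) ∈ E.fixingSubgroup → χ σ = 1) ∧
    ∀ ℓ : ℕ, ℓ.Prime → ℓ ∉ T → ∀ A : ValuationSubring ℚbar, A.LiesOverPrime ℓ →
      ∀ σ : L.fixingSubgroup, (σ : Γℚ) ∈ A.inertiaSubgroupIn ℚ → χ σ = 1}

omit [Normal ℚ L] in
/-- Every character is given by a square root. -/
theorem exists_sqrt {χ : L.fixingSubgroup →* ℤˣ} {E : IntermediateField ℚ ℚbar}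
    [FiniteDimensional ℚ E] (hE : ∀ σ : L.fixingSubgroup, (σ : Γℚ) ∈ E.fixingSubgroup → χ σ = 1) :
    ∃ β : ℚbar, β ≠ 0 ∧ ∀ σ : L.fixingSubgroup, (σ : Γℚ) β = ((χ σ : ℤ) : ℚbar) * β := by
  classical
  by_cases h1 : ∀ σ, χ σ = 1
  · exact ⟨1, one_ne_zero, fun σ => by simp [h1 σ]⟩
  push Not at h1
  obtain ⟨τ, hτ⟩ := h1
  -- The kernel is an open subgroup; its fixed field has an `α` moved by some `τ`, `χ τ = -1`.
  set H : Subgroup Γℚ := χ.ker.map L.fixingSubgroup.subtype with hH
  have hEH : (L ⊔ E).fixingSubgroup ≤ H := fun σ hσ => by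
    refine ⟨⟨σ, IntermediateField.fixingSubgroup_antitone le_sup_left hσ⟩, ?_, rfl⟩
    exact hE _ (IntermediateField.fixingSubgroup_antitone le_sup_right hσ)
  have hHopen : IsOpen (H : Set Γℚ) :=
    Subgroup.isOpen_mono hEH (IntermediateField.fixingSubgroup_isOpen (L ⊔ E))
  let U : ClosedSubgroup Γℚ := ⟨H, Subgroup.isClosed_of_isOpen _ hHopen⟩
  have hfix : (IntermediateField.fixedField H).fixingSubgroup = H :=
    InfiniteGalois.fixingSubgroup_fixedField U
  have hτH : (τ : Γℚ) ∉ H := by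
    rintro ⟨x, hx, hxe⟩
    exact hτ (by rw [← Subtype.ext hxe]; exact hx)
  obtain ⟨α, hα, hατ⟩ : ∃ α ∈ IntermediateField.fixedField H, (τ : Γℚ) α ≠ α := by
    by_contra hno
    push Not at hno
    exact hτH (by
      rw [← hfix, IntermediateField.mem_fixingSubgroup_iff]
      exact hno)
  rw [IntermediateField.mem_fixedField_iff] at hα
  -- Then `α - τ α` is an eigenvector: kernel elements fix both, the others exchange them.
  refine ⟨α - (τ : Γℚ) α, sub_ne_zero.mpr (Ne.symm hατ), fun σ => ?_⟩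
  have hτ1 : χ τ = -1 := (Int.units_eq_one_or _).resolve_left hτ
  have hk : ∀ x : L.fixingSubgroup, χ x = 1 → (x : Γℚ) α = α := fun x hx =>
    hα _ ⟨x, hx, rfl⟩
  have hcomm : ∀ x : L.fixingSubgroup, χ x = 1 → (x : Γℚ) ((τ : Γℚ) α) = (τ : Γℚ) α := by
    intro x hx
    have := hk (τ⁻¹ * x * τ)
      (by rw [map_mul, map_mul, hx, mul_one, ← map_mul, inv_mul_cancel, map_one])
    have := congrArg (τ : Γℚ) this
    simpa using this
  rcases Int.units_eq_one_or (χ σ) with h | h
  · rw [map_sub, hk σ h, hcomm σ h, h]; simp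
  · have hs : χ (σ * τ) = 1 := by rw [map_mul, h, hτ1, neg_mul_neg, one_mul]
    have hs' : χ (σ * τ⁻¹) = 1 := by rw [map_mul, map_inv, h, hτ1]; decide
    have e1 : (σ : Γℚ) ((τ : Γℚ) α) = α := by simpa using hk _ hs
    have e2 : (σ : Γℚ) α = (τ : Γℚ) α := by
      have := hcomm _ hs'
      simpa using this
    rw [map_sub, e1, e2, h]; simp

omit [Normal ℚ L] in
/-- The square of such a root has even order away from `T`. -/
theorem even_ord_sq {χ : L.fixingSubgroup →* ℤˣ}
    (hunr : ∀ ℓ : ℕ, ℓ.Prime → ℓ ∉ T → ∀ A : ValuationSubring ℚbar, A.LiesOverPrime ℓ →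
      ∀ σ : L.fixingSubgroup, (σ : Γℚ) ∈ A.inertiaSubgroupIn ℚ → χ σ = 1) {β : ℚbar}
    (hβ : ∀ σ : L.fixingSubgroup, (σ : Γℚ) β = ((χ σ : ℤ) : ℚbar) * β) {a : L}
    (ha : (a : ℚbar) = β ^ 2) (v : Pl L) (hv : ∀ ℓ ∈ T, ℓ.Prime → (ℓ : 𝓞 L) ∉ v.asIdeal) :
    Even (ord v a) := by
  classical
  have : FiniteDimensional ℚ ℚ⟮β⟯ :=
    IntermediateField.adjoin.finiteDimensional (Algebra.IsIntegral.isIntegral (R := ℚ) β)
  -- a Galois number field containing `L` and `β`
  set E : IntermediateField ℚ ℚbar := normalClosure ℚ (L ⊔ ℚ⟮β⟯ : IntermediateField ℚ ℚbar) ℚbar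
    with hEdef
  have hle : (L ⊔ ℚ⟮β⟯ : IntermediateField ℚ ℚbar) ≤ E :=
    IntermediateField.le_normalClosure _
  have hLE : L ≤ E := le_sup_left.trans hle
  have hβE : β ∈ E := hle ((le_sup_right : ℚ⟮β⟯ ≤ L ⊔ ℚ⟮β⟯)
    (IntermediateField.mem_adjoin_simple_self ℚ β))
  let : Algebra L E := (IntermediateField.inclusion hLE).toRingHom.toAlgebra
  have : IsScalarTower ℚ L E := IsScalarTower.of_algebraMap_eq fun _ => rfl
  have : NumberField E := ⟨⟩
  have : NumberField L := ⟨⟩
  have : Normal ℚ E := by rw [hEdef]; exact normalClosure.normal ℚ _ ℚbar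
  have : IsGalois ℚ E := ⟨⟩
  have : IsGalois L E := IsGalois.tower_top_of_isGalois ℚ L E
  -- a place over `v` and a place of the algebraic closure over it
  obtain ⟨w, hw⟩ := exists_plUnder_eq (F := E) v
  obtain ⟨ℓ, hℓ, hℓw⟩ := CFT.exists_prime_natCast_mem w
  have hℓT : ℓ ∉ T := fun hmem => hv ℓ hmem hℓ (by
    rw [← hw, asIdeal_plUnder, Ideal.under_def, Ideal.mem_comap, map_natCast]
    exact hℓw)
  obtain ⟨A, hA, hAw⟩ := exists_place_over E w.isPrime hℓ hℓw
  have h2 : (⟨β, hβE⟩ : E) ^ 2 = algebraMap L E a := Subtype.ext (by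
    change β ^ 2 = (a : ℚbar)
    rw [ha])
  rw [← hw]
  -- inertia fixes `β`
  refine even_ord_of_inertia_fixes w h2 fun g hg => ?_
  obtain ⟨σ, hσ, hσg⟩ := Fermat.CFT.exists_mem_inertia_restrict hℓ hA (L := E)
    (g := g.restrictScalars ℚ) (fun x => by
      rw [show primeBelow E A = w.asIdeal from hAw]
      exact hg x)
  have hres : ∀ x : E, σ (x : ℚbar) = ((g x : E) : ℚbar) := fun x => by
    have := AlgEquiv.restrictNormal_commutes σ E x
    rw [show σ.restrictNormal E = AlgEquiv.restrictNormalHom E σ from rfl, hσg] at this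
    exact this.symm
  have hσL : σ ∈ L.fixingSubgroup := by
    rw [IntermediateField.mem_fixingSubgroup_iff]
    intro x hx
    have := hres (algebraMap L E ⟨x, hx⟩)
    rw [g.commutes] at this
    exact this
  apply Subtype.ext
  rw [← hres ⟨β, hβE⟩]
  change σ β = β
  rw [show σ β = ((⟨σ, hσL⟩ : L.fixingSubgroup) : Γℚ) β from rfl, hβ,
    hunr ℓ hℓ hℓT A hA ⟨σ, hσL⟩ hσ]
  simp

omit [Normal ℚ L] in
/-- **Finiteness.** There are only finitely many characters on `L` unramified outside `T`. -/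
theorem finite_unramChars : (unramChars L T).Finite := by
  classical
  have : NumberField L := ⟨⟩
  obtain ⟨S₀, hS₀⟩ := exists_finset_generatesClassGroup L
  have hfin : {v : Pl L | ∃ ℓ ∈ T, ℓ.Prime ∧ (ℓ : 𝓞 L) ∈ v.asIdeal}.Finite := by
    refine Set.Finite.subset (Set.Finite.biUnion T.finite_toSet fun ℓ _ =>
      (show {v : Pl L | ℓ.Prime ∧ (ℓ : 𝓞 L) ∈ v.asIdeal}.Finite from ?_)) ?_
    · by_cases hℓ : ℓ.Prime
      · refine (finite_ord_ne_zero ((ℓ : 𝓞 L) : L)).subset fun v hv => ?_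
        rw [Set.mem_ofPred_eq, ne_eq, ord_algebraMap_eq_zero_iff v (by simpa using hℓ.ne_zero),
          not_not]
        exact hv.2
      · simp [hℓ]
    · rintro v ⟨ℓ, hℓT, hℓ⟩
      exact Set.mem_biUnion hℓT hℓ
  set S : Finset (Pl L) := S₀ ∪ hfin.toFinset with hS
  have hgen : GeneratesClassGroup (S : Set (Pl L)) := hS₀.mono (by simp [hS])
  -- representatives of the S-units modulo squares
  let U := Additive (sUnits L (S : Set (Pl L)))
  let two : Submodule ℤ U := LinearMap.range ((2 : ℤ) • (LinearMap.id : U →ₗ[ℤ] U))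
  let Q := U ⧸ two
  have : Module.Finite ℤ Q := Module.Finite.quotient ℤ _
  have : Finite Q := by
    refine Module.finite_of_fg_torsion Q fun x => ?_
    obtain ⟨y, rfl⟩ := Submodule.mkQ_surjective two x
    refine ⟨⟨2, mem_nonZeroDivisors_of_ne_zero (by norm_num)⟩, ?_⟩
    change (2 : ℤ) • Submodule.mkQ two y = 0
    rw [← map_smul, Submodule.mkQ_apply, Submodule.Quotient.mk_eq_zero]
    exact ⟨y, rfl⟩
  let rep : Q → U := fun q => (Submodule.mkQ_surjective two q).choose
  choose root hroot using fun u : U =>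
    IsAlgClosed.exists_pow_nat_eq (((Additive.toMul u).1 : L) : ℚbar) (n := 2) (by norm_num)
  refine Set.Finite.of_finite_image (f := fun χ => fun σ : L.fixingSubgroup => χ σ) ?_
    (fun χ _ χ' _ h => MonoidHom.ext (congrFun h))
  refine (Set.finite_range (fun q : Q => fun σ : L.fixingSubgroup =>
    if (σ : Γℚ) (root (rep q)) = root (rep q) then (1 : ℤˣ) else -1)).subset ?_
  rintro _ ⟨χ, ⟨⟨E, hEfd, hE⟩, hunr⟩, rfl⟩
  -- `χ` is the character of a square root `β` of some `a`; modulo squares `a` is an `S`-unit.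
  obtain ⟨β, hβ0, hβ⟩ := exists_sqrt L hE
  have hmem : β ^ 2 ∈ L := by
    rw [← InfiniteGalois.fixedField_fixingSubgroup L, IntermediateField.mem_fixedField_iff]
    intro σ hσ
    rw [map_pow, show σ β = ((⟨σ, hσ⟩ : L.fixingSubgroup) : Γℚ) β from rfl, hβ, mul_pow]
    rcases Int.units_eq_one_or (χ ⟨σ, hσ⟩) with h | h <;> simp [h]
  set a : L := ⟨β ^ 2, hmem⟩ with ha
  have ha0 : a ≠ 0 := fun h => hβ0 (pow_eq_zero_iff (by norm_num) |>.mp (congrArg Subtype.val h))
  obtain ⟨b, hb0, hb⟩ := hgen (fun v => if v ∈ S then 0 else ord v a / 2) (by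
    refine (finite_ord_ne_zero a).subset fun v hv => ?_
    simp only [Set.mem_ofPred_eq, ne_eq] at hv ⊢
    intro h
    exact hv (by simp [h]))
  have hu0 : a / b ^ 2 ≠ 0 := div_ne_zero ha0 (pow_ne_zero _ hb0)
  let u : U := Additive.ofMul ⟨Units.mk0 _ hu0, fun v hv => by
    have hev : Even (ord v a) := even_ord_sq L T hunr hβ (a := a) rfl v fun ℓ hℓT hℓ hmem =>
      hv (Finset.mem_union_right _ (hfin.mem_toFinset.mpr ⟨ℓ, hℓT, hℓ, hmem⟩))
    obtain ⟨m, hm⟩ := hev
    change ord v (a / b ^ 2) = 0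
    rw [ord_div v ha0 (pow_ne_zero _ hb0), ord_pow, hb v hv, if_neg (Finset.mem_coe.not.mp hv), hm,
      show (m + m) / 2 = m by omega]
    push_cast; ring⟩
  refine ⟨Submodule.mkQ two u, ?_⟩
  have hr := (Submodule.mkQ_surjective two (Submodule.mkQ two u)).choose_spec
  rw [Submodule.mkQ_apply, Submodule.mkQ_apply, Submodule.Quotient.eq] at hr
  obtain ⟨s, hs⟩ := hr
  set r := rep (Submodule.mkQ two u) with hrdef
  have hs' : ((Additive.toMul r).1 : L) =
      ((Additive.toMul s).1 : L) ^ 2 * ((Additive.toMul u).1 : L) := by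
    have e : r = (2 : ℤ) • s + u := by
      rw [← sub_eq_iff_eq_add]; exact hs.symm
    rw [e, toMul_add, toMul_zsmul, zpow_two, sq]
    rfl
  funext σ
  -- The chosen root differs from `β` by a scalar of `L`, so has the same character.
  have hc : ∃ c : L, (root r) = (c : ℚbar) * β := by
    have e : root r ^ 2 = ((((Additive.toMul s).1 : L) / b : L) * β : ℚbar) ^ 2 := by
      rw [hroot, hs']
      change ((((Additive.toMul s).1 : L) ^ 2 * (a / b ^ 2) : L) : ℚbar) = _
      have hb' : (b : ℚbar) ≠ 0 := by simpa using hb0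
      push_cast [ha]
      field_simp
    rcases sq_eq_sq_iff_eq_or_eq_neg.mp e with h | h
    · exact ⟨_, h⟩
    · exact ⟨-(((Additive.toMul s).1 : L) / b), by rw [h]; push_cast; ring⟩
  obtain ⟨c, hc⟩ := hc
  have hroot0 : root r ≠ 0 := fun h => by
    have := hroot r
    rw [h, zero_pow two_ne_zero] at this
    exact Units.ne_zero (Additive.toMul r).1 (Subtype.ext this.symm)
  have hσc : (σ : Γℚ) (c : ℚbar) = c :=
    (IntermediateField.mem_fixingSubgroup_iff L σ.1).mp σ.2 _ c.2
  have hmul : (σ : Γℚ) (root r) = ((χ σ : ℤ) : ℚbar) * root r := by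
    rw [hc, map_mul, hσc, hβ]; ring
  change (if (σ : Γℚ) (root r) = root r then (1 : ℤˣ) else -1) = χ σ
  rcases Int.units_eq_one_or (χ σ) with h | h
  · rw [if_pos (by rw [hmul, h]; simp), h]
  · rw [if_neg, h]
    rw [hmul, h]
    intro e
    simp only [Units.val_neg, Units.val_one, Int.cast_neg, Int.cast_one, neg_mul, one_mul] at e
    have : (2 : ℚbar) * root r = 0 := by linear_combination -e
    simp [hroot0] at this

end Fermat.HT.MW

end
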