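import Fermat.Agent.HT.MW.Secant

/-!
# The local key estimate

For a section with zeros `Q` the leading coefficient at `P` is, up to adelic constants, the product
of the secants `P Q`.
-/

set_option autoImplicit false

noncomputable section

open AlgebraicCurve Fermat.FF

namespace Fermat.HT.MW

/-- One summand is at most the whole sum. -/
theorem le_add_left_sum {α β : Type*} [Fintype α] (S : α → Multiset β) (T : Multiset β) (a : α) :
    S a ≤ T + ∑ i, S i :=
  le_add_left (Finset.single_le_sum (fun i _ => Multiset.zero_le (S i)) (Finset.mem_univ a))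

namespace Emb

variable {K F : Type*} [Field K] [CharZero K] [Field F] [Algebra K F] [IsAlgClosed K]
  [IsFunctionField K F] (E : Emb K F)

omit [CharZero K] in
/-- A moment curve form as a dot product. -/
theorem mform_eq_dot (a : K) (z : Fin E.r → K) :
    mform a z = ∑ i, a ^ (Fintype.equivFin (Fin E.r) i : ℕ) * z i :=
  Finset.sum_congr rfl fun _ _ => mul_comm _ _

/-- The specialised Chow forms are not all small. -/
theorem chow_bound {R : MvPolynomial (Fin E.r ⊕ Fin E.r) K} (hR : E.IsChow R) :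
    ∃ S : Multiset K, ∀ v : AbsoluteValue K ℝ, Nice v → ∀ s : Fin E.r → K, ∀ l, s l = 1 →
      (∀ i, v (s i) ≤ 1) → ∀ Q, E.IsZeros s Q → ∀ c : K,
        (∀ u, MvPolynomial.eval (Sum.elim s u) R = c * E.evQ Q u) →
          1 ≤ Bd S v * (v c * ∏ j, nrm v (E.x (Q j))) ∧
            v c * ∏ j, nrm v (E.x (Q j)) ≤ Bd S v := by
  classical
  obtain ⟨Sf, hSf⟩ := exists_prod_forms_bound (k := K) (κ := Fin E.r) E.M
  let u : ℕ → Fin E.r → K := fun a i => (a : K) ^ (Fintype.equivFin (Fin E.r) i : ℕ)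
  let Fu : Fin (mSize (Fin E.r) E.M) → MvPolynomial (Fin E.r) K := fun a =>
    MvPolynomial.aeval (Sum.elim MvPolynomial.X fun i => MvPolynomial.C (u a i)) R
  have hFu : ∀ a s, MvPolynomial.eval s (Fu a) = MvPolynomial.eval (Sum.elim s (u a)) R :=
    fun a s => by
    simp only [Fu]
    rw [show MvPolynomial.eval s = ((MvPolynomial.aeval s : MvPolynomial (Fin E.r) K →ₐ[K] K) :
        MvPolynomial (Fin E.r) K →+* K) from rfl, AlgHom.coe_toRingHom, ← AlgHom.comp_apply,
      MvPolynomial.comp_aeval, ← MvPolynomial.coe_aeval_eq_eval]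
    change MvPolynomial.aeval _ R = MvPolynomial.aeval _ R
    congr 2
    funext j
    rcases j with i | i <;> simp
  have hval : ∀ (Q : Fin E.M → Place K F) (a : ℕ),
      E.evQ Q (u a) = ∏ j, mform (a : K) (E.x (Q j)) := fun Q a =>
    Finset.prod_congr rfl fun j _ => (E.mform_eq_dot _ _).symm
  -- on each chart the values at some test vectors have no common zero
  have hb : ∀ l : Fin E.r, ∃ S : Multiset K, ∀ v : AbsoluteValue K ℝ, Nice v →
      ∀ z : Fin E.r → K,
        (∀ p ∈ Ideal.span {MvPolynomial.X l - 1}, MvPolynomial.eval z p = 0) →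
        (∀ a, v (z a) ≤ 1) → ∃ a, 1 ≤ Bd S v * v (MvPolynomial.eval z (Fu a)) := fun l => by
    refine exists_bound_of_no_common_zero _ Fu fun z hz => ?_
    have hzl : z l = 1 := by
      simpa [sub_eq_zero] using hz _ (Ideal.subset_span rfl)
    have hz0 : z ≠ 0 := fun h => by simp [h] at hzl
    obtain ⟨Q, hQ⟩ := E.exists_isZeros hz0
    obtain ⟨c, hc, hcu⟩ := hR z hz0 Q hQ
    obtain ⟨a, ha⟩ := exists_mform_ne_zero (fun j => E.x (Q j)) fun j => E.x_ne_zero _
    exact ⟨a, by rw [hFu, hcu, hval]; exact mul_ne_zero hc ha⟩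
  choose Sl hSl using hb
  refine ⟨(Sf + ∑ a, polyBd (Fu a)) + ((Sf + ∑ l, Sl l) + 0), fun v hv s l hl hs Q hQ c hcu => ?_⟩
  obtain ⟨hup, a₁, hlow⟩ := hSf v hv (fun j => E.x (Q j)) fun j => E.x_ne_zero _
  set pR := ∏ j, nrm v (E.x (Q j))
  have hpR : 0 ≤ pR := Finset.prod_nonneg fun j _ => nrm_nonneg _
  rw [add_zero, Bd_add]
  -- the lower bound
  constructor
  · obtain ⟨a, ha⟩ := hSl l v hv s (fun p hp => by
      have : Ideal.span {(MvPolynomial.X l - 1 : MvPolynomial (Fin E.r) K)}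
          ≤ RingHom.ker (MvPolynomial.eval s) := Ideal.span_le.2 (by simp [hl])
      exact RingHom.mem_ker.1 (this hp)) hs
    rw [hFu, hcu, map_mul, hval] at ha
    calc (1 : ℝ) ≤ Bd (Sl l) v * (v c * v (∏ j, mform ((a : ℕ) : K) (E.x (Q j)))) := ha
      _ ≤ Bd (∑ l, Sl l) v * (v c * (Bd Sf v * pR)) := by
          refine mul_le_mul (Bd_mono ?_) (mul_le_mul_of_nonneg_left (hup a) (v.nonneg _))
            (mul_nonneg (v.nonneg _) (v.nonneg _)) (Bd_pos _).le
          simpa using le_add_left_sum Sl 0 l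
      _ = 1 * Bd (Sf + ∑ l, Sl l) v * (v c * pR) := by rw [Bd_add]; ring
      _ ≤ _ := mul_le_mul_of_nonneg_right
            (mul_le_mul_of_nonneg_right (one_le_Bd _) (Bd_pos _).le)
            (mul_nonneg (v.nonneg _) hpR)
  -- the upper bound
  · calc v c * pR ≤ v c * (Bd Sf v * v (∏ j, mform ((a₁ : ℕ) : K) (E.x (Q j)))) :=
          mul_le_mul_of_nonneg_left hlow (v.nonneg _)
      _ = Bd Sf v * v (MvPolynomial.eval s (Fu a₁)) := by rw [hFu, hcu, map_mul, hval]; ring
      _ ≤ Bd Sf v * Bd (∑ a, polyBd (Fu a)) v := by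
          refine mul_le_mul_of_nonneg_left ((map_eval_le hv _ hs).trans (Bd_mono ?_)) (Bd_pos _).le
          simpa using le_add_left_sum (fun a => polyBd (Fu a)) 0 a₁
      _ = Bd (Sf + ∑ a, polyBd (Fu a)) v * 1 := by rw [Bd_add, mul_one]
      _ ≤ _ := mul_le_mul_of_nonneg_left (one_le_Bd _) (Bd_pos _).le

open scoped Classical in
/-- The order of the section at `P`, as a number of zeros. -/
def mult (Q : Fin E.M → Place K F) (P : Place K F) : ℕ :=
  (Finset.univ.filter fun j => Q j = P).card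

omit [CharZero K] in
/-- A relation of the chart, placed in the first variables, vanishes at its points. -/
theorem chart_zero {b : Fin E.r} {p : MvPolynomial (Fin E.r) K} (hp : p ∈ E.Ib b)
    {P : Place K F} (hb : E.x P b ≠ 0) (s : Fin E.r → K) :
    MvPolynomial.eval (Sum.elim (fun i => E.x P i / E.x P b) s) (MvPolynomial.rename Sum.inl p)
      = 0 := by
  rw [MvPolynomial.eval_rename, Sum.elim_comp_inl]
  exact E.eval_of_mem_Ib hb hp

/-- The quotient form is not small. -/
theorem G_bound {R : MvPolynomial (Fin E.r ⊕ Fin E.r) K} (hR : E.IsChow R) (b l : Fin E.r) :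
    ∃ S : Multiset K, ∀ v : AbsoluteValue K ℝ, Nice v → ∀ P : Place K F, E.x P b ≠ 0 →
      ∀ s : Fin E.r → K, s l = 1 → (∀ i, v (E.x P i / E.x P b) ≤ 1) → (∀ i, v (s i) ≤ 1) →
        (∃ a : Fin (mSize E.PIdx E.M), 1 ≤ Bd S v *
          v (MvPolynomial.eval (Sum.elim (fun i => E.x P i / E.x P b) s) (E.G R b a))) ∧
        ∀ a : Fin (mSize E.PIdx E.M),
          v (MvPolynomial.eval (Sum.elim (fun i => E.x P i / E.x P b) s) (E.G R b a)) ≤ Bd S v := by
  classical
  -- `I` cuts out the chart at `b` times the hyperplane `s l = 1`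
  set I : Ideal (MvPolynomial (Fin E.r ⊕ Fin E.r) K) :=
    (E.Ib b).map (MvPolynomial.rename Sum.inl).toRingHom ⊔
      Ideal.span {MvPolynomial.X (Sum.inr l) - 1}
  have hI : ∀ z : Fin E.r ⊕ Fin E.r → K, (∀ p ∈ I, MvPolynomial.eval z p = 0) ↔
      (∀ p ∈ E.Ib b, MvPolynomial.eval z (MvPolynomial.rename Sum.inl p) = 0) ∧
        z (Sum.inr l) = 1 := fun z => by
    refine ⟨fun h => ⟨fun p hp => h _ (Ideal.mem_sup_left (Ideal.mem_map_of_mem _ hp)), ?_⟩,
      fun h p hp => ?_⟩
    · simpa [sub_eq_zero] using h _ (Ideal.mem_sup_right (Ideal.subset_span rfl))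
    · have : I ≤ RingHom.ker (MvPolynomial.eval z) :=
        sup_le (Ideal.map_le_iff_le_comap.2 fun q hq => h.1 q hq)
          (Ideal.span_le.2 (by simp [h.2]))
      exact RingHom.mem_ker.1 (this hp)
  -- there the `G a` have no common zero
  obtain ⟨S, hS⟩ := exists_bound_of_no_common_zero I
    (fun a : Fin (mSize E.PIdx E.M) => E.G R b a) fun z hz => by
      obtain ⟨h1, h2⟩ := (hI z).1 hz
      obtain ⟨P, hb, hy⟩ := E.exists_place_of_zero (b := b) (z := z ∘ Sum.inl) fun p hp => by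
        simpa [MvPolynomial.eval_rename] using h1 p hp
      set s : Fin E.r → K := z ∘ Sum.inr
      have hz' : z = Sum.elim (fun i => E.x P i / E.x P b) s := by
        rw [← hy, Sum.elim_comp_inl_inr]
      have hs0 : s ≠ 0 := fun h => one_ne_zero (α := K) (by rw [← h2]; exact congrFun h l)
      obtain ⟨Q, hQ⟩ := E.exists_isZeros hs0
      obtain ⟨c, hc, hcu⟩ := hR s hs0 Q hQ
      obtain ⟨a, ha⟩ := exists_mform_ne_zero (fun j => E.pw P (Q j)) fun j => E.pw_ne_zero _ _
      refine ⟨a, fun h0 => ?_⟩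
      -- as their value is the Chow constant times a nonzero form
      obtain ⟨ε, hε, hval⟩ := E.G_value hR hb a hs0 hQ hcu
      rw [← hz', h0, zero_mul, zero_mul] at hval
      rcases hε with rfl | rfl <;> exact (mul_ne_zero (mul_ne_zero (by norm_num) hc) ha) hval.symm
  -- this bounds them below, and their coefficients bound them above
  refine ⟨S + ∑ a : Fin (mSize E.PIdx E.M), polyBd (E.G R b a),
    fun v hv P hb s hsl hy hs => ⟨?_, fun a => ?_⟩⟩
  · obtain ⟨a, ha⟩ := hS v hv (Sum.elim (fun i => E.x P i / E.x P b) s)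
      ((hI _).2 ⟨fun p hp => E.chart_zero hp hb s, hsl⟩)
      (fun j => by rcases j with i | i; exacts [hy i, hs i])
    exact ⟨a, ha.trans (mul_le_mul_of_nonneg_right (Bd_mono (le_add_right le_rfl)) (v.nonneg _))⟩
  · exact (map_eval_le hv _ fun j => by rcases j with i | i; exacts [hy i, hs i]).trans
      (Bd_mono (le_add_left_sum (fun a : Fin (mSize E.PIdx E.M) => polyBd (E.G R b a)) S a))

/-- **Key estimate.** Up to constants at finitely many absolute values the leading coefficient at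
`P` of a section is the product of the secants from `P` to its zeros. -/
theorem key_local :
    ∃ S : Multiset K, ∀ v : AbsoluteValue K ℝ, Nice v → ∀ (P : Place K F) (s : Fin E.r → K),
      s ≠ 0 → ∀ Q, E.IsZeros s Q →
        v (co E.D P (E.mult Q P) (E.sec s)) * nrm v (E.x P) ^ (E.M - 1) * ∏ j, nrm v (E.x (Q j))
            ≤ Bd S v * (nrm v s * ∏ j, nrm v (E.pw P (Q j))) ∧
          nrm v s * ∏ j, nrm v (E.pw P (Q j))
            ≤ Bd S v * (v (co E.D P (E.mult Q P) (E.sec s)) * nrm v (E.x P) ^ (E.M - 1)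
                * ∏ j, nrm v (E.x (Q j))) := by
  classical
  obtain ⟨R, hR⟩ := E.exists_chowForm
  replace hR : E.IsChow R := hR
  obtain ⟨Sc, hSc⟩ := E.chow_bound hR
  choose SG hSG using fun p : Fin E.r × Fin E.r => E.G_bound hR p.1 p.2
  obtain ⟨Sf, hSf⟩ := exists_prod_forms_bound (k := K) (κ := E.PIdx) E.M
  refine ⟨(Sc + Sf) + ∑ p, SG p, fun v hv P s hs Q hQ => ?_⟩
  -- Normalise the point on its largest coordinate `b` and the section on `l`.
  obtain ⟨b, hb, hb0⟩ := exists_nrm_eq (v := v) (E.x_ne_zero P)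
  obtain ⟨l, hl, hl0⟩ := exists_nrm_eq (v := v) hs
  set s' : Fin E.r → K := fun i => (s l)⁻¹ * s i
  have hs'l : s' l = 1 := inv_mul_cancel₀ hl0
  have hs'0 : s' ≠ 0 := fun h => one_ne_zero (α := K) (by rw [← hs'l, h]; rfl)
  have hs'1 : ∀ i, v (s' i) ≤ 1 := fun i => by
    simp only [s', map_mul, map_inv₀, ← hl]
    rw [inv_mul_le_one₀ (nrm_pos hs)]
    exact le_nrm _ _
  have hsec : E.sec s' = (s l)⁻¹ • E.sec s := by
    simp [sec, s', Finset.smul_sum, smul_smul]
  have hQ' : E.IsZeros s' Q := by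
    rw [IsZeros, hQ, hsec]
    ext R'
    rw [Finsupp.add_apply, Finsupp.add_apply, divOf_apply, divOf_apply, Algebra.smul_def,
      R'.ord_mul (by simpa using hl0) fun h => hs (E.sec_eq_zero.1 h), ord_algebraMap, zero_add]
  obtain ⟨c, hc, hcu⟩ := hR s' hs'0 Q hQ'
  obtain ⟨⟨a₀, ha₀⟩, hGup⟩ := hSG (b, l) v hv P hb0 s' hs'l (fun i => by
    rw [map_div₀, div_le_one (v.pos hb0), ← hb]; exact le_nrm _ _) hs'1
  obtain ⟨hc1, hc2⟩ := hSc v hv s' l hs'l hs'1 Q hQ' c hcu
  obtain ⟨hup, a₁, hlow⟩ := hSf v hv (fun j => E.pw P (Q j)) fun j => E.pw_ne_zero _ _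
  set α := v (co E.D P (E.mult Q P) (E.sec s'))
  set X := nrm v (E.x P) ^ (E.M - 1)
  set pQ := ∏ j, nrm v (E.x (Q j))
  set pW := ∏ j, nrm v (E.pw P (Q j))
  set g : Fin (mSize E.PIdx E.M) → ℝ := fun a =>
    v (MvPolynomial.eval (Sum.elim (fun i => E.x P i / E.x P b) s') (E.G R b a))
  -- The quotient form times the leading coefficient is the product of the secant forms.
  have hval : ∀ a : Fin (mSize E.PIdx E.M),
      g a * α * X = v c * v (∏ j, mform ((a : ℕ) : K) (E.pw P (Q j))) := fun a => by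
    obtain ⟨ε, hε, h⟩ := E.G_value hR hb0 a hs'0 hQ' hcu
    have := congrArg v h
    rw [map_mul, map_mul, map_mul, map_mul, map_pow, ← hb,
      show v ε = 1 by rcases hε with rfl | rfl <;> simp, one_mul] at this
    convert this using 3
    simp only [α, mult]
  have hα : 0 ≤ α := v.nonneg _
  have hX : 0 ≤ X := pow_nonneg (nrm_nonneg _) _
  have hQ0 : 0 ≤ pQ := Finset.prod_nonneg fun j _ => nrm_nonneg _
  have hw0 : 0 ≤ pW := Finset.prod_nonneg fun j _ => nrm_nonneg _
  have hSG' : Bd (SG (b, l)) v ≤ Bd (∑ p, SG p) v :=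
    Bd_mono (by simpa using le_add_left_sum SG 0 (b, l))
  -- upper and lower bound for `α X`
  have e1 : α * X ≤ Bd (SG (b, l)) v * (v c * (Bd Sf v * pW)) :=
    calc α * X ≤ (Bd (SG (b, l)) v * g a₀) * (α * X) :=
          le_mul_of_one_le_left (mul_nonneg hα hX) ha₀
      _ = Bd (SG (b, l)) v * (v c * v (∏ j, mform ((a₀ : ℕ) : K) (E.pw P (Q j)))) := by
          rw [← hval]; ring
      _ ≤ _ := mul_le_mul_of_nonneg_left (mul_le_mul_of_nonneg_left (hup a₀) (v.nonneg _))
          (Bd_pos _).le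
  have e2 : v c * pW ≤ Bd Sf v * (Bd (SG (b, l)) v * (α * X)) :=
    calc v c * pW ≤ v c * (Bd Sf v * v (∏ j, mform ((a₁ : ℕ) : K) (E.pw P (Q j)))) :=
          mul_le_mul_of_nonneg_left hlow (v.nonneg _)
      _ = Bd Sf v * (g a₁ * (α * X)) := by rw [← mul_assoc (g a₁), hval]; ring
      _ ≤ _ := mul_le_mul_of_nonneg_left
          (mul_le_mul_of_nonneg_right (hGup a₁) (mul_nonneg hα hX)) (Bd_pos _).le
  -- undo the normalisation
  have hco : v (co E.D P (E.mult Q P) (E.sec s)) = nrm v s * α := by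
    have h1 : E.sec s = (s l) • E.sec s' := by rw [hsec, smul_smul, mul_inv_cancel₀ hl0, one_smul]
    rw [h1, co_smul ((ordGE_iff_of_ne fun h => hs'0 (E.sec_eq_zero.1 h)).2 (by
      have := hQ'.apply E P
      simp only [mult]
      omega)), map_mul, ← hl]
  -- Combine the bounds on the Chow constant, the quotient form and the products of forms.
  rw [hco, Bd_add, Bd_add]
  have hSfp := (Bd_pos (v := v) Sf).le
  have hScp := (Bd_pos (v := v) Sc).le
  constructor
  · calc nrm v s * α * X * pQ = nrm v s * (α * X * pQ) := by ring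
      _ ≤ nrm v s * (Bd (SG (b, l)) v * (v c * (Bd Sf v * pW)) * pQ) :=
          mul_le_mul_of_nonneg_left (mul_le_mul_of_nonneg_right e1 hQ0) (nrm_nonneg _)
      _ = (v c * pQ) * (Bd (SG (b, l)) v * Bd Sf v) * (nrm v s * pW) := by ring
      _ ≤ Bd Sc v * (Bd (∑ p, SG p) v * Bd Sf v) * (nrm v s * pW) :=
          mul_le_mul_of_nonneg_right (mul_le_mul hc2 (mul_le_mul_of_nonneg_right hSG' hSfp)
            (mul_nonneg (Bd_pos _).le hSfp) hScp) (mul_nonneg (nrm_nonneg _) hw0)
      _ = _ := by ring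
  · calc nrm v s * pW ≤ nrm v s * pW * (Bd Sc v * (v c * pQ)) :=
          le_mul_of_one_le_right (mul_nonneg (nrm_nonneg _) hw0) hc1
      _ = nrm v s * (v c * pW) * (Bd Sc v * pQ) := by ring
      _ ≤ nrm v s * (Bd Sf v * (Bd (∑ p, SG p) v * (α * X))) * (Bd Sc v * pQ) :=
          mul_le_mul_of_nonneg_right (mul_le_mul_of_nonneg_left (e2.trans
            (mul_le_mul_of_nonneg_left (mul_le_mul_of_nonneg_right hSG' (mul_nonneg hα hX)) hSfp))
            (nrm_nonneg _)) (mul_nonneg hScp hQ0)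
      _ = _ := by ring

end Emb

end Fermat.HT.MW

end
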