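import Fermat.Agent.HT.MW.AbsH
import Mathlib.Analysis.Normed.Unbundled.SpectralNorm
import Mathlib.RingTheory.Nullstellensatz

/-!
# Local estimates with adelic constants

All estimates are stated for absolute values on an algebraically closed field, with constants
`Bd S v` attached to a finite multiset `S`; `sum_absH_le` turns them into statements on heights.
-/

set_option autoImplicit false

noncomputable section

open NumberField IntermediateField Module Real

namespace Fermat.HT.MW

section Local

variable {k : Type*} [Field k]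

/-- The absolute values used: nonarchimedean ones and those coming from complex embeddings. -/
def Nice (v : AbsoluteValue k ℝ) : Prop :=
  IsNonarchimedean v ∨ ∃ φ : k →+* ℂ, ∀ x, v x = ‖φ x‖

/-- An adelic constant. -/
def Bd (S : Multiset k) (v : AbsoluteValue k ℝ) : ℝ := (S.map fun c => max 1 (v c)).prod

/-- The sup norm of a vector. -/
def nrm {ι : Type*} (v : AbsoluteValue k ℝ) (x : ι → k) : ℝ := ⨆ i, v (x i)

variable {v : AbsoluteValue k ℝ}

/-- Adelic constants are at least one. -/
theorem one_le_Bd (S : Multiset k) : 1 ≤ Bd S v := by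
  induction S using Multiset.induction with
  | empty => simp [Bd]
  | cons c S ih =>
    simp only [Bd, Multiset.map_cons, Multiset.prod_cons] at ih ⊢
    exact one_le_mul_of_one_le_of_one_le (le_max_left _ _) ih

/-- Adelic constants are positive. -/
theorem Bd_pos (S : Multiset k) : 0 < Bd S v := lt_of_lt_of_le one_pos (one_le_Bd S)

/-- Adelic constants multiply. -/
theorem Bd_add (S T : Multiset k) : Bd (S + T) v = Bd S v * Bd T v := by
  simp [Bd, Multiset.map_add, Multiset.prod_add]

/-- Adelic constants are monotone in the multiset. -/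
theorem Bd_mono {S T : Multiset k} (h : S ≤ T) : Bd S v ≤ Bd T v := by
  obtain ⟨U, rfl⟩ := Multiset.le_iff_exists_add.1 h
  rw [Bd_add]
  exact le_mul_of_one_le_right (Bd_pos S).le (one_le_Bd U)

/-- Each member is bounded by the adelic constant. -/
theorem le_Bd {S : Multiset k} {c : k} (hc : c ∈ S) : max 1 (v c) ≤ Bd S v := by
  refine le_trans (le_of_eq ?_) (Bd_mono (Multiset.singleton_le.2 hc))
  simp [Bd]

/-- The adelic constant of a repeated multiset is a power. -/
theorem Bd_nsmul (n : ℕ) (S : Multiset k) : Bd (n • S) v = Bd S v ^ n := by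
  induction n with
  | zero => simp [Bd]
  | succ n ih => rw [succ_nsmul, Bd_add, ih, pow_succ]

/-- The logarithm of an adelic constant is nonnegative. -/
theorem log_Bd_nonneg (S : Multiset k) : 0 ≤ Real.log (Bd S v) := Real.log_nonneg (one_le_Bd S)

variable {ι : Type*}

/-- The sup norm is nonnegative. -/
theorem nrm_nonneg (x : ι → k) : 0 ≤ nrm v x := Real.iSup_nonneg fun _ => v.nonneg _

/-- Each coordinate is bounded by the sup norm. -/
theorem le_nrm [Finite ι] (x : ι → k) (i : ι) : v (x i) ≤ nrm v x :=
  Finite.le_ciSup (fun i => v (x i)) i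

/-- A bound on all coordinates bounds the sup norm. -/
theorem nrm_le {x : ι → k} {B : ℝ} (hB : 0 ≤ B) (h : ∀ i, v (x i) ≤ B) : nrm v x ≤ B :=
  Real.iSup_le h hB

/-- The sup norm of a nonzero vector is attained at a nonzero coordinate. -/
theorem exists_nrm_eq [Finite ι] {x : ι → k} (hx : x ≠ 0) : ∃ i, nrm v x = v (x i) ∧ x i ≠ 0 := by
  obtain ⟨i₀, hi₀⟩ := Function.ne_iff.1 hx
  have : Nonempty ι := ⟨i₀⟩
  obtain ⟨i, hi⟩ := Finite.exists_max fun i => v (x i)
  exact ⟨i, le_antisymm (ciSup_le hi) (le_nrm x i), fun h => hi₀ (by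
    have := hi i₀
    rw [h, map_zero] at this
    exact v.eq_zero.1 (le_antisymm this (v.nonneg _)))⟩

/-- The sup norm of a nonzero vector is positive. -/
theorem nrm_pos [Finite ι] {x : ι → k} (hx : x ≠ 0) : 0 < nrm v x := by
  obtain ⟨i, hi⟩ := Function.ne_iff.1 hx
  exact lt_of_lt_of_le (v.pos hi) (le_nrm x i)

/-- A sum of `m` terms of size at most `B` has size at most `max 1 |m| * B`. -/
theorem map_sum_le (hv : Nice v) {α : Type*} (s : Finset α) (f : α → k) {B : ℝ} (hB : 0 ≤ B)
    (h : ∀ a ∈ s, v (f a) ≤ B) : v (∑ a ∈ s, f a) ≤ max 1 (v (s.card : k)) * B := by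
  rcases hv with hv | ⟨φ, hφ⟩
  · rcases s.eq_empty_or_nonempty with rfl | hs
    · simp [hB]
    exact (hv.apply_sum_le_sup hs).trans
      ((Finset.sup'_le hs _ h).trans (le_mul_of_one_le_left hB (le_max_left _ _)))
  · refine (v.sum_le s f).trans ((Finset.sum_le_card_nsmul s _ B h).trans ?_)
    rw [nsmul_eq_mul]
    refine mul_le_mul_of_nonneg_right (le_max_of_le_right ?_) hB
    rw [hφ, map_natCast, Complex.norm_natCast]

/-- A linear combination is bounded by the adelic constant of the coefficient family. -/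
theorem map_sum_mul_le (hv : Nice v) {α : Type*} (s : Finset α) (c f : α → k) {B : ℝ} (hB : 0 ≤ B)
    (h : ∀ a ∈ s, v (f a) ≤ B) :
    v (∑ a ∈ s, c a * f a) ≤ Bd ((s.card : k) ::ₘ s.val.map c) v * B := by
  refine (map_sum_le hv s _ (B := Bd (s.val.map c) v * B)
    (mul_nonneg (Bd_pos _).le hB) fun a ha => ?_).trans ?_
  · rw [map_mul]
    exact mul_le_mul ((le_max_right _ _).trans (le_Bd (Multiset.mem_map_of_mem c ha))) (h a ha)
      (v.nonneg _) (Bd_pos _).le
  · rw [← mul_assoc]
    exact le_of_eq (by simp [Bd])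

/-- Adelic constant of a polynomial. -/
def polyBd {σ : Type*} (p : MvPolynomial σ k) : Multiset k :=
  (p.support.card : k) ::ₘ p.support.val.map fun d => p.coeff d

/-- A polynomial at a point of the unit ball is bounded by its adelic constant. -/
theorem map_eval_le (hv : Nice v) {σ : Type*} (p : MvPolynomial σ k) {z : σ → k}
    (hz : ∀ a, v (z a) ≤ 1) : v (MvPolynomial.eval z p) ≤ Bd (polyBd p) v := by
  rw [MvPolynomial.eval_eq]
  refine (map_sum_mul_le hv _ _ _ zero_le_one fun d _ => ?_).trans (le_of_eq (mul_one _))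
  rw [map_prod]
  exact Finset.prod_le_one (fun i _ => v.nonneg _) fun i _ => by
    rw [map_pow]; exact pow_le_one₀ (v.nonneg _) (hz i)

/-- Polynomials without common zero on a zero locus are not all small there. -/
theorem exists_bound_of_no_common_zero [IsAlgClosed k] {σ : Type*} [Finite σ] {ι : Type*}
    [Fintype ι] (I : Ideal (MvPolynomial σ k)) (F : ι → MvPolynomial σ k)
    (h : ∀ z : σ → k, (∀ p ∈ I, MvPolynomial.eval z p = 0) → ∃ i, MvPolynomial.eval z (F i) ≠ 0) :
    ∃ S : Multiset k, ∀ v : AbsoluteValue k ℝ, Nice v → ∀ z : σ → k,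
      (∀ p ∈ I, MvPolynomial.eval z p = 0) → (∀ a, v (z a) ≤ 1) →
        ∃ i, 1 ≤ Bd S v * v (MvPolynomial.eval z (F i)) := by
  classical
  have hev : ∀ (z : σ → k) p, MvPolynomial.aeval z p = MvPolynomial.eval z p := fun z p => by
    rw [← MvPolynomial.coe_aeval_eq_eval]
    rfl
  -- Nullstellensatz: the ideal and the polynomials generate the unit ideal
  have htop : I ⊔ Ideal.span (Set.range F) = ⊤ := by
    rw [← Ideal.radical_eq_top, ← MvPolynomial.vanishingIdeal_zeroLocus_eq_radical (K := k)]
    have : MvPolynomial.zeroLocus k (I ⊔ Ideal.span (Set.range F)) = ∅ :=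
      Set.eq_empty_iff_forall_notMem.2 fun z hz => by
        rw [MvPolynomial.mem_zeroLocus_iff] at hz
        obtain ⟨i, hi⟩ := h z fun p hp => by rw [← hev]; exact hz p (Ideal.mem_sup_left hp)
        exact hi (by rw [← hev]; exact hz _ (Ideal.mem_sup_right (Ideal.subset_span ⟨i, rfl⟩)))
    rw [this, MvPolynomial.vanishingIdeal_empty]
  obtain ⟨p₀, hp₀, q', hq', h1⟩ := Submodule.mem_sup.1 ((Ideal.eq_top_iff_one _).1 htop)
  obtain ⟨q, hq⟩ := Ideal.mem_span_range_iff_exists_fun.1 hq'
  -- evaluate a combination equal to `1`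
  refine ⟨(Fintype.card ι : k) ::ₘ ∑ i, polyBd (q i), fun v hv z hz hz1 => ?_⟩
  have hev1 : ∑ i, MvPolynomial.eval z (q i) * MvPolynomial.eval z (F i) = 1 := by
    have := congrArg (MvPolynomial.eval z) h1
    rw [map_add, hz p₀ hp₀, zero_add, map_one, ← hq, map_sum] at this
    simpa [map_mul] using this
  rcases isEmpty_or_nonempty ι with hι | hι
  · simp [Finset.univ_eq_empty] at hev1
  -- the largest value then is bounded below
  obtain ⟨i, hi⟩ := Finite.exists_max fun i => v (MvPolynomial.eval z (F i))
  refine ⟨i, ?_⟩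
  calc (1 : ℝ) = v (∑ i, MvPolynomial.eval z (q i) * MvPolynomial.eval z (F i)) := by
        rw [hev1, map_one]
    _ ≤ max 1 (v ((Finset.univ : Finset ι).card : k))
          * (Bd (∑ i, polyBd (q i)) v * v (MvPolynomial.eval z (F i))) := by
        refine map_sum_le hv _ _ (mul_nonneg (Bd_pos _).le (v.nonneg _)) fun j _ => ?_
        rw [map_mul]
        refine mul_le_mul ((map_eval_le hv _ hz1).trans (Bd_mono ?_)) (hi j) (v.nonneg _)
          (Bd_pos _).le
        exact Finset.single_le_sum (f := fun i => polyBd (q i)) (fun i _ => Multiset.zero_le _)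
          (Finset.mem_univ j)
    _ = _ := by rw [← mul_assoc]; simp [Bd, Finset.card_univ]

section Forms

variable {κ : Type*} [Fintype κ]

/-- The linear form attached to a point of the moment curve. -/
def mform (a : k) (z : κ → k) : k := ∑ e, z e * a ^ (Fintype.equivFin κ e : ℕ)

/-- The moment curve forms are homogeneous. -/
theorem mform_smul (a c : k) (z : κ → k) : mform a (fun e => c * z e) = c * mform a z := by
  simp only [mform, Finset.mul_sum, mul_assoc]

variable (κ) in
/-- Enough parameters on the moment curve for products of `M` forms. -/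
def mSize (M : ℕ) : ℕ := M * Fintype.card κ + 1

/-- Some integer in a fixed range avoids all the hyperplanes of finitely many nonzero vectors. -/
theorem exists_mform_ne_zero [CharZero k] {M : ℕ} (z : Fin M → κ → k) (hz : ∀ j, z j ≠ 0) :
    ∃ a : Fin (mSize κ M), ∏ j, mform ((a : ℕ) : k) (z j) ≠ 0 := by
  classical
  let p : Fin M → Polynomial k := fun j =>
    ∑ e, Polynomial.monomial (Fintype.equivFin κ e : ℕ) (z j e)
  have hp : ∀ j, p j ≠ 0 := fun j h => hz j (funext fun e => by
    have := congrArg (fun q => Polynomial.coeff q (Fintype.equivFin κ e : ℕ)) h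
    simpa [p, Polynomial.finsetSum_coeff, Polynomial.coeff_monomial, Fin.val_inj] using this)
  have hdeg : ∀ j, (p j).natDegree ≤ Fintype.card κ := fun j =>
    Polynomial.natDegree_sum_le_of_forall_le _ _ fun e _ =>
      (Polynomial.natDegree_monomial_le _).trans (Fintype.equivFin κ e).2.le
  have hev : ∀ j (a : k), mform a (z j) = (p j).eval a := fun j a => by
    simp [p, mform, Polynomial.eval_finsetSum]
  by_contra hcon
  push Not at hcon
  set P := ∏ j, p j
  have hP0 : P ≠ 0 := Finset.prod_ne_zero_iff.2 fun j _ => hp j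
  have hPd : P.natDegree ≤ M * Fintype.card κ := by
    refine (Polynomial.natDegree_prod_le _ _).trans ?_
    simpa using Finset.sum_le_card_nsmul (Finset.univ : Finset (Fin M)) _ _ fun j _ => hdeg j
  refine hP0 (Polynomial.eq_zero_of_natDegree_lt_card_of_eval_eq_zero P
    (f := fun a : Fin (mSize κ M) => ((a : ℕ) : k))
    (Nat.cast_injective.comp Fin.val_injective) (fun a => ?_)
    (by rw [Fintype.card_fin, mSize]; omega))
  rw [Polynomial.eval_prod]
  simpa [hev] using hcon a

/-- Products of linear forms: evaluation on the moment curve computes the norm. -/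
theorem exists_prod_forms_bound [CharZero k] [IsAlgClosed k] (M : ℕ) :
    ∃ S : Multiset k, ∀ v : AbsoluteValue k ℝ, Nice v → ∀ z : Fin M → κ → k, (∀ j, z j ≠ 0) →
      (∀ a : Fin (mSize κ M),
        v (∏ j, mform ((a : ℕ) : k) (z j)) ≤ Bd S v * ∏ j, nrm v (z j)) ∧
      ∃ a : Fin (mSize κ M), ∏ j, nrm v (z j) ≤ Bd S v * v (∏ j, mform ((a : ℕ) : k) (z j)) := by
  classical
  -- the products of forms as polynomials
  let F : Fin (mSize κ M) → MvPolynomial (Fin M × κ) k := fun a =>
    ∏ j, ∑ e, MvPolynomial.C (((a : ℕ) : k) ^ (Fintype.equivFin κ e : ℕ)) * MvPolynomial.X (j, e)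
  have hF : ∀ a (z : Fin M → κ → k), MvPolynomial.eval (fun p => z p.1 p.2) (F a)
      = ∏ j, mform ((a : ℕ) : k) (z j) := fun a z => by
    simp [F, mform, map_prod, map_sum, mul_comm]
  let I : (Fin M → κ) → Ideal (MvPolynomial (Fin M × κ) k) := fun b =>
    Ideal.span (Set.range fun j => MvPolynomial.X (j, b j) - 1)
  have hI : ∀ b (z : Fin M × κ → k),
      (∀ p ∈ I b, MvPolynomial.eval z p = 0) ↔ ∀ j, z (j, b j) = 1 := fun b z => by
    refine ⟨fun h j => ?_, fun h p hp => ?_⟩
    · have := h _ (Ideal.subset_span ⟨j, rfl⟩)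
      simpa [sub_eq_zero] using this
    · have : I b ≤ RingHom.ker (MvPolynomial.eval z) := Ideal.span_le.2 (by
        rintro _ ⟨j, rfl⟩
        simp [h j])
      exact RingHom.mem_ker.1 (this hp)
  -- on each chart they have no common zero
  have hb : ∀ b, ∃ S : Multiset k, ∀ v : AbsoluteValue k ℝ, Nice v → ∀ z : Fin M × κ → k,
      (∀ p ∈ I b, MvPolynomial.eval z p = 0) → (∀ a, v (z a) ≤ 1) →
        ∃ a, 1 ≤ Bd S v * v (MvPolynomial.eval z (F a)) := fun b =>
    exists_bound_of_no_common_zero (I b) F fun z hz => by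
      obtain ⟨a, ha⟩ := exists_mform_ne_zero (fun j e => z (j, e))
        fun j h => one_ne_zero (α := k) (by rw [← ((hI b z).1 hz) j]; exact congrFun h (b j))
      refine ⟨a, ?_⟩
      rw [← hF a (fun j e => z (j, e))] at ha
      exact ha
  choose S hS using hb
  refine ⟨(∑ b, S b) + ∑ a, polyBd (F a), fun v hv z hz => ?_⟩
  choose e he he0 using fun j => exists_nrm_eq (v := v) (hz j)
  set z' : Fin M × κ → k := fun p => z p.1 p.2 / z p.1 (e p.1)
  have hz'1 : ∀ p, v (z' p) ≤ 1 := fun p => by
    simp only [z', map_div₀]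
    rw [div_le_one (v.pos (he0 p.1)), ← he p.1]
    exact le_nrm _ _
  have hP : ∏ j, nrm v (z j) = v (∏ j, z j (e j)) := by
    rw [map_prod]; exact Finset.prod_congr rfl fun j _ => he j
  have hP0 : 0 ≤ ∏ j, nrm v (z j) := Finset.prod_nonneg fun j _ => nrm_nonneg _
  -- scale each vector by its largest coordinate
  have hsc : ∀ a : Fin (mSize κ M), ∏ j, mform ((a : ℕ) : k) (z j)
      = (∏ j, z j (e j)) * MvPolynomial.eval z' (F a) := fun a => by
    rw [show MvPolynomial.eval z' (F a) = _ from hF a (fun j e' => z j e' / z j (e j)),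
      ← Finset.prod_mul_distrib]
    refine Finset.prod_congr rfl fun j _ => ?_
    rw [← mform_smul]
    exact congrArg _ (funext fun i => (mul_div_cancel₀ _ (he0 j)).symm)
  refine ⟨fun a => ?_, ?_⟩
  -- upper bound
  · rw [hsc a, map_mul, ← hP, mul_comm]
    refine mul_le_mul_of_nonneg_right ((map_eval_le hv _ hz'1).trans (Bd_mono ?_)) hP0
    exact le_add_left (Finset.single_le_sum (f := fun a => polyBd (F a))
      (fun i _ => Multiset.zero_le _) (Finset.mem_univ a))
  -- lower bound
  · obtain ⟨a, ha⟩ := hS e v hv z' ((hI e z').2 fun j => div_self (he0 j)) hz'1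
    refine ⟨a, ?_⟩
    rw [hsc a, map_mul, ← hP]
    have hle : Bd (S e) v ≤ Bd ((∑ b, S b) + ∑ a, polyBd (F a)) v :=
      Bd_mono (le_add_right (Finset.single_le_sum (f := S) (fun i _ => Multiset.zero_le _)
        (Finset.mem_univ e)))
    calc ∏ j, nrm v (z j) ≤ (∏ j, nrm v (z j)) * (Bd (S e) v * v (MvPolynomial.eval z' (F a))) :=
          le_mul_of_one_le_right hP0 ha
      _ = Bd (S e) v * ((∏ j, nrm v (z j)) * v (MvPolynomial.eval z' (F a))) := by ring
      _ ≤ _ := mul_le_mul_of_nonneg_right hle (mul_nonneg hP0 (v.nonneg _))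

end Forms

end Local

section Global

/-- An absolute value of a number field extends to a nice one of `ℚ̄`. -/
theorem exists_nice_extension_arch {L : IntermediateField ℚ Qb}
    (w : InfinitePlace L) : ∃ u : AbsoluteValue Qb ℝ, Nice u ∧ ∀ x : L, u x = w x := by
  let : Algebra L ℂ := w.embedding.toAlgebra
  have : Algebra.IsAlgebraic L Qb := Algebra.IsAlgebraic.tower_top (K := ℚ) L
  let φ : Qb →ₐ[L] ℂ := IsAlgClosed.lift
  refine ⟨place φ.toRingHom, .inr ⟨φ.toRingHom, fun x => rfl⟩, fun x => ?_⟩
  rw [place_apply]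
  change ‖φ (algebraMap L Qb x)‖ = w x
  rw [φ.commutes]
  exact w.norm_embedding_eq x

/-- A finite place of a number field extends to a normalised absolute value of `ℚ̄`. -/
theorem exists_nice_extension_finite {L : IntermediateField ℚ Qb} [FiniteDimensional ℚ L]
    (w : FinitePlace L) : ∃ u : AbsoluteValue Qb ℝ, Nice u ∧ ∀ x : L, u x = w x := by
  obtain ⟨w, hw⟩ := w.isFinitePlace
  let C := w.adicCompletion L
  have hU : IsUltrametricDist C := by
    refine IsUltrametricDist.isUltrametricDist_of_forall_norm_add_le_max_norm fun x y => ?_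
    rw [FinitePlace.norm_def, FinitePlace.norm_def, FinitePlace.norm_def]
    have hm := (WithZeroMulInt.toNNReal_strictMono
      (HeightOneSpectrum.one_lt_absNorm_nnreal w)).monotone
    exact_mod_cast (hm (Valuation.map_add _ x y)).trans_eq hm.map_max
  let : NontriviallyNormedField C := NontriviallyNormedField.ofNormNeOne (by
    obtain ⟨x, hx, hx0⟩ := Submodule.exists_mem_ne_zero_of_ne_bot w.ne_bot
    refine ⟨FinitePlace.embedding w (x : L), ?_, ?_⟩
    · intro h
      exact hx0 (Subtype.ext ((map_eq_zero _).1 h))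
    · exact ((FinitePlace.norm_lt_one_iff_mem L w x).2 hx).ne)
  let : Algebra L (AlgebraicClosure C) :=
    ((algebraMap C (AlgebraicClosure C)).comp (FinitePlace.embedding w)).toAlgebra
  have : Algebra.IsAlgebraic L Qb := Algebra.IsAlgebraic.tower_top (K := ℚ) L
  let φ : Qb →ₐ[L] AlgebraicClosure C := IsAlgClosed.lift
  let N := spectralMulAlgNorm C (AlgebraicClosure C)
  let u : AbsoluteValue Qb ℝ :=
    { toFun := fun x => N (φ x)
      map_mul' := fun x y => by simp
      nonneg' := fun x => apply_nonneg _ _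
      eq_zero' := fun x => by simp
      add_le' := fun x y => by simp only [map_add]; exact map_add_le_add N _ _ }
  refine ⟨u, .inl fun x y => ?_, fun x => ?_⟩
  · change N (φ (x + y)) ≤ max (N (φ x)) (N (φ y))
    rw [map_add, spectralMulAlgNorm_def, spectralMulAlgNorm_def, spectralMulAlgNorm_def]
    exact isNonarchimedean_spectralNorm _ _
  · change N (φ (algebraMap L Qb x)) = _
    rw [φ.commutes, spectralMulAlgNorm_def, FinitePlace.coe_apply, ← hw, place_apply]
    exact spectralNorm_extends _

/-- The sup norm of a nonzero vector is one at almost every finite place. -/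
theorem hasFiniteMulSupport_iSup {K : Type*} [Field K] [NumberField K] {ι : Type*} [Finite ι]
    {x : ι → K} (hx : x ≠ 0) :
    (fun v : FinitePlace K => ⨆ i, v (x i)).HasFiniteMulSupport := by
  obtain ⟨i₀, hi₀⟩ := Function.ne_iff.1 hx
  have : Nonempty ι := ⟨i₀⟩
  refine (Set.finite_iUnion fun i : {i // x i ≠ 0} =>
    FinitePlace.hasFiniteMulSupport i.2).subset fun v hv => ?_
  by_contra hcon
  simp only [Set.mem_iUnion, Function.mem_mulSupport, not_exists, not_not] at hcon
  refine hv (le_antisymm (ciSup_le fun i => ?_) ((hcon ⟨i₀, hi₀⟩).ge.trans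
    (Finite.le_ciSup (fun i => v (x i)) i₀)))
  rcases eq_or_ne (x i) 0 with h | h
  · simp [h]
  · exact (hcon ⟨i, h⟩).le

/-- The height of an adelic constant. -/
def hS (S : Multiset Qb) : ℝ := (S.map absH₁).sum

/-- `log⁺` at the finite places of a number is almost always zero. -/
theorem hasFiniteSupport_posLog {K : Type*} [Field K] [NumberField K] (c : K) :
    (fun v : FinitePlace K => log⁺ (v c)).HasFiniteSupport := by
  rcases eq_or_ne c 0 with rfl | hc
  · simp [Function.HasFiniteSupport]
  refine (FinitePlace.hasFiniteMulSupport hc).subset fun v hv h1 => hv ?_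
  simp only at h1
  simp [h1]

/-- The sum of the heights of finitely many numbers, expanded into local terms. -/
theorem sum_logHeight₁ {L : Type*} [Field L] [NumberField L] (T : Multiset L) :
    (T.map Height.logHeight₁).sum =
      (∑ v : InfinitePlace L, (v.mult : ℝ) * (T.map fun c => log⁺ (v c)).sum)
        + ∑ᶠ v : FinitePlace L, (T.map fun c => log⁺ (v c)).sum := by
  induction T using Multiset.induction with
  | empty => simp
  | cons c T ih =>
    simp only [Multiset.map_cons, Multiset.sum_cons, NumberField.logHeight₁_eq c, ih,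
      mul_add, Finset.sum_add_distrib]
    have hT' : (fun v : FinitePlace L => (T.map fun c => log⁺ (v c)).sum).HasFiniteSupport := by
      clear ih
      induction T using Multiset.induction with
      | empty => simp [Function.HasFiniteSupport]
      | cons a T ih =>
        simp only [Multiset.map_cons, Multiset.sum_cons]
        exact (hasFiniteSupport_posLog a).add ih
    rw [finsum_add_distrib (hasFiniteSupport_posLog c) hT']
    ring

/-- **From local inequalities to heights.** -/
theorem sum_absH_le (S : Multiset Qb) {J : Type*} [Fintype J] {ι : J → Type*} [∀ j, Finite (ι j)]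
    (x : ∀ j, ι j → Qb) (hx : ∀ j, x j ≠ 0) (n : J → ℝ)
    (h : ∀ v : AbsoluteValue Qb ℝ, Nice v →
      ∑ j, n j * Real.log (nrm v (x j)) ≤ Real.log (Bd S v)) :
    ∑ j, n j * absH (x j) ≤ hS S := by
  classical
  set G : Set Qb := {c | c ∈ S} ∪ ⋃ j, Set.range (x j)
  have : FiniteDimensional ℚ (adjoin ℚ G) := by
    have := ((Multiset.finite_toSet S).union
      (Set.finite_iUnion fun j => Set.finite_range (x j))).to_subtype
    exact IntermediateField.finiteDimensional_adjoin fun a _ => Algebra.IsIntegral.isIntegral a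
  set L := adjoin ℚ G
  have : NumberField L := Fermat.CFT.qbar_numberField L
  let y : ∀ j, ι j → L := fun j i =>
    ⟨x j i, subset_adjoin ℚ _ (.inr (Set.mem_iUnion.2 ⟨j, i, rfl⟩))⟩
  have hy : ∀ j, y j ≠ 0 := fun j h => hx j (funext fun i => congrArg Subtype.val (congrFun h i))
  let T : Multiset L := S.attach.map fun c => ⟨c.1, subset_adjoin ℚ _ (.inl c.2)⟩
  have hT : T.map (fun c : L => (c : Qb)) = S := by simp [T, Multiset.map_map]
  have hdeg : (0 : ℝ) < finrank ℚ L := Nat.cast_pos.2 finrank_pos
  -- the local inequality on the places of `L`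
  have hloc : ∀ f : L → ℝ, (∃ u : AbsoluteValue Qb ℝ, Nice u ∧ ∀ z : L, u z = f z) →
      ∑ j, n j * Real.log (⨆ i, f (y j i)) ≤ (T.map fun c => log⁺ (f c)).sum := by
    rintro f ⟨u, hu, huf⟩
    have := h u hu
    simp only [nrm] at this
    simp only [← huf]
    refine this.trans (le_of_eq ?_)
    rw [Bd, Real.log_multiset_prod fun a ha => by
      obtain ⟨c, -, rfl⟩ := Multiset.mem_map.1 ha
      exact (lt_of_lt_of_le one_pos (le_max_left _ _)).ne']
    conv_lhs => rw [← hT]
    simp only [Multiset.map_map, Function.comp_def]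
    exact congrArg Multiset.sum (Multiset.map_congr rfl fun c _ =>
      (posLog_eq_log_max_one (u.nonneg _)).symm)
  have hA : ∀ j, absH (x j) = Height.logHeight (y j) / (finrank ℚ L : ℝ) := fun j => absH_eq (y j)
  have hB : hS S = (T.map Height.logHeight₁).sum / (finrank ℚ L : ℝ) := by
    rw [hS, ← hT, Multiset.map_map, div_eq_mul_inv, ← Multiset.sum_map_mul_right]
    exact congrArg Multiset.sum (Multiset.map_congr rfl fun c _ => by
      rw [Function.comp, absH₁_eq, div_eq_mul_inv])
  simp only [hA, hB, ← mul_div_assoc, ← Finset.sum_div]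
  refine div_le_div_of_nonneg_right ?_ hdeg.le
  -- expand the heights into local terms
  have hlh : ∀ j, Height.logHeight (y j)
      = (∑ v : InfinitePlace L, (v.mult : ℝ) * Real.log (⨆ i, v (y j i)))
        + ∑ᶠ v : FinitePlace L, Real.log (⨆ i, v (y j i)) := fun j => by
    obtain ⟨i₀, hi₀⟩ := Function.ne_iff.1 (hy j)
    have hp : ∀ v : InfinitePlace L, 0 < ⨆ i, v (y j i) := fun v =>
      lt_of_lt_of_le (InfinitePlace.pos_iff.2 hi₀) (Finite.le_ciSup (fun i => v (y j i)) i₀)
    have hp' : ∀ v : FinitePlace L, 0 < ⨆ i, v (y j i) := fun v =>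
      lt_of_lt_of_le (FinitePlace.pos_iff.2 hi₀) (Finite.le_ciSup (fun i => v (y j i)) i₀)
    rw [Height.logHeight_eq_log_mulHeight, NumberField.mulHeight_eq (hy j),
      Real.log_mul (Finset.prod_ne_zero_iff.2 fun v _ => pow_ne_zero _ (hp v).ne')
        (finprod_induction (0 < ·) one_pos (fun _ _ => mul_pos) hp').ne', Real.log_prod fun v _ =>
          pow_ne_zero _ (hp v).ne',
      Real.log_finprod hp']
    simp only [Real.log_pow]
  have hfy : ∀ j, (fun v : FinitePlace L => Real.log (⨆ i, v (y j i))).HasFiniteSupport := fun j =>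
    (hasFiniteMulSupport_iSup (hy j)).subset fun v hv h1 => hv (by
      simp only at h1
      change Real.log _ = 0
      rw [h1, Real.log_one])
  simp only [hlh, mul_add, Finset.sum_add_distrib, Finset.mul_sum]
  rw [sum_logHeight₁ T]
  refine add_le_add ?_ ?_
  · rw [Finset.sum_comm]
    refine Finset.sum_le_sum fun v _ => ?_
    refine le_trans (le_of_eq ?_) (mul_le_mul_of_nonneg_left
      (hloc (fun z => v z) (exists_nice_extension_arch v)) (Nat.cast_nonneg _))
    rw [Finset.mul_sum]
    exact Finset.sum_congr rfl fun j _ => by ring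
  · have e2 : ∑ j, n j * (∑ᶠ v : FinitePlace L, Real.log (⨆ i, v (y j i)))
        = ∑ᶠ v : FinitePlace L, ∑ j, n j * Real.log (⨆ i, v (y j i)) := by
      rw [finsum_sum_comm _ _ fun j _ => (hfy j).subset fun v hv => right_ne_zero_of_mul hv]
      exact Finset.sum_congr rfl fun j _ => mul_finsum' _ _ (hfy j)
    rw [e2]
    refine finsum_le_finsum' ?_ ?_ fun v => hloc (fun z => v z) (exists_nice_extension_finite v)
    · refine ((Set.finite_iUnion fun j => hfy j)).subset fun v hv => ?_
      obtain ⟨j, -, hj⟩ := Finset.exists_ne_zero_of_sum_ne_zero hv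
      exact Set.mem_iUnion.2 ⟨j, right_ne_zero_of_mul hj⟩
    · refine (Multiset.finite_toSet (T.map id)).biUnion (fun c _ => hasFiniteSupport_posLog c)
        |>.subset fun v hv => ?_
      by_contra hcon
      refine hv (Multiset.sum_eq_zero fun a ha => ?_)
      obtain ⟨c, hc, rfl⟩ := Multiset.mem_map.1 ha
      by_contra hne
      exact hcon (Set.mem_biUnion (by simpa using hc) hne)

end Global

end Fermat.HT.MW

end
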