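import Mathlib.GroupTheory.Finiteness
import Mathlib.Analysis.SpecialFunctions.Pow.Real

/-!
# Approximately bilinear pairings and descent

The main results are `exists_biadditive_near` and `fg_of_descent`.
-/

set_option autoImplicit false

noncomputable section

namespace Fermat.HT.MW

variable {G : Type*} [AddCommGroup G]

/-- An approximately additive function is near an additive one. -/
theorem exists_additive_near (f : G → ℝ) (C : ℝ) (h : ∀ a b, |f (a + b) - f a - f b| ≤ C) :
    ∃ l : G →+ ℝ, ∀ a, |l a - f a| ≤ C := by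
  have hstep : ∀ a (n : ℕ), |f ((2 ^ (n + 1)) • a) - 2 * f ((2 ^ n) • a)| ≤ C := fun a n => by
    have := h ((2 ^ n) • a) ((2 ^ n) • a)
    rw [← add_nsmul, ← two_mul, ← pow_succ'] at this
    rwa [two_mul, ← sub_sub]
  set u : G → ℕ → ℝ := fun a n => f ((2 ^ n) • a) / 2 ^ n
  have hu : ∀ a n, dist (u a n) (u a (n + 1)) ≤ C / 2 / 2 ^ n := fun a n => by
    rw [Real.dist_eq, abs_sub_comm]
    have : u a (n + 1) - u a n = (f ((2 ^ (n + 1)) • a) - 2 * f ((2 ^ n) • a)) / (2 * 2 ^ n) := by
      simp only [u]
      field_simp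
      ring
    rw [this, abs_div, abs_of_pos (show (0 : ℝ) < 2 * 2 ^ n by positivity), div_div]
    exact div_le_div_of_nonneg_right (hstep a n) (by positivity)
  have hcauchy : ∀ a, CauchySeq (u a) := fun a => cauchySeq_of_le_geometric_two (hu a)
  choose l hl using fun a => cauchySeq_tendsto_of_complete (hcauchy a)
  have hadd : ∀ a b, l (a + b) = l a + l b := fun a b => by
    refine tendsto_nhds_unique (hl (a + b)) ?_
    have h0 : Filter.Tendsto (fun n => u (a + b) n - (u a n + u b n)) Filter.atTop (nhds 0) := by
      refine squeeze_zero_norm (a := fun n : ℕ => C / 2 ^ n) (fun n => ?_) ?_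
      · simp only [u, Real.norm_eq_abs, nsmul_add]
        rw [← add_div, ← sub_div, abs_div,
          abs_of_pos (show (0 : ℝ) < 2 ^ n by positivity), ← sub_sub]
        exact div_le_div_of_nonneg_right (h _ _) (by positivity)
      · exact tendsto_const_nhds.div_atTop (tendsto_pow_atTop_atTop_of_one_lt one_lt_two)
    simpa using h0.add ((hl a).add (hl b))
  refine ⟨AddMonoidHom.mk' l hadd, fun a => ?_⟩
  have h0 := dist_le_of_le_geometric_two_of_tendsto (hu a) (hl a) 0
  simp only [u, pow_zero, one_nsmul, div_one, Real.dist_eq] at h0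
  rw [AddMonoidHom.mk'_apply, abs_sub_comm]
  exact h0

/-- A bounded additive function vanishes. -/
theorem additive_eq_zero_of_bounded (l : G →+ ℝ) (C : ℝ) (h : ∀ a, |l a| ≤ C) : l = 0 := by
  ext a
  by_contra hne
  obtain ⟨n, hn⟩ := exists_nat_gt (C / |l a|)
  rw [div_lt_iff₀ (abs_pos.2 hne)] at hn
  have := h (n • a)
  rw [map_nsmul, nsmul_eq_mul, abs_mul, Nat.abs_cast] at this
  linarith

/-- An approximately biadditive symmetric function is near a symmetric biadditive one. -/
theorem exists_biadditive_near (β : G → G → ℝ) (C : ℝ)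
    (h : ∀ a b c, |β (a + b) c - β a c - β b c| ≤ C) (hsymm : ∀ a b, β a b = β b a) :
    ∃ B : G →+ G →+ ℝ, (∀ a b, B a b = B b a) ∧ ∃ C', ∀ a b, |B a b - β a b| ≤ C' := by
  -- an additive function near `β` in the first variable
  choose l hl using fun c => exists_additive_near (fun a => β a c) C fun a b => h a b c
  have happ : ∀ a c d, |l (c + d) a - l c a - l d a| ≤ 4 * C := fun a c d => by
    have h1 := hl (c + d) a
    have h2 := hl c a
    have h3 := hl d a
    have h4 := h c d a
    rw [hsymm (c + d), hsymm c, hsymm d] at h4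
    simp only [abs_le] at *
    constructor <;> linarith
  -- it is additive in the second, as bounded additive functions vanish
  have hlin : ∀ a c d, l (c + d) a = l c a + l d a := fun a c d => by
    have : l (c + d) - l c - l d = 0 := additive_eq_zero_of_bounded _ (4 * C) fun a => by
      simpa using happ a c d
    have := DFunLike.congr_fun this a
    simp only [AddMonoidHom.sub_apply, AddMonoidHom.zero_apply] at this
    linarith
  refine ⟨AddMonoidHom.mk' (fun c => l c) (fun c d => AddMonoidHom.ext fun a => hlin a c d),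
    fun a b => ?_, C, fun a b => ?_⟩
  -- symmetry, for the same reason
  · have h1 : ∀ a b, |l a b - l b a| ≤ 2 * C := fun a b => by
      have h2 := hl a b
      have h3 := hl b a
      rw [hsymm b a] at h2
      simp only [abs_le] at *
      constructor <;> linarith
    let D : G →+ G →+ ℝ :=
      AddMonoidHom.mk' (fun c => l c) (fun c d => AddMonoidHom.ext fun x => hlin x c d)
    let E : G →+ ℝ := l a - D.flip a
    have hE : E = 0 := additive_eq_zero_of_bounded E (2 * C) fun x => h1 a x
    have := DFunLike.congr_fun hE b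
    simp only [E, D, AddMonoidHom.sub_apply, AddMonoidHom.flip_apply, AddMonoidHom.zero_apply,
      AddMonoidHom.mk'_apply] at this
    change l a b = l b a
    linarith
  · change |l a b - β a b| ≤ C
    rw [hsymm a b]
    exact hl a b

/-- **Descent**: finite sublevels of a nonnegative quadratic form and finite index of `2G`. -/
theorem fg_of_descent (B : G →+ G →+ ℝ) (hsymm : ∀ a b, B a b = B b a) (hpos : ∀ a, 0 ≤ B a a)
    (hfin : ∀ r : ℝ, {a : G | B a a ≤ r}.Finite)
    (hweak : ∃ R : Finset G, ∀ a : G, ∃ r ∈ R, ∃ b : G, a = r + 2 • b) : AddGroup.FG G := by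
  classical
  obtain ⟨R, hR⟩ := hweak
  set C : ℝ := R.sum fun r => B r r
  set T := (hfin C).toFinset ∪ R
  refine ⟨⟨T, ?_⟩⟩
  rw [eq_top_iff]
  intro a _
  by_contra ha
  set r₀ := B a a
  have hSfin : {x : G | B x x ≤ r₀ ∧ x ∉ AddSubgroup.closure (T : Set G)}.Finite :=
    (hfin r₀).subset fun x hx => hx.1
  -- Take a smallest `x` outside the subgroup generated by `T`.
  obtain ⟨x, hx, hmin⟩ := hSfin.toFinset.exists_min_image (fun x => B x x)
    ⟨a, hSfin.mem_toFinset.2 ⟨le_rfl, ha⟩⟩
  rw [Set.Finite.mem_toFinset] at hx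
  have hxC : C < B x x := by
    by_contra hle
    exact hx.2 (AddSubgroup.subset_closure
      (Finset.mem_union_left R ((hfin C).mem_toFinset.2 (not_lt.1 hle))))
  obtain ⟨r, hr, b, hxb⟩ := hR x
  have hrT : r ∈ AddSubgroup.closure (T : Set G) :=
    AddSubgroup.subset_closure (Finset.mem_union_right _ hr)
  -- With `x = r + 2 b` the parallelogram law makes `b` smaller, so a combination of `T`.
  have hbb : 4 * B b b ≤ 2 * B x x + 2 * C := by
    have h2b : x - r = 2 • b := by rw [hxb, add_sub_cancel_left]
    have h4 : B (x - r) (x - r) = 4 * B b b := by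
      rw [h2b, map_nsmul, map_nsmul, AddMonoidHom.nsmul_apply]
      simp only [nsmul_eq_mul]
      ring
    have hp := hpos (x + r)
    simp only [map_add, map_sub, AddMonoidHom.add_apply, AddMonoidHom.sub_apply, hsymm r x] at hp h4
    have : B r r ≤ C := Finset.single_le_sum (f := fun r => B r r) (fun r _ => hpos r) hr
    linarith
  have hbx : B b b < B x x := by linarith [hpos b]
  refine hx.2 ?_
  have hb : b ∈ AddSubgroup.closure (T : Set G) := by
    by_contra hb
    have := hmin b (hSfin.mem_toFinset.2 ⟨hbx.le.trans hx.1, hb⟩)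
    linarith
  rw [hxb]
  exact add_mem hrT (nsmul_mem hb 2)

end Fermat.HT.MW

end
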