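import Fermat.Agent.HT.MW.Key
import Fermat.Agent.HT.MW.Quadratic

/-!
# The height pairing on divisor classes

The main results are `exists_pairing` and `exists_quadratic_formula`, built from `lam`.
-/

set_option autoImplicit false

noncomputable section

open AlgebraicCurve Fermat.FF

namespace Fermat.HT.MW

/-- A one-term tuple has height zero. -/
theorem absH_const (c : Qb) : absH (fun _ : Unit => c) = 0 := by
  have := finiteDimensional_adjoin_range (fun _ : Unit => c)
  have : NumberField (IntermediateField.adjoin ℚ (Set.range fun _ : Unit => c)) :=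
    Fermat.CFT.qbar_numberField _
  rw [absH, Height.logHeight_eq_zero_of_subsingleton, zero_div]

/-- Logarithms of adelic constants add. -/
theorem log_Bd_add (S T : Multiset Qb) (v : AbsoluteValue Qb ℝ) :
    Real.log (Bd (S + T) v) = Real.log (Bd S v) + Real.log (Bd T v) := by
  rw [Bd_add, Real.log_mul (Bd_pos _).ne' (Bd_pos _).ne']

/-- From local inequalities to heights, with scalars and two families of vectors. -/
theorem heights_le (S : Multiset Qb) {J₀ J₁ J₂ ι₁ ι₂ : Type} [Fintype J₀] [Fintype J₁] [Fintype J₂]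
    [Finite ι₁] [Finite ι₂] (c : J₀ → Qb) (hc : ∀ j, c j ≠ 0) (m : J₀ → ℝ)
    (a : J₁ → ι₁ → Qb) (ha : ∀ j, a j ≠ 0) (p : J₁ → ℝ)
    (b : J₂ → ι₂ → Qb) (hb : ∀ j, b j ≠ 0) (q : J₂ → ℝ)
    (h : ∀ v : AbsoluteValue Qb ℝ, Nice v →
      ∑ j, m j * Real.log (v (c j)) + ∑ j, p j * Real.log (nrm v (a j))
        + ∑ j, q j * Real.log (nrm v (b j)) ≤ Real.log (Bd S v)) :
    ∑ j, p j * absH (a j) + ∑ j, q j * absH (b j) ≤ hS S := by
  let ι : J₀ ⊕ J₁ ⊕ J₂ → Type := Sum.elim (fun _ => Unit) (Sum.elim (fun _ => ι₁) fun _ => ι₂)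
  let x : ∀ j, ι j → Qb := fun j => match j with
    | .inl j => fun _ => c j
    | .inr (.inl j) => a j
    | .inr (.inr j) => b j
  have : ∀ j, Finite (ι j) := fun j => by
    rcases j with j | j | j
    exacts [inferInstanceAs (Finite Unit), inferInstanceAs (Finite ι₁), inferInstanceAs (Finite ι₂)]
  have hx : ∀ j, x j ≠ 0 := fun j => by
    rcases j with j | j | j
    exacts [fun h => hc j (congrFun h ()), ha j, hb j]
  have key := sum_absH_le S x hx (Sum.elim m (Sum.elim p q)) fun v hv => by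
    refine le_trans (le_of_eq ?_) (h v hv)
    simp only [Fintype.sum_sum_type, add_assoc]
    congr 1
    refine Finset.sum_congr rfl fun j _ => ?_
    change m j * Real.log (nrm v fun _ : Unit => c j) = _
    rw [show (nrm v fun _ : Unit => c j) = v (c j) from ciSup_const]
  simp only [Fintype.sum_sum_type] at key
  have h0 : ∀ j, (Sum.elim m (Sum.elim p q)) (Sum.inl j) * absH (x (Sum.inl j)) = 0 := fun j => by
    change _ * absH (fun _ : Unit => c j) = 0
    rw [absH_const, mul_zero]
  rw [Finset.sum_congr rfl fun j _ => h0 j, Finset.sum_const_zero, zero_add] at key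
  exact key

namespace Emb

variable {F : Type*} [Field F] [Algebra Qb F] [IsFunctionField Qb F] (E : Emb Qb F)

/-- The height of a place. -/
def hP (P : Place Qb F) : ℝ := absH (E.x P)

/-- The height of a place is nonnegative. -/
theorem hP_nonneg (P : Place Qb F) : 0 ≤ E.hP P := absH_nonneg _

/-- The pairing of two places. -/
def lam (P Q : Place Qb F) : ℝ := E.hP P + E.hP Q - absH (E.pw P Q)

/-- The pairing of places is symmetric. -/
theorem lam_comm (P Q : Place Qb F) : E.lam P Q = E.lam Q P := by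
  have : absH (E.pw P Q) = absH (E.pw Q P) := by
    rcases E.pw_comm P Q with h | h <;> rw [h]
    exact absH_neg _
  rw [lam, lam, this]
  ring

/-- The pairing of a place with a divisor. -/
def lamP (P : Place Qb F) : Divisor Qb F →+ ℝ :=
  Finsupp.liftAddHom fun Q => (AddMonoidHom.mulRight (E.lam P Q)).comp (Int.castAddHom ℝ)

/-- The pairing with a multiple of one place. -/
@[simp] theorem lamP_single (P Q : Place Qb F) (n : ℤ) :
    E.lamP P (Finsupp.single Q n) = n * E.lam P Q := by
  simp [lamP]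

/-- The pairing of divisors. -/
def lamD : Divisor Qb F →+ Divisor Qb F →+ ℝ :=
  Finsupp.liftAddHom fun P => zmultiplesHom _ (E.lamP P)

/-- The pairing of a multiple of one place with a divisor. -/
@[simp] theorem lamD_single (P : Place Qb F) (n : ℤ) (B : Divisor Qb F) :
    E.lamD (Finsupp.single P n) B = n * E.lamP P B := by
  simp [lamD]

/-- The pairing of divisors as a sum over the first one. -/
theorem lamD_apply (A B : Divisor Qb F) : E.lamD A B = A.sum fun P n => (n : ℝ) * E.lamP P B := by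
  induction A using Finsupp.induction_linear with
  | zero => simp
  | add A A' hA hA' =>
    rw [map_add, AddMonoidHom.add_apply, hA, hA', Finsupp.sum_add_index'] <;> simp [add_mul]
  | single P n => simp

/-- The pairing of divisors is symmetric. -/
theorem lamD_comm (A B : Divisor Qb F) : E.lamD A B = E.lamD B A := by
  induction A using Finsupp.induction_linear with
  | zero => simp
  | add A A' hA hA' => simp [hA, hA']
  | single P n =>
    induction B using Finsupp.induction_linear with
    | zero => simp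
    | add B B' hB hB' =>
      rw [map_add, hB, hB', map_add, AddMonoidHom.add_apply]
    | single Q m => simp [E.lam_comm P Q]; ring

/-- **Key relation.** The pairing of `P` with the divisor of a section is its height plus that of
the section, up to a bound. -/
theorem key_global :
    ∃ C, ∀ (P : Place Qb F) (s : Fin E.r → Qb), s ≠ 0 →
      |E.lamP P (divOf Qb (E.sec s) + E.D) - E.hP P - absH s| ≤ C := by
  classical
  obtain ⟨S, hS'⟩ := E.key_local
  refine ⟨hS S, fun P s hs => ?_⟩
  obtain ⟨Q, hQ⟩ := E.exists_isZeros hs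
  have hsum : E.lamP P (divOf Qb (E.sec s) + E.D) = ∑ j, E.lam P (Q j) := by
    rw [← hQ, map_sum]
    simp
  set α := co E.D P (E.mult Q P) (E.sec s)
  have hcount : ((E.mult Q P : ℕ) : ℤ) = P.ord (E.sec s) + E.D P := hQ.apply E P
  have hα : α ≠ 0 := co_ne_zero_of_ord (fun h => hs (E.sec_eq_zero.1 h)) (by omega)
  have hM : 1 ≤ E.M := le_trans (by norm_num) E.four_le_M
  let a : Fin E.M ⊕ Fin 2 → Fin E.r → Qb := Sum.elim (fun j => E.x (Q j)) ![E.x P, s]
  have ha : ∀ j, a j ≠ 0 := by
    rintro (j | j)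
    · exact E.x_ne_zero _
    · fin_cases j
      exacts [E.x_ne_zero _, hs]
  let p : Fin E.M ⊕ Fin 2 → ℝ := Sum.elim (fun _ => 1) ![((E.M - 1 : ℕ) : ℝ), -1]
  -- the local bound in logarithms
  have hexp : ∀ v : AbsoluteValue Qb ℝ, Nice v →
      |Real.log (v α) + (((E.M - 1 : ℕ) : ℝ) * Real.log (nrm v (E.x P))
        + ∑ j, Real.log (nrm v (E.x (Q j))) - Real.log (nrm v s))
        - ∑ j, Real.log (nrm v (E.pw P (Q j)))| ≤ Real.log (Bd S v) := fun v hv => by
    obtain ⟨h1, h2⟩ := hS' v hv P s hs Q hQ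
    have hQp : 0 < ∏ j, nrm v (E.x (Q j)) := Finset.prod_pos fun j _ => nrm_pos (E.x_ne_zero _)
    have hwp : 0 < ∏ j, nrm v (E.pw P (Q j)) := Finset.prod_pos fun j _ =>
      nrm_pos (E.pw_ne_zero _ _)
    have hsp : 0 < nrm v s := nrm_pos hs
    have hxp : 0 < nrm v (E.x P) ^ (E.M - 1) := pow_pos (nrm_pos (E.x_ne_zero _)) _
    have hap : 0 < v α := v.pos hα
    have l1 := Real.log_le_log (by positivity) h1
    have l2 := Real.log_le_log (by positivity) h2
    rw [Real.log_mul (by positivity) (by positivity), Real.log_mul hap.ne' hxp.ne',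
      Real.log_mul (Bd_pos _).ne' (by positivity), Real.log_mul hsp.ne' hwp.ne', Real.log_pow,
      Real.log_prod fun j _ => (nrm_pos (E.x_ne_zero _)).ne',
      Real.log_prod fun j _ => (nrm_pos (E.pw_ne_zero _ _)).ne'] at l1
    rw [Real.log_mul (Bd_pos _).ne' (by positivity), Real.log_mul (mul_ne_zero hap.ne' hxp.ne')
      hQp.ne', Real.log_mul hap.ne' hxp.ne', Real.log_mul hsp.ne' hwp.ne', Real.log_pow,
      Real.log_prod fun j _ => (nrm_pos (E.x_ne_zero _)).ne',
      Real.log_prod fun j _ => (nrm_pos (E.pw_ne_zero _ _)).ne'] at l2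
    rw [abs_le]
    constructor <;> linarith
  have hM' : ((E.M - 1 : ℕ) : ℝ) = (E.M : ℝ) - 1 := by rw [Nat.cast_sub hM, Nat.cast_one]
  -- sum over all places, in both directions
  have g1 := heights_le S (fun _ : Fin 1 => α) (fun _ => hα) (fun _ => 1) a ha p
    (fun j => E.pw P (Q j)) (fun j => E.pw_ne_zero _ _) (fun _ => -1) fun v hv => by
      refine le_trans (le_of_eq ?_) ((le_abs_self _).trans (hexp v hv))
      simp [a, p, Fintype.sum_sum_type, Fin.sum_univ_two]
      ring
  have g2 := heights_le S (fun _ : Fin 1 => α) (fun _ => hα) (fun _ => -1) a ha (fun j => -p j)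
    (fun j => E.pw P (Q j)) (fun j => E.pw_ne_zero _ _) (fun _ => 1) fun v hv => by
      refine le_trans (le_of_eq ?_) ((neg_le_abs _).trans (hexp v hv))
      simp [a, p, Fintype.sum_sum_type, Fin.sum_univ_two]
      ring
  simp only [a, p, Fintype.sum_sum_type, Fin.sum_univ_two, Sum.elim_inl, Sum.elim_inr,
    Matrix.cons_val_zero, Matrix.cons_val_one, one_mul, neg_one_mul,
    Finset.sum_neg_distrib, neg_neg] at g1 g2
  rw [hsum]
  simp only [lam, hP, Finset.sum_sub_distrib, Finset.sum_add_distrib, Finset.sum_const,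
    Finset.card_univ, Fintype.card_fin, nsmul_eq_mul, hM'] at g1 g2 ⊢
  rw [abs_le]
  constructor <;> linarith

/-- A function within `C` of `κ` sums over an effective divisor to `deg * κ` up to `deg * C`. -/
theorem sum_effective_bound {φ : Place Qb F → ℝ} {κ C : ℝ} (h : ∀ P, |φ P - κ| ≤ C)
    {A : Divisor Qb F} (hA : 0 ≤ A) :
    |(A.sum fun P n => (n : ℝ) * φ P) - (Divisor.degree A : ℝ) * κ|
      ≤ (Divisor.degree A : ℝ) * C := by
  rw [degree_eq_sum, Finsupp.sum, Finsupp.sum, Int.cast_sum, Finset.sum_mul,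
    Finset.sum_mul, ← Finset.sum_sub_distrib]
  refine (Finset.abs_sum_le_sum_abs _ _).trans (Finset.sum_le_sum fun P _ => ?_)
  rw [← mul_sub, abs_mul, abs_of_nonneg (Int.cast_nonneg (Finsupp.le_def.1 hA P))]
  exact mul_le_mul_of_nonneg_left (h P) (Int.cast_nonneg (Finsupp.le_def.1 hA P))

/-- Pairing with a principal divisor of bounded degree is constant up to `O(1)`. -/
theorem exists_rel_bound :
    ∃ C, 0 ≤ C ∧ ∀ A A' : Divisor Qb F, 0 ≤ A → 0 ≤ A' →
      Divisor.degree A ≤ 3 * (genusFF Qb F : ℤ) → Divisor.IsPrincipal (A - A') →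
        ∀ X X' : Divisor Qb F, 0 ≤ X → 0 ≤ X' → Divisor.degree X = Divisor.degree X' →
          |E.lamD (X - X') (A - A')| ≤ C * (Divisor.degree X : ℝ) := by
  obtain ⟨C, hC⟩ := E.key_global
  refine ⟨4 * |C|, by positivity, fun A A' hA hA' hdeg hpr X X' hX hX' hXX => ?_⟩
  obtain ⟨f, hf, hdiv⟩ := hpr
  have hl : ell (E.D - A) ≠ 0 := by
    have := FF.riemann_inequality (E.D - A)
    rw [map_sub] at this
    have := E.deg_ge
    have := E.one_le_genus
    omega
  -- Sections `h` and `h / f` of `D` cut out `A` and `A'`, up to a common divisor.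
  obtain ⟨h, hh, hh0⟩ : ∃ h ∈ riemannRochSpace (E.D - A), h ≠ 0 := by
    refine (Submodule.ne_bot_iff _).1 fun hb => hl ?_
    rw [ell, hb, finrank_bot]
  have e1 : 0 ≤ E.D - A + divOf Qb h := (nonneg_add_divOf_iff hh0).2 hh
  have hhD : h ∈ riemannRochSpace E.D := riemannRochSpace_mono (sub_le_self _ hA) hh
  have hh'0 : h / f ≠ 0 := div_ne_zero hh0 hf
  have hdq : divOf Qb (h / f) = divOf Qb h - (A - A') := Finsupp.ext fun v => by
    rw [Finsupp.sub_apply, hdiv v, divOf_apply, divOf_apply, div_eq_mul_inv,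
      v.ord_mul hh0 (inv_ne_zero hf), v.ord_inv]
    ring
  have hh'D : h / f ∈ riemannRochSpace E.D := (nonneg_add_divOf_iff hh'0).1 (by
    rw [hdq, show E.D + (divOf Qb h - (A - A')) = (E.D - A + divOf Qb h) + A' by abel]
    exact add_nonneg e1 hA')
  have hs : E.coord h ≠ 0 := fun h0 => hh0 (by rw [← E.sec_coord hhD, E.sec_eq_zero.2 h0])
  have hs' : E.coord (h / f) ≠ 0 := fun h0 => hh'0 (by
    rw [← E.sec_coord hh'D, E.sec_eq_zero.2 h0])
  set κ := absH (E.coord h) - absH (E.coord (h / f))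
  -- Their heights differ by a constant `κ`, up to a bounded error.
  have hPb : ∀ P, |E.lamP P (A - A') - κ| ≤ 2 * |C| := fun P => by
    have k1 := hC P _ hs
    have k2 := hC P _ hs'
    rw [E.sec_coord hhD] at k1
    rw [E.sec_coord hh'D, hdq] at k2
    have : A - A' = (divOf Qb h + E.D) - (divOf Qb h - (A - A') + E.D) := by abel
    rw [this, map_sub]
    have := le_abs_self C
    rw [abs_le] at k1 k2 ⊢
    constructor <;> linarith
  -- As `X` and `X'` have equal degree, `κ` cancels.
  rw [map_sub E.lamD X X', AddMonoidHom.sub_apply, E.lamD_apply, E.lamD_apply]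
  have h1 := sum_effective_bound hPb hX
  have h2 := sum_effective_bound hPb hX'
  rw [← hXX] at h2
  rw [abs_le] at h1 h2 ⊢
  constructor <;> linarith

end Emb

section Classes

variable {K F : Type*} [Field K] [Field F] [Algebra K F] [IsAlgClosed K] [IsFunctionField K F]

open Classical in
/-- The class of a divisor of degree zero; zero on the other divisors. -/
def cls (X : Divisor K F) : Pic0 K F := if h : Divisor.degree X = 0 then Pic0.mk ⟨X, h⟩ else 0

omit [IsAlgClosed K] [IsFunctionField K F] in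
/-- The class map is additive on degree zero. -/
theorem cls_add {X Y : Divisor K F} (hX : Divisor.degree X = 0) (hY : Divisor.degree Y = 0) :
    cls (X + Y) = cls X + cls Y := by
  rw [cls, cls, cls, dif_pos hX, dif_pos hY, dif_pos (by rw [map_add, hX, hY, add_zero])]
  rfl

omit [IsAlgClosed K] [IsFunctionField K F] in
/-- Divisors with the same class differ by a principal divisor. -/
theorem isPrincipal_of_cls_eq {X Y : Divisor K F} (hX : Divisor.degree X = 0)
    (hY : Divisor.degree Y = 0) (h : cls X = cls Y) : Divisor.IsPrincipal (X - Y) := by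
  rw [cls, cls, dif_pos hX, dif_pos hY, Pic0.mk, Pic0.mk, QuotientAddGroup.eq,
    AddSubgroup.mem_addSubgroupOf] at h
  simp only [AddSubgroup.coe_add, AddSubgroup.coe_neg] at h
  have := (Divisor.principal (K := K) (F := F)).neg_mem h
  rwa [neg_add, neg_neg, ← sub_eq_add_neg] at this

/-- Every class has an effective representative of degree the genus. -/
theorem exists_effective_rep (o : Place K F) (c : Pic0 K F) :
    ∃ A : Divisor K F, 0 ≤ A ∧ Divisor.degree A = genusFF K F ∧
      cls (A - Finsupp.single o (genusFF K F : ℤ)) = c := by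
  obtain ⟨⟨X, hX⟩, rfl⟩ := Pic0.mk_surjective c
  have hl : ell (X + Finsupp.single o (genusFF K F : ℤ)) ≠ 0 := by
    have := FF.riemann_inequality (X + Finsupp.single o (genusFF K F : ℤ))
    rw [map_add, Divisor.degree_single, deg_eq_one, (hX : Divisor.degree X = 0)] at this
    push_cast at this
    omega
  obtain ⟨f, hf0, hf⟩ := exists_effective_of_ell_ne_zero hl
  set A := X + Finsupp.single o (genusFF K F : ℤ) + divOf K f
  have hdA : Divisor.degree A = genusFF K F := by
    simp [A, deg_eq_one]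
    exact hX
  have h0 : Divisor.degree (A - Finsupp.single o (genusFF K F : ℤ)) = 0 := by
    rw [map_sub, hdA, Divisor.degree_single, deg_eq_one]; simp
  refine ⟨A, hf, hdA, ?_⟩
  rw [cls, dif_pos h0, Pic0.mk, Pic0.mk, QuotientAddGroup.eq, AddSubgroup.mem_addSubgroupOf]
  refine ⟨f⁻¹, inv_ne_zero hf0, fun v => ?_⟩
  simp [A, v.ord_inv]
  ring

end Classes

namespace Emb

variable {F : Type*} [Field F] [Algebra Qb F] [IsFunctionField Qb F] (E : Emb Qb F)

/-- **The bilinear pairing** on classes, computed by small divisors. -/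
theorem exists_pairing (o : Place Qb F) :
    ∃ B : Pic0 Qb F →+ Pic0 Qb F →+ ℝ, (∀ a b, B a b = B b a) ∧
      ∃ C, ∀ A A' Z Z' : Divisor Qb F, 0 ≤ A → 0 ≤ A' → 0 ≤ Z → 0 ≤ Z' →
        Divisor.degree A = Divisor.degree A' → Divisor.degree Z = Divisor.degree Z' →
        Divisor.degree A ≤ 2 * (genusFF Qb F : ℤ) → Divisor.degree Z ≤ 2 * (genusFF Qb F : ℤ) →
        |B (cls (A - A')) (cls (Z - Z')) + E.lamD (A - A') (Z - Z')| ≤ C := by
  classical
  set g : ℤ := (genusFF Qb F : ℤ)
  obtain ⟨C, hC0, hC⟩ := E.exists_rel_bound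
  choose R hR0 hRd hRc using exists_effective_rep (K := Qb) (F := F) o
  let Dc : Pic0 Qb F → Divisor Qb F := fun c => R c - Finsupp.single o g
  have hog : (0 : Divisor Qb F) ≤ Finsupp.single o g := by simp [g]
  have hdog : Divisor.degree (Finsupp.single o g : Divisor Qb F) = g := by
    rw [Divisor.degree_single, deg_eq_one]; simp
  -- Pair the representatives; this is the pairing of any small divisors up to `O(1)`.
  let β : Pic0 Qb F → Pic0 Qb F → ℝ := fun a b => -E.lamD (Dc a) (Dc b)
  have happ : ∀ A A' Z Z' : Divisor Qb F, 0 ≤ A → 0 ≤ A' → 0 ≤ Z → 0 ≤ Z' →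
      Divisor.degree A = Divisor.degree A' → Divisor.degree Z = Divisor.degree Z' →
      Divisor.degree A ≤ 2 * g → Divisor.degree Z ≤ 2 * g →
      |β (cls (A - A')) (cls (Z - Z')) + E.lamD (A - A') (Z - Z')| ≤ C * (3 * (g : ℝ)) := by
    intro A A' Z Z' hA hA' hZ hZ' hAA hZZ hAg hZg
    set a := cls (A - A')
    set b := cls (Z - Z')
    have hpr : ∀ (A A' : Divisor Qb F) (a : Pic0 Qb F), Divisor.degree A = Divisor.degree A' →
        cls (A - A') = a →
        Divisor.IsPrincipal ((A + Finsupp.single o g) - (A' + R a)) := fun A A' a hd hcl => by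
      have := isPrincipal_of_cls_eq (X := A - A') (Y := R a - Finsupp.single o g)
        (by rw [map_sub, hd, sub_self]) (by rw [map_sub, hRd, hdog, sub_self])
        (hcl.trans (hRc a).symm)
      rwa [show A + Finsupp.single o g - (A' + R a) = A - A' - (R a - Finsupp.single o g) by abel]
    have e1 := hC (A + Finsupp.single o g) (A' + R a) (add_nonneg hA hog) (add_nonneg hA' (hR0 a))
      (by rw [map_add, hdog]; omega) (hpr A A' a hAA rfl) Z Z' hZ hZ' hZZ
    have e2 := hC (Z + Finsupp.single o g) (Z' + R b) (add_nonneg hZ hog) (add_nonneg hZ' (hR0 b))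
      (by rw [map_add, hdog]; omega) (hpr Z Z' b hZZ rfl) (R a) (Finsupp.single o g) (hR0 a) hog
      (by rw [hRd, hdog])
    have i1 : A + Finsupp.single o g - (A' + R a) = (A - A') - Dc a := by simp only [Dc]; abel
    have i2 : Z + Finsupp.single o g - (Z' + R b) = (Z - Z') - Dc b := by simp only [Dc]; abel
    rw [i1, map_sub, E.lamD_comm _ (A - A'), E.lamD_comm _ (Dc a)] at e1
    rw [i2, map_sub, show R a - Finsupp.single o g = Dc a from rfl] at e2
    rw [hRd] at e2
    have hz : (Divisor.degree Z : ℝ) ≤ 2 * (g : ℝ) := by exact_mod_cast hZg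
    have hz' := mul_le_mul_of_nonneg_left hz hC0
    simp only [β]
    rw [abs_le] at e1 e2 ⊢
    simp only [g] at *
    push_cast at *
    constructor <;> linarith
  -- Hence it is additive up to a constant and close to a biadditive pairing.
  have hbi : ∀ a b c, |β (a + b) c - β a c - β b c| ≤ C * (3 * (g : ℝ)) := fun a b c => by
    have h := happ (R a + R b) (Finsupp.single o g + Finsupp.single o g) (R c) (Finsupp.single o g)
      (add_nonneg (hR0 a) (hR0 b)) (add_nonneg hog hog) (hR0 c) hog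
      (by simp only [map_add, hRd, hdog]; rfl) (by rw [hRd, hdog])
      (by rw [map_add, hRd, hRd]; omega) (by rw [hRd]; omega)
    have hcl : cls (R a + R b - (Finsupp.single o g + Finsupp.single o g)) = a + b := by
      rw [add_sub_add_comm, cls_add (by rw [map_sub, hRd, hdog, sub_self])
        (by rw [map_sub, hRd, hdog, sub_self]), hRc, hRc]
    rw [hcl, hRc, add_sub_add_comm, map_add, AddMonoidHom.add_apply] at h
    simp only [β] at h ⊢
    convert h using 2
    ring
  have hsy : ∀ a b, β a b = β b a := fun a b => by simp only [β, E.lamD_comm (Dc a)]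
  obtain ⟨B, hBs, C', hB⟩ := exists_biadditive_near β _ hbi hsy
  refine ⟨B, hBs, C * (3 * (g : ℝ)) + C', fun A A' Z Z' hA hA' hZ hZ' hAA hZZ hAg hZg => ?_⟩
  have h1 := hB (cls (A - A')) (cls (Z - Z'))
  have h2 := happ A A' Z Z' hA hA' hZ hZ' hAA hZZ hAg hZg
  rw [abs_le] at h1 h2 ⊢
  constructor <;> linarith

/-- The height pairing with a hyperplane section is the height plus a constant. -/
private theorem lamD_hyperplane_bound {C : ℝ} {s : Fin E.r → Qb}
    (hC : ∀ P, |E.lamP P (divOf Qb (E.sec s) + E.D) - E.hP P - absH s| ≤ C)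
    {A : Divisor Qb F} (hA : 0 ≤ A) :
    |E.lamD A (divOf Qb (E.sec s) + E.D) -
        ((A.sum fun P n => (n : ℝ) * E.hP P) + (Divisor.degree A : ℝ) * absH s)|
      ≤ (Divisor.degree A : ℝ) * C := by
  have h1 := sum_effective_bound (φ := fun P => E.lamP P (divOf Qb (E.sec s) + E.D) - E.hP P)
    (κ := absH s) hC hA
  simp only [mul_sub, Finsupp.sum_sub] at h1
  rw [E.lamD_apply]
  convert h1 using 1
  congr 1
  simp
  ring

/-- A pairing near minus the height pairing, evaluated at the classes moving a base point to the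
points of a hyperplane section. -/
private theorem pairing_translate_bound (B : Pic0 Qb F →+ Pic0 Qb F →+ ℝ) {C : ℝ} {n : ℕ}
    {c : Pic0 Qb F} {X o' H : Divisor Qb F} {Q : Fin E.M → Place Qb F}
    (hQ : ∑ j, Finsupp.single (Q j) (1 : ℤ) = H)
    (h : ∀ j, |B c (cls (o' - Finsupp.single (Q j) 1))
      + E.lamD X (o' - Finsupp.single (Q j) 1)| ≤ C) :
    |B c (∑ j, n • cls (o' - Finsupp.single (Q j) 1)) + n * E.lamD X (E.M • o' - H)|
      ≤ E.M * n * C := by
  have e : (n : ℝ) * E.lamD X (E.M • o' - H)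
      = ∑ j, (n : ℝ) * E.lamD X (o' - Finsupp.single (Q j) 1) := by
    rw [← Finset.mul_sum, ← map_sum, Finset.sum_sub_distrib, hQ, Finset.sum_const,
      Finset.card_univ, Fintype.card_fin]
  simp only [map_sum, map_nsmul]
  rw [e, ← Finset.sum_add_distrib]
  refine (Finset.abs_sum_le_sum_abs _ _).trans ((Finset.sum_le_card_nsmul _ _ (n * C)
    fun j _ => ?_).trans (le_of_eq ?_))
  · rw [nsmul_eq_mul, ← mul_add, abs_mul, abs_of_nonneg (Nat.cast_nonneg n)]
    exact mul_le_mul_of_nonneg_left (h j) (Nat.cast_nonneg n)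
  · rw [Finset.card_univ, Fintype.card_fin, nsmul_eq_mul]; ring

/-- Collecting the three estimates of the quadratic formula. -/
private theorem quadratic_estimate {M g a p h lAH loo loH lgg hs cc ck kk C Ck : ℝ} (hM : 0 ≤ M)
    (hg : 0 ≤ g) (hcc : |cc + (a - 2 * g * p + lgg)| ≤ C)
    (hck : |ck + g * (M * p - lAH - M * g * loo + loH)| ≤ M * g * C)
    (hAH : |lAH - (h + g * hs)| ≤ g * Ck) :
    |M ^ 2 * cc + 2 * M * ck + kk - (2 * M * g * h - M ^ 2 * a)| ≤
      M ^ 2 * C + 2 * M * (M * g) * C + |kk| + M ^ 2 * |lgg| + 2 * M * g * |loH|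
        + 2 * M * g * g * M * |loo| + 2 * M * g * g * (Ck + |hs|) := by
  obtain ⟨c1, c2⟩ := abs_le.1 hcc
  obtain ⟨k1, k2⟩ := abs_le.1 hck
  obtain ⟨r1, r2⟩ := abs_le.1 hAH
  have h2M : 0 ≤ 2 * M := by positivity
  have h2Mg : 0 ≤ 2 * M * g := by positivity
  have h3 : 0 ≤ 2 * M * g * g * M := by positivity
  have h4 : 0 ≤ 2 * M * g * g := by positivity
  have m1 := mul_le_mul_of_nonneg_left c1 (sq_nonneg M)
  have m2 := mul_le_mul_of_nonneg_left c2 (sq_nonneg M)
  have m3 := mul_le_mul_of_nonneg_left k1 h2M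
  have m4 := mul_le_mul_of_nonneg_left k2 h2M
  have m5 := mul_le_mul_of_nonneg_left r1 h2Mg
  have m6 := mul_le_mul_of_nonneg_left r2 h2Mg
  have n1 := mul_le_mul_of_nonneg_left (neg_abs_le lgg) (sq_nonneg M)
  have n2 := mul_le_mul_of_nonneg_left (le_abs_self lgg) (sq_nonneg M)
  have n3 := mul_le_mul_of_nonneg_left (neg_abs_le loH) h2Mg
  have n4 := mul_le_mul_of_nonneg_left (le_abs_self loH) h2Mg
  have n5 := mul_le_mul_of_nonneg_left (neg_abs_le loo) h3
  have n6 := mul_le_mul_of_nonneg_left (le_abs_self loo) h3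
  have n7 := mul_le_mul_of_nonneg_left (neg_abs_le hs) h4
  have n8 := mul_le_mul_of_nonneg_left (le_abs_self hs) h4
  refine abs_le.2 ⟨?_, ?_⟩ <;> linarith [le_abs_self kk, neg_abs_le kk]

/-- **Quadratic formula**: a translate of `M[A]` computed from `A` alone. -/
theorem exists_quadratic_formula (o : Place Qb F) (B : Pic0 Qb F →+ Pic0 Qb F →+ ℝ)
    (hBs : ∀ a b, B a b = B b a)
    (hB : ∃ C, ∀ A A' Z Z' : Divisor Qb F, 0 ≤ A → 0 ≤ A' → 0 ≤ Z → 0 ≤ Z' →
      Divisor.degree A = Divisor.degree A' → Divisor.degree Z = Divisor.degree Z' →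
      Divisor.degree A ≤ 2 * (genusFF Qb F : ℤ) → Divisor.degree Z ≤ 2 * (genusFF Qb F : ℤ) →
      |B (cls (A - A')) (cls (Z - Z')) + E.lamD (A - A') (Z - Z')| ≤ C) :
    ∃ (κ : Pic0 Qb F) (C : ℝ), ∀ A : Divisor Qb F, 0 ≤ A → Divisor.degree A = genusFF Qb F →
      (E.M : ℝ) ^ 2 * (2 * (genusFF Qb F : ℝ) / E.M * (A.sum fun P n => (n : ℝ) * E.hP P)
        - E.lamD A A) - C
      ≤ B (E.M • cls (A - Finsupp.single o (genusFF Qb F : ℤ)) + κ)
          (E.M • cls (A - Finsupp.single o (genusFF Qb F : ℤ)) + κ) ∧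
      B (E.M • cls (A - Finsupp.single o (genusFF Qb F : ℤ)) + κ)
          (E.M • cls (A - Finsupp.single o (genusFF Qb F : ℤ)) + κ)
        ≤ (E.M : ℝ) ^ 2 * (2 * (genusFF Qb F : ℝ) / E.M * (A.sum fun P n => (n : ℝ) * E.hP P)
            - E.lamD A A) + C := by
  classical
  obtain ⟨C, hC⟩ := hB
  obtain ⟨Ck, hCk⟩ := E.key_global
  set g : ℤ := (genusFF Qb F : ℤ)
  have hg0 : (0 : ℤ) ≤ g := Int.natCast_nonneg _
  have hg1 : (1 : ℤ) ≤ g := by have := E.one_le_genus; simp only [g]; omega
  have : Nonempty (Fin E.r) := ⟨⟨0, by have := E.two_le_r; omega⟩⟩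
  obtain ⟨i₀⟩ := ‹Nonempty (Fin E.r)›
  set s : Fin E.r → Qb := Pi.single i₀ 1
  have hs : s ≠ 0 := by simp [s]
  obtain ⟨Q, hQ⟩ := E.exists_isZeros hs
  set o' : Divisor Qb F := Finsupp.single o 1
  have ho' : (0 : Divisor Qb F) ≤ o' := by simp [o']
  let κ : Pic0 Qb F := ∑ j, (genusFF Qb F) • cls (o' - Finsupp.single (Q j) 1)
  set og : Divisor Qb F := Finsupp.single o g
  set H : Divisor Qb F := divOf Qb (E.sec s) + E.D
  have hog : og = g • o' := by simp [og, o']
  have hdo : Divisor.degree o' = 1 := degree_single_one o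
  have hdog : Divisor.degree og = g := by rw [hog, map_zsmul, hdo]; simp
  set K₀ : ℝ := (E.M : ℝ) ^ 2 * |C| + 2 * (E.M : ℝ) * (E.M * g) * |C| + |B κ κ|
    + (E.M : ℝ) ^ 2 * |E.lamD og og| + 2 * (E.M : ℝ) * g * |E.lamD og H|
    + 2 * (E.M : ℝ) * g * g * E.M * |E.lamD o' o'|
    + 2 * (E.M : ℝ) * g * g * (|Ck| + |absH s|) with hK₀
  refine ⟨κ, K₀, fun A hA hdA => ?_⟩
  set c := cls (A - og)
  have hquad : B (E.M • c + κ) (E.M • c + κ)
      = (E.M : ℝ) ^ 2 * B c c + 2 * (E.M : ℝ) * B c κ + B κ κ := by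
    simp only [map_add, map_nsmul, AddMonoidHom.add_apply, AddMonoidHom.nsmul_apply,
      nsmul_eq_mul, hBs κ c]
    ring
  have hcc := hC A og A og hA (by simp [og, g]) hA (by simp [og, g])
    (by rw [hdA, hdog]) (by rw [hdA, hdog]) (by rw [hdA]; omega) (by rw [hdA]; omega)
  have hcj : ∀ j, |B c (cls (o' - Finsupp.single (Q j) 1))
      + E.lamD (A - og) (o' - Finsupp.single (Q j) 1)| ≤ |C| := fun j =>
    (hC A og o' (Finsupp.single (Q j) 1) hA (by simp [og, g]) ho' (by simp)
      (by rw [hdA, hdog]) (by rw [hdo, degree_single_one]) (by rw [hdA]; omega)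
      (by rw [hdo]; omega)).trans (le_abs_self C)
  have hgR : (genusFF Qb F : ℝ) = (g : ℝ) := by simp [g]
  have hck : |B c κ + g * E.lamD (A - og) (E.M • o' - H)| ≤ E.M * g * |C| := by
    rw [← hgR]; exact E.pairing_translate_bound B hQ hcj
  -- the term `λ(A, H)`
  have hAH : |E.lamD A H - ((A.sum fun P n => (n : ℝ) * E.hP P) + g * absH s)| ≤ g * |Ck| := by
    have h1 := E.lamD_hyperplane_bound (fun P => (hCk P s hs).trans (le_abs_self Ck)) hA
    rwa [hdA] at h1
  set a := E.lamD A A
  set p := E.lamD A o'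
  set hA' := A.sum fun P n => (n : ℝ) * E.hP P
  have d1 : E.lamD (A - og) (A - og) = a - 2 * g * p + E.lamD og og := by
    simp only [hog, map_sub, map_zsmul, AddMonoidHom.sub_apply, AddMonoidHom.zsmul_apply,
      zsmul_eq_mul, E.lamD_comm o' A, a, p]
    ring
  have d2 : E.lamD (A - og) (E.M • o' - H)
      = E.M * p - E.lamD A H - E.M * g * E.lamD o' o' + E.lamD og H := by
    simp only [hog, map_sub, map_zsmul, map_nsmul, AddMonoidHom.sub_apply,
      AddMonoidHom.zsmul_apply, zsmul_eq_mul, nsmul_eq_mul, p]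
    ring
  rw [d1] at hcc
  rw [d2] at hck
  rw [hquad]
  have hMne : (E.M : ℝ) ≠ 0 := by have := E.four_le_M; positivity
  have hmain : (E.M : ℝ) ^ 2 * (2 * (genusFF Qb F : ℝ) / E.M * hA' - a)
      = 2 * E.M * g * hA' - (E.M : ℝ) ^ 2 * a := by rw [hgR]; field_simp
  rw [hmain]
  obtain ⟨e1, e2⟩ := abs_le.1 (quadratic_estimate (kk := B κ κ) (Nat.cast_nonneg E.M)
    (Int.cast_nonneg hg0) (hcc.trans (le_abs_self C)) hck hAH)
  constructor <;> linarith

end Emb

end Fermat.HT.MW

end
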