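import Fermat.Agent.HT.MW.Local
import Mathlib.LinearAlgebra.Matrix.Determinant.Basic

/-!
# A Hadamard type bound by elimination

The main result is `det_le_prod`, with the growth bound `elimBd`.
-/

set_option autoImplicit false

noncomputable section

namespace Fermat.HT.MW

variable {K : Type*} [Field K] {v : AbsoluteValue K ℝ}

/-- The growth of elimination in dimension `n`. -/
def elimBd (K : Type*) [Field K] (n : ℕ) : Multiset K :=
  (Multiset.range n).map fun k : ℕ => (k : K)

/-- The recursion of `elimBd`. -/
theorem elimBd_succ (n : ℕ) : elimBd K (n + 1) = (n : K) ::ₘ elimBd K n := by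
  simp [elimBd, Multiset.range_succ]

/-- If each row is small on the small vectors killed by the previous rows, the determinant is
small. -/
theorem det_le_prod (hv : Nice v) : ∀ (n : ℕ) (A : Matrix (Fin n) (Fin n) K) (B : Fin n → ℝ),
    (∀ l, ∀ c : Fin n → K, nrm v c ≤ Bd (elimBd K n) v → (∀ i < l, A.mulVec c i = 0) →
      v (A.mulVec c l) ≤ B l) →
    v A.det ≤ ∏ l, B l := by
  intro n
  induction n with
  | zero => intro A B _; simp [Matrix.det_fin_zero]
  | succ n ih =>
    intro A B hA
    classical
    have h1G : 1 ≤ Bd (elimBd K (n + 1)) v := one_le_Bd _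
    have hB0 : ∀ j, v (A 0 j) ≤ B 0 := fun j => by
      have := hA 0 (Pi.single j 1) ?_ fun i hi => absurd hi (Fin.not_lt_zero i)
      · rwa [Matrix.mulVec_single, MulOpposite.op_one, one_smul] at this
      · refine nrm_le (zero_le_one.trans h1G) fun i => ?_
        rw [Pi.single_apply]
        split <;> simp <;> linarith
    have hB : ∀ l, 0 ≤ B l := fun l => by
      refine (v.nonneg _).trans (hA l 0 ?_ fun i _ => by simp)
      exact nrm_le (zero_le_one.trans h1G) fun i => by simp; linarith
    obtain ⟨j₀, hj₀⟩ := Finite.exists_max fun j => v (A 0 j)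
    by_cases h0 : A 0 j₀ = 0
    · have : A.det = 0 := Matrix.det_eq_zero_of_row_eq_zero 0 fun j =>
        v.eq_zero.1 (le_antisymm ((hj₀ j).trans (by rw [h0, map_zero])) (v.nonneg _))
      rw [this, map_zero]
      exact Finset.prod_nonneg fun l _ => hB l
    -- eliminate the first row
    set ρ : Fin (n + 1) → K := fun j => if j = j₀ then 0 else A 0 j / A 0 j₀
    have hρ : ∀ j, v (ρ j) ≤ 1 := fun j => by
      simp only [ρ]
      split
      · simp
      · rw [map_div₀, div_le_one (v.pos h0)]; exact hj₀ j
    set A' : Matrix (Fin (n + 1)) (Fin (n + 1)) K :=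
      Matrix.of fun i j => A i j - ρ j * A i j₀
    have hdet : A.det = A'.det := by
      rw [← Matrix.det_transpose A, ← Matrix.det_transpose A']
      refine Matrix.det_eq_of_forall_row_eq_smul_add_const ρ j₀ (by simp [ρ]) fun j i => ?_
      simp only [Matrix.transpose_apply, A', Matrix.of_apply]
      rw [show ρ j₀ = 0 by simp [ρ]]
      ring
    have hrow : ∀ j, j ≠ j₀ → A' 0 j = 0 := fun j hj => by
      simp [A', ρ, if_neg hj, h0]
    have hj' : A' 0 j₀ = A 0 j₀ := by simp [A', ρ]
    set A'' : Matrix (Fin n) (Fin n) K := A'.submatrix Fin.succ j₀.succAbove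
    rw [hdet, Matrix.det_succ_row_zero, Finset.sum_eq_single j₀
      (fun j _ hj => by simp [hrow j hj]) (by simp), map_mul, map_mul, map_pow, map_neg_eq_map,
      map_one, one_pow, one_mul, hj', Fin.prod_univ_succ]
    refine mul_le_mul (hB0 j₀) (ih A'' (fun l => B l.succ) fun l c hc hzero => ?_) (v.nonneg _)
      (hB 0)
    -- lift the vector
    set cbig : Fin (n + 1) → K :=
      j₀.insertNth (-∑ j, ρ (j₀.succAbove j) * c j) c
    have hkey : ∀ i, A.mulVec cbig i = ∑ j, A' i (j₀.succAbove j) * c j := fun i => by
      simp only [Matrix.mulVec, dotProduct]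
      rw [Fin.sum_univ_succAbove _ j₀]
      simp only [cbig, Fin.insertNth_apply_same, Fin.insertNth_apply_succAbove, A', Matrix.of_apply,
        sub_mul, Finset.sum_sub_distrib]
      rw [mul_neg, Finset.mul_sum, neg_add_eq_sub]
      congr 1
      exact Finset.sum_congr rfl fun j _ => by ring
    have h00 : A.mulVec cbig 0 = 0 := by
      rw [hkey, Finset.sum_eq_zero fun j _ => by rw [hrow _ (Fin.succAbove_ne j₀ j), zero_mul]]
    have hsucc : ∀ i : Fin n, A.mulVec cbig i.succ = A''.mulVec c i := fun i => by
      rw [hkey]; rfl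
    rw [← hsucc]
    refine hA l.succ cbig ?_ fun i hi => ?_
    · refine nrm_le (Bd_pos _).le fun i => ?_
      rcases Fin.eq_self_or_eq_succAbove j₀ i with rfl | ⟨j, rfl⟩
      · simp only [cbig, Fin.insertNth_apply_same, map_neg_eq_map]
        refine (map_sum_le hv _ _ (B := Bd (elimBd K n) v) (Bd_pos _).le fun j _ => ?_).trans ?_
        · rw [map_mul]
          exact (mul_le_mul (hρ _) ((le_nrm c j).trans hc) (v.nonneg _) zero_le_one).trans
            (one_mul _).le
        · rw [Finset.card_univ, Fintype.card_fin, elimBd_succ, Bd, Bd, Multiset.map_cons,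
            Multiset.prod_cons]
      · simp only [cbig, Fin.insertNth_apply_succAbove]
        refine ((le_nrm c j).trans hc).trans (Bd_mono ?_)
        rw [elimBd_succ]
        exact Multiset.le_cons_self _ _
    · rcases Fin.eq_zero_or_eq_succ i with rfl | ⟨i', rfl⟩
      · exact h00
      · rw [hsucc]; exact hzero i' (Fin.succ_lt_succ_iff.1 hi)

end Fermat.HT.MW

end
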