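import Fermat.Agent.HT.MW.Pairing
import Fermat.Agent.HT.MW.Triangular

/-!
# Positivity: nonspecial divisors

For `g` points imposing independent conditions on the canonical system the pairwise pairings are
bounded by the height.
-/

set_option autoImplicit false

noncomputable section

open AlgebraicCurve Fermat.FF

namespace Fermat.HT.MW

/-- The local pairing of two places. -/
def Emb.llam {F : Type*} [Field F] [Algebra Qb F] [IsFunctionField Qb F] (E : Emb Qb F)
    (v : AbsoluteValue Qb ℝ) (P Q : Place Qb F) : ℝ :=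
  Real.log (nrm v (E.x P)) + Real.log (nrm v (E.x Q)) - Real.log (nrm v (E.pw P Q))

variable {F : Type*} [Field F] [Algebra Qb F] [IsFunctionField Qb F] (E : Emb Qb F)

/-- `W` minus the first `l` points of the family `P`. -/
def subFirst (W : Divisor Qb F) {g : ℕ} (P : Fin g → Place Qb F) (l : ℕ) : Divisor Qb F :=
  W - ∑ i ∈ Finset.univ.filter (fun i : Fin g => (i : ℕ) < l), Finsupp.single (P i) (1 : ℤ)

/-- The number of earlier points of the family `P` equal to its `l`-th point. -/
def earlierEq {g : ℕ} (P : Fin g → Place Qb F) (l : Fin g) : ℕ :=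
  open Classical in (Finset.univ.filter fun i : Fin g => i < l ∧ P i = P l).card

omit [IsFunctionField Qb F] in
/-- The value of `subFirst` at the next point. -/
theorem subFirst_apply_self (W : Divisor Qb F) {g : ℕ} (P : Fin g → Place Qb F) (l : Fin g) :
    subFirst W P l (P l) = W (P l) - earlierEq P l := by
  classical
  simp only [subFirst, earlierEq, Finsupp.sub_apply, Finsupp.finsetSum_apply, Finsupp.single_apply,
    Finset.sum_boole]
  rw [Finset.filter_filter]
  simp only [Fin.val_fin_lt]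

omit [IsFunctionField Qb F] in
/-- Passing to the next point. -/
theorem subFirst_succ (W : Divisor Qb F) {g : ℕ} (P : Fin g → Place Qb F) (l : Fin g) :
    subFirst W P (l + 1) = subFirst W P l - Finsupp.single (P l) 1 := by
  classical
  simp only [subFirst]
  rw [show (Finset.univ.filter fun i : Fin g => (i : ℕ) < l + 1)
    = insert l (Finset.univ.filter fun i : Fin g => (i : ℕ) < l) by
      ext i; simp [Fin.ext_iff]; omega,
    Finset.sum_insert (by simp)]
  abel

omit [IsFunctionField Qb F] in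
/-- Sections of `subFirst` vanish at the next point to the number of earlier repetitions. -/
theorem ordGE_of_mem_subFirst {W : Divisor Qb F} {g : ℕ} {P : Fin g → Place Qb F} {l : Fin g}
    {h : F} (hh : h ∈ riemannRochSpace (subFirst W P l)) :
    OrdGE (P l) h ((earlierEq P l : ℤ) - W (P l)) :=
  (mem_riemannRochSpace.1 hh (P l)).mono (by rw [subFirst_apply_self]; omega)

/-- Row `l` of `A` reads off the leading coefficient at `P l` of the combinations of `e` lying in
the `l`-th space. -/
def IsLeadingMatrix (W : Divisor Qb F) {g : ℕ} (P : Fin g → Place Qb F) (e : Fin g → F)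
    (A : Matrix (Fin g) (Fin g) Qb) : Prop :=
  ∀ (l : Fin g) (c : Fin g → Qb), ∑ j, c j • e j ∈ riemannRochSpace (subFirst W P l) →
    A.mulVec c l = co W (P l) (earlierEq P l) (∑ j, c j • e j)

/-- Matrices of leading coefficients exist. -/
theorem exists_isLeadingMatrix (W : Divisor Qb F) {g : ℕ} (P : Fin g → Place Qb F)
    (e : Fin g → F) : ∃ A, IsLeadingMatrix W P e A := by
  let φ : ∀ l : Fin g, riemannRochSpace (subFirst W P l) →ₗ[Qb] Qb := fun l =>
    { toFun := fun h => co W (P l) (earlierEq P l) h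
      map_add' := fun a b => co_add (ordGE_of_mem_subFirst a.2) (ordGE_of_mem_subFirst b.2)
      map_smul' := fun c a => co_smul (ordGE_of_mem_subFirst a.2) c }
  choose ψ hψ using fun l => LinearMap.exists_extend (φ l)
  refine ⟨Matrix.of fun l j => ψ l (e j), fun l c h => ?_⟩
  rw [show (Matrix.of fun l j => ψ l (e j)).mulVec c l = ψ l (∑ j, c j • e j) by
    simp [Matrix.mulVec, dotProduct, map_sum, mul_comm]]
  exact LinearMap.congr_fun (hψ l) ⟨_, h⟩

/-- A vector killed by the first `l` rows gives a section of the `l`-th space. -/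
theorem IsLeadingMatrix.mem_subFirst {W : Divisor Qb F} {g : ℕ} {P : Fin g → Place Qb F}
    {e : Fin g → F} {A : Matrix (Fin g) (Fin g) Qb} (hA : IsLeadingMatrix W P e A)
    (he : ∀ j, e j ∈ riemannRochSpace W) (c : Fin g → Qb) (l : ℕ) (hl : l ≤ g)
    (hz : ∀ i : Fin g, (i : ℕ) < l → A.mulVec c i = 0) :
    ∑ j, c j • e j ∈ riemannRochSpace (subFirst W P l) := by
  induction l with
  | zero =>
    simp only [subFirst, Nat.not_lt_zero, Finset.filter_false, Finset.sum_empty, sub_zero]
    exact Submodule.sum_mem _ fun j _ => Submodule.smul_mem _ _ (he j)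
  | succ l ih =>
    have h1 := ih (by omega) fun i hi => hz i (by omega)
    set L : Fin g := ⟨l, by omega⟩
    have h2 := hA L c h1
    rw [hz L (by simp [L])] at h2
    have h3 := (co_eq_zero_iff (ordGE_of_mem_subFirst (l := L) h1)).1 h2.symm
    refine mem_riemannRochSpace.2 fun R => ?_
    rw [show subFirst W P (l + 1) = subFirst W P l - Finsupp.single (P L) 1 from
      subFirst_succ W P L, Finsupp.sub_apply]
    rcases eq_or_ne R (P L) with rfl | hR
    · refine h3.mono ?_
      rw [show subFirst W P l (P L) = W (P L) - earlierEq P L from subFirst_apply_self W P L,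
        Finsupp.single_eq_same]
      omega
    · rw [Finsupp.single_eq_of_ne hR, sub_zero]
      exact mem_riemannRochSpace.1 h1 R

/-- For `g` independent points the matrix of leading coefficients is invertible. -/
theorem IsLeadingMatrix.det_ne_zero {W : Divisor Qb F} (hW : IsCanonical W)
    {P : Fin (genusFF Qb F) → Place Qb F} {e : Fin (genusFF Qb F) → F}
    {A : Matrix (Fin (genusFF Qb F)) (Fin (genusFF Qb F)) Qb} (hA : IsLeadingMatrix W P e A)
    (he : ∀ j, e j ∈ riemannRochSpace W) (hli : LinearIndependent Qb e)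
    (hP : ell (∑ i, Finsupp.single (P i) (1 : ℤ)) = 1) : A.det ≠ 0 := by
  classical
  intro h0
  obtain ⟨c, hc0, hc⟩ := Matrix.exists_mulVec_eq_zero_iff.2 h0
  have hm := hA.mem_subFirst he c _ le_rfl fun i _ => congrFun hc i
  rw [show subFirst W P (genusFF Qb F) = W - ∑ i, Finsupp.single (P i) (1 : ℤ) by
    simp [subFirst]] at hm
  have hl : ell (W - ∑ i, Finsupp.single (P i) (1 : ℤ)) = 0 := by
    have := hW.riemann_roch (∑ i, Finsupp.single (P i) (1 : ℤ))
    rw [hP, map_sum] at this
    simp only [degree_single_one, Finset.sum_const, Finset.card_univ, Fintype.card_fin] at this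
    push_cast [nsmul_eq_mul] at this
    omega
  rw [Submodule.finrank_eq_zero.1 hl, Submodule.mem_bot] at hm
  exact hc0 (funext fun j => Fintype.linearIndependent_iff.1 hli c hm j)

/-- The adelic constant of a family of coefficient vectors indexed by monomials. -/
def monomialBd {α β : Type*} [Fintype α] [Fintype β] (cst : α → β → Qb) : Multiset Qb :=
  ((Fintype.card α : ℕ) : Qb) ::ₘ
    ∑ j : β, (Finset.univ : Finset α).val.map fun τ => cst τ j

/-- A form of degree `n` is small on small vectors. -/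
theorem nrm_form_le {v : AbsoluteValue Qb ℝ} (hv : Nice v) {n : ℕ} {ι κ : Type*} [Fintype ι]
    [Fintype κ] (cst : (Fin n → ι) → κ → Qb) {c : ι → Qb} {B : ℝ} (hB : 0 ≤ B)
    (hc : nrm v c ≤ B) :
    nrm v (fun j => ∑ τ : Fin n → ι, (∏ i, c (τ i)) * cst τ j)
      ≤ Bd (monomialBd cst) v * B ^ n := by
  classical
  refine nrm_le (mul_nonneg (Bd_pos _).le (pow_nonneg hB n)) fun j => ?_
  have h1 := map_sum_mul_le hv (Finset.univ : Finset (Fin n → ι)) (fun τ => cst τ j)
    (fun τ => ∏ i, c (τ i)) (B := B ^ n) (pow_nonneg hB n) fun τ _ => by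
      rw [map_prod]
      refine (Finset.prod_le_prod (fun i _ => v.nonneg _) fun i _ => (le_nrm c _).trans hc).trans ?_
      simp
  refine le_trans (le_of_eq ?_) (h1.trans
    (mul_le_mul_of_nonneg_right (Bd_mono ?_) (pow_nonneg hB n)))
  · simp only [mul_comm]
  · rw [Finset.card_univ]
    exact Multiset.cons_le_cons _ (Finset.single_le_sum
      (f := fun j : κ => (Finset.univ : Finset (Fin n → ι)).val.map fun τ => cst τ j)
      (fun i _ => Multiset.zero_le _) (Finset.mem_univ j))

namespace Emb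

/-- The local pairing of distinct points is bounded below. -/
theorem llam_ge {v : AbsoluteValue Qb ℝ} (hv : Nice v) {P Q : Place Qb F} (hPQ : P ≠ Q) :
    -Real.log (Bd {((2 : ℕ) : Qb)} v) ≤ E.llam v P Q := by
  classical
  have h : nrm v (E.pw P Q) ≤ Bd {((2 : ℕ) : Qb)} v * (nrm v (E.x P) * nrm v (E.x Q)) := by
    have hb : 0 ≤ nrm v (E.x P) * nrm v (E.x Q) := mul_nonneg (nrm_nonneg _) (nrm_nonneg _)
    refine nrm_le (mul_nonneg (Bd_pos _).le hb) fun p => ?_
    rw [pw, if_neg hPQ]
    have := map_sum_le hv (Finset.univ : Finset (Fin 2))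
      ![E.x P p.1 * E.x Q p.2, -(E.x P p.2 * E.x Q p.1)] hb fun a _ => by
        fin_cases a
        · simp only [Fin.zero_eta, Matrix.cons_val_zero, map_mul]
          exact mul_le_mul (le_nrm _ _) (le_nrm _ _) (v.nonneg _) (nrm_nonneg _)
        · simp only [Fin.mk_one, Matrix.cons_val_one, Matrix.cons_val_fin_one]
          rw [AbsoluteValue.map_neg, map_mul]
          exact mul_le_mul (le_nrm _ _) (le_nrm _ _) (v.nonneg _) (nrm_nonneg _)
    rw [Fin.sum_univ_two] at this
    simpa [wedge, Bd, sub_eq_add_neg] using this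
  have h1 := Real.log_le_log (nrm_pos (E.pw_ne_zero P Q)) h
  rw [Real.log_mul (Bd_pos _).ne' (mul_pos (nrm_pos (E.x_ne_zero P)) (nrm_pos (E.x_ne_zero Q))).ne',
    Real.log_mul (nrm_pos (E.x_ne_zero P)).ne' (nrm_pos (E.x_ne_zero Q)).ne'] at h1
  simp only [llam]
  linarith

/-- The zeros of a section, against the local pairing. -/
theorem key_log :
    ∃ S : Multiset Qb, ∀ v : AbsoluteValue Qb ℝ, Nice v → ∀ (P : Place Qb F) (s : Fin E.r → Qb),
      s ≠ 0 → ∀ Q, E.IsZeros s Q →
        Real.log (v (co E.D P (E.mult Q P) (E.sec s)))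
          ≤ Real.log (Bd S v) + Real.log (nrm v s) + Real.log (nrm v (E.x P))
            - ∑ j, E.llam v P (Q j) := by
  classical
  obtain ⟨S, hS⟩ := E.key_local
  refine ⟨S, fun v hv P s hs Q hQ => ?_⟩
  have hcount : ((E.mult Q P : ℕ) : ℤ) = P.ord (E.sec s) + E.D P := hQ.apply E P
  have hα : co E.D P (E.mult Q P) (E.sec s) ≠ 0 :=
    co_ne_zero_of_ord (fun h => hs (E.sec_eq_zero.1 h)) (by omega)
  obtain ⟨h1, -⟩ := hS v hv P s hs Q hQ
  have hx := nrm_pos (v := v) (E.x_ne_zero P)
  have hM : 1 ≤ E.M := le_trans (by norm_num) E.four_le_M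
  have hQp : 0 < ∏ j, nrm v (E.x (Q j)) := Finset.prod_pos fun j _ => nrm_pos (E.x_ne_zero _)
  have hwp : 0 < ∏ j, nrm v (E.pw P (Q j)) :=
    Finset.prod_pos fun j _ => nrm_pos (E.pw_ne_zero _ _)
  have hap := v.pos hα
  have hxp := pow_pos hx (E.M - 1)
  have hsp := nrm_pos (v := v) hs
  have l1 := Real.log_le_log (mul_pos (mul_pos hap hxp) hQp) h1
  rw [Real.log_mul (mul_ne_zero hap.ne' hxp.ne') hQp.ne', Real.log_mul hap.ne' hxp.ne',
    Real.log_mul (Bd_pos _).ne' (mul_ne_zero hsp.ne' hwp.ne'), Real.log_mul hsp.ne' hwp.ne',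
    Real.log_pow, Real.log_prod fun j _ => (nrm_pos (E.x_ne_zero _)).ne',
    Real.log_prod fun j _ => (nrm_pos (E.pw_ne_zero _ _)).ne', Nat.cast_sub hM, Nat.cast_one] at l1
  simp only [llam, Finset.sum_sub_distrib, Finset.sum_add_distrib, Finset.sum_const,
    Finset.card_univ, Fintype.card_fin, nsmul_eq_mul]
  linarith

/-- The local pairing with a fixed place, on divisors. -/
def llamDiv (v : AbsoluteValue Qb ℝ) (P : Place Qb F) : Divisor Qb F →+ ℝ :=
  Finsupp.liftAddHom fun R => zmultiplesHom ℝ (E.llam v P R)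

/-- `llamDiv` on a multiple of a place. -/
theorem llamDiv_single (v : AbsoluteValue Qb ℝ) (P R : Place Qb F) (m : ℤ) :
    E.llamDiv v P (Finsupp.single R m) = m * E.llam v P R := by simp [llamDiv]

/-- An effective divisor avoiding `P` pairs with `P` almost nonnegatively. -/
theorem llamDiv_ge {v : AbsoluteValue Qb ℝ} (hv : Nice v) {P : Place Qb F} {Z : Divisor Qb F}
    (hZ0 : ∀ R, 0 ≤ Z R) (hZP : Z P = 0) {m : ℕ} (hdeg : Divisor.degree Z ≤ m) :
    -((m : ℝ) * Real.log (Bd {((2 : ℕ) : Qb)} v)) ≤ E.llamDiv v P Z := by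
  classical
  conv_rhs => rw [← Z.sum_single, Finsupp.sum, map_sum]
  simp only [llamDiv_single]
  refine le_trans ?_ (Finset.sum_le_sum fun R hR =>
    mul_le_mul_of_nonneg_left (E.llam_ge hv (P := P) (Q := R) fun h1 => by
      rw [Finsupp.mem_support_iff, ← h1] at hR
      exact hR hZP) (Int.cast_nonneg (hZ0 R)))
  rw [← Finset.sum_mul, ← Int.cast_sum, mul_neg, neg_le_neg_iff]
  refine mul_le_mul_of_nonneg_right ?_ (log_Bd_nonneg _)
  have : Z.support.sum (fun R => Z R) = Divisor.degree Z := (degree_eq_sum Z).symm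
  exact_mod_cast this.trans_le hdeg

/-- The zeros of `h ^ n` dominate the points before the `l`-th one, with room to spare. -/
theorem mul_sum_llam_le_sum_zeros {W : Divisor Qb F} {n : ℕ} (hD : E.D = n • W) {g : ℕ}
    {P : Fin g → Place Qb F} {l : Fin g} {h : F} (hh0 : h ≠ 0)
    (hm : h ∈ riemannRochSpace (subFirst W P l))
    (hord : (P l).ord h = (earlierEq P l : ℤ) - W (P l))
    {s : Fin E.r → Qb} (hs : E.sec s = h ^ n) {Q : Fin E.M → Place Qb F} (hQ : E.IsZeros s Q)
    {v : AbsoluteValue Qb ℝ} (hv : Nice v) :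
    (n : ℝ) * ∑ i ∈ Finset.Iio l, E.llam v (P l) (P i)
      ≤ ∑ j, E.llam v (P l) (Q j) + (E.M : ℝ) * Real.log (Bd {((2 : ℕ) : Qb)} v) := by
  classical
  set Z : Divisor Qb F := (∑ j, Finsupp.single (Q j) (1 : ℤ))
    - n • ∑ i ∈ Finset.Iio l, Finsupp.single (P i) (1 : ℤ) with hZ
  have hcnt : ∀ R, Z R = (n : ℤ) * (R.ord h + subFirst W P l R) := fun R => by
    simp only [hZ, subFirst, Finsupp.sub_apply, Finsupp.smul_apply, nsmul_eq_mul]
    rw [show (∑ j, Finsupp.single (Q j) (1 : ℤ)) = _ from hQ, Finsupp.add_apply, divOf_apply, hs,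
      ord_pow, hD, Finsupp.smul_apply, nsmul_eq_mul,
      show (Finset.univ.filter fun i : Fin g => (i : ℕ) < l) = Finset.Iio l by
        ext i; simp only [Finset.mem_filter, Finset.mem_univ, true_and, Finset.mem_Iio,
          Fin.val_fin_lt]]
    ring
  have hZ0 : ∀ R, 0 ≤ Z R := fun R => by
    rw [hcnt]
    have := (mem_riemannRochSpace.1 hm R).le_ord hh0
    exact mul_nonneg (Int.natCast_nonneg _) (by omega)
  have hZP : Z (P l) = 0 := by rw [hcnt, hord, subFirst_apply_self]; ring
  have hdegZ : Divisor.degree Z ≤ E.M := by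
    simp only [hZ, map_sub, map_nsmul, map_sum, degree_single_one, Finset.sum_const,
      Finset.card_univ, Fintype.card_fin, nsmul_eq_mul, mul_one]
    linarith [mul_nonneg (Int.natCast_nonneg n) (Int.natCast_nonneg (Finset.Iio l).card)]
  have key := E.llamDiv_ge hv hZ0 hZP hdegZ
  simp only [hZ, map_sub, map_nsmul, map_sum, llamDiv_single, Int.cast_one, one_mul,
    nsmul_eq_mul] at key
  linarith

/-- The coordinates of the `n`-th power of a combination of sections of `W`. -/
theorem pow_combination_eq_sec {W : Divisor Qb F} {n : ℕ} (hD : E.D = n • W) {ι : Type*}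
    [Fintype ι] {e : ι → F} (he : ∀ j, e j ∈ riemannRochSpace W) (c : ι → Qb) :
    (∑ j, c j • e j) ^ n =
      E.sec (fun j => ∑ τ : Fin n → ι, (∏ i, c (τ i)) * E.coord (∏ i, e (τ i)) j) := by
  classical
  have hin : ∀ τ : Fin n → ι, (∏ i, e (τ i)) ∈ riemannRochSpace E.D := fun τ => by
    refine mem_riemannRochSpace.2 fun R => ?_
    rw [hD]
    have : ∀ S : Finset (Fin n), OrdGE R (∏ i ∈ S, e (τ i)) (-(S.card : ℤ) * W R) := fun S => by
      induction S using Finset.induction_on with
      | empty => simpa using ordGE_one R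
      | insert a S ha ih =>
        rw [Finset.prod_insert ha, Finset.card_insert_of_notMem ha]
        exact ((mem_riemannRochSpace.1 (he (τ a)) R).mul ih).mono (by push_cast; ring_nf; rfl)
    refine (this Finset.univ).mono (le_of_eq ?_)
    simp
  rw [show E.sec (fun j => ∑ τ : Fin n → ι, (∏ i, c (τ i)) * E.coord (∏ i, e (τ i)) j)
      = ∑ τ : Fin n → ι, (∏ i, c (τ i)) • E.sec (E.coord (∏ i, e (τ i))) by
    simp only [Emb.sec, Finset.sum_smul, Finset.smul_sum, smul_smul]
    rw [Finset.sum_comm]]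
  simp only [E.sec_coord (hin _)]
  rw [← Fin.prod_const, Fintype.prod_sum]
  exact Finset.sum_congr rfl fun τ _ => by rw [Finset.prod_smul]

/-- Small combinations have small leading coefficients. -/
theorem exists_leadingCoeff_bound {W : Divisor Qb F} {n : ℕ} (hD : E.D = n • W) {g : ℕ}
    {e : Fin g → F} (he : ∀ j, e j ∈ riemannRochSpace W) :
    ∃ S : Multiset Qb, ∀ v : AbsoluteValue Qb ℝ, Nice v →
      ∀ (P : Fin g → Place Qb F) (l : Fin g) (c : Fin g → Qb), nrm v c ≤ Bd (elimBd Qb g) v →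
        ∑ j, c j • e j ∈ riemannRochSpace (subFirst W P l) →
        co W (P l) (earlierEq P l) (∑ j, c j • e j) ≠ 0 →
          (n : ℝ) * Real.log (v (co W (P l) (earlierEq P l) (∑ j, c j • e j)))
            ≤ Real.log (Bd S v) + Real.log (nrm v (E.x (P l)))
              - (n : ℝ) * ∑ i ∈ Finset.Iio l, E.llam v (P l) (P i) := by
  classical
  obtain ⟨Sk, hSk⟩ := E.key_log
  set cst : (Fin n → Fin g) → Fin E.r → Qb := fun τ => E.coord (∏ i, e (τ i))
  refine ⟨Sk + monomialBd cst + n • elimBd Qb g + E.M • {((2 : ℕ) : Qb)},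
    fun v hv P l c hc hm h0 => ?_⟩
  set h := ∑ j, c j • e j
  have hh0 : h ≠ 0 := fun h1 => h0 (by rw [h1, co_zero])
  have hge := ordGE_of_mem_subFirst hm
  have hord : (P l).ord h = (earlierEq P l : ℤ) - W (P l) := by
    have h1 := hge.le_ord hh0
    by_contra h2
    exact h0 ((co_eq_zero_iff hge).2 ((ordGE_iff_of_ne hh0).2 (by omega)))
  set s : Fin E.r → Qb := fun j => ∑ τ : Fin n → Fin g, (∏ i, c (τ i)) * cst τ j
  have hs : E.sec s = h ^ n := (E.pow_combination_eq_sec hD he c).symm
  have hs0 : s ≠ 0 := fun h1 => pow_ne_zero n hh0 (by rw [← hs, E.sec_eq_zero.2 h1])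
  obtain ⟨Q, hQ⟩ := E.exists_isZeros hs0
  have hmult : ((E.mult Q (P l) : ℕ) : ℤ) = (n : ℤ) * earlierEq P l := by
    rw [show ((E.mult Q (P l) : ℕ) : ℤ) = _ from hQ.apply E (P l), hs, ord_pow, hord, hD,
      Finsupp.smul_apply, nsmul_eq_mul]
    ring
  have hkey := hSk v hv (P l) s hs0 Q hQ
  rw [hs, hmult, hD, co_pow hge, map_pow, Real.log_pow] at hkey
  have hlogs := Real.log_le_log (nrm_pos hs0)
    (nrm_form_le hv cst (B := Bd (elimBd Qb g) v) (Bd_pos _).le hc)
  rw [Real.log_mul (Bd_pos _).ne' (pow_pos (Bd_pos _) n).ne', Real.log_pow] at hlogs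
  have hzeros := E.mul_sum_llam_le_sum_zeros hD hh0 hm hord hs hQ hv
  simp only [log_Bd_add]
  rw [Bd_nsmul, Bd_nsmul E.M, Real.log_pow, Real.log_pow]
  linarith

/-- The local estimate for the determinant of leading coefficients. -/
theorem log_det_le_of_leadingCoeff_bound {W : Divisor Qb F} {n : ℕ} (hn : 0 < n) {g : ℕ}
    {e : Fin g → F} (he : ∀ j, e j ∈ riemannRochSpace W) {S : Multiset Qb}
    {v : AbsoluteValue Qb ℝ} (hv : Nice v) {P : Fin g → Place Qb F}
    {A : Matrix (Fin g) (Fin g) Qb} (hA : IsLeadingMatrix W P e A) (hdet : A.det ≠ 0)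
    (hS : ∀ (l : Fin g) (c : Fin g → Qb), nrm v c ≤ Bd (elimBd Qb g) v →
      ∑ j, c j • e j ∈ riemannRochSpace (subFirst W P l) →
      co W (P l) (earlierEq P l) (∑ j, c j • e j) ≠ 0 →
        (n : ℝ) * Real.log (v (co W (P l) (earlierEq P l) (∑ j, c j • e j)))
          ≤ Real.log (Bd S v) + Real.log (nrm v (E.x (P l)))
            - (n : ℝ) * ∑ i ∈ Finset.Iio l, E.llam v (P l) (P i)) :
    (n : ℝ) * Real.log (v A.det) + ∑ l : Fin g, (-1 : ℝ) * Real.log (nrm v (E.x (P l)))
        + (n : ℝ) * ∑ l, ∑ i ∈ Finset.Iio l, E.llam v (P l) (P i)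
      ≤ Real.log (Bd (g • S) v) := by
  set β : Fin g → ℝ := fun l => Real.log (Bd S v) + Real.log (nrm v (E.x (P l)))
    - (n : ℝ) * ∑ i ∈ Finset.Iio l, E.llam v (P l) (P i)
  have hd := det_le_prod hv g A (fun l => Real.exp (β l / n)) fun l c hc hz => by
    have hm := hA.mem_subFirst he c l l.2.le fun i hi => hz i hi
    rw [hA l c hm]
    rcases eq_or_ne (co W (P l) (earlierEq P l) (∑ j, c j • e j)) 0 with h0 | h0
    · rw [h0, map_zero]; exact (Real.exp_pos _).le
    rw [← Real.log_le_iff_le_exp (v.pos h0), le_div_iff₀ (by exact_mod_cast hn), mul_comm]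
    exact hS l c hc hm h0
  rw [← Real.exp_sum] at hd
  have h2 : Real.log (v A.det) ≤ (∑ l, β l) / n := by
    rw [Finset.sum_div, Real.log_le_iff_le_exp (v.pos hdet)]
    exact hd
  rw [le_div_iff₀ (by exact_mod_cast hn)] at h2
  rw [show Real.log (Bd (g • S) v) = g * Real.log (Bd S v) by rw [Bd_nsmul, Real.log_pow]]
  simp only [β, Finset.sum_sub_distrib, Finset.sum_add_distrib, Finset.sum_const,
    Finset.card_univ, Fintype.card_fin, nsmul_eq_mul, ← Finset.mul_sum] at h2
  simp only [neg_one_mul, Finset.sum_neg_distrib]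
  linarith

/-- From the local estimates at all places to pairings and heights. -/
theorem mul_sum_lam_le_of_local {g : ℕ} (P : Fin g → Place Qb F) {n : ℕ} {a : Qb} (ha : a ≠ 0)
    {S : Multiset Qb} (hloc : ∀ v : AbsoluteValue Qb ℝ, Nice v →
      (n : ℝ) * Real.log (v a) + ∑ l : Fin g, (-1 : ℝ) * Real.log (nrm v (E.x (P l)))
        + (n : ℝ) * ∑ l, ∑ i ∈ Finset.Iio l, E.llam v (P l) (P i) ≤ Real.log (Bd S v)) :
    (n : ℝ) * ∑ l, ∑ i ∈ Finset.Iio l, E.lam (P l) (P i) ≤ (∑ l, E.hP (P l)) + hS S := by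
  classical
  let J := Fin g × Fin g
  let w : J → ℝ := fun p => if p.2 < p.1 then (n : ℝ) else 0
  have hsum : ∀ f : Place Qb F → Place Qb F → ℝ,
      (n : ℝ) * ∑ l, ∑ i ∈ Finset.Iio l, f (P l) (P i) = ∑ p : J, w p * f (P p.1) (P p.2) :=
    fun f => by
    rw [Fintype.sum_prod_type, Finset.mul_sum]
    refine Finset.sum_congr rfl fun l _ => ?_
    simp only [w, ite_mul, zero_mul]
    rw [← Finset.sum_filter, Finset.mul_sum]
    exact Finset.sum_congr (by ext i; simp) fun i _ => rfl
  let b : Fin g ⊕ J ⊕ J → Fin E.r → Qb :=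
    Sum.elim (fun l => E.x (P l)) (Sum.elim (fun p => E.x (P p.1)) fun p => E.x (P p.2))
  have key := heights_le S (fun _ : Fin 1 => a) (fun _ => ha) (fun _ => (n : ℝ))
    b (fun j => by rcases j with j | j | j <;> exact E.x_ne_zero _)
    (Sum.elim (fun _ => -1) (Sum.elim w w))
    (fun p : J => E.pw (P p.1) (P p.2)) (fun p => E.pw_ne_zero _ _) (fun p => -w p) fun v hv => by
      refine le_trans (le_of_eq ?_) (hloc v hv)
      rw [hsum (E.llam v)]
      simp only [b, Fintype.sum_sum_type, Sum.elim_inl, Sum.elim_inr, Finset.univ_unique,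
        Finset.sum_singleton, llam, mul_sub, mul_add, Finset.sum_sub_distrib,
        Finset.sum_add_distrib, neg_mul, Finset.sum_neg_distrib, one_mul]
      ring
  rw [hsum E.lam]
  simp only [b, Fintype.sum_sum_type, Sum.elim_inl, Sum.elim_inr, neg_mul, one_mul,
    Finset.sum_neg_distrib] at key
  simp only [lam, Emb.hP, mul_sub, mul_add, Finset.sum_sub_distrib, Finset.sum_add_distrib]
  linarith

/-- **Positivity.** If `D` is `n` times a canonical divisor, `n` times the sum of the pairwise
pairings of `g` points with `ell` equal to `1` is at most their heights plus a constant. -/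
theorem exists_sum_lam_le {W : Divisor Qb F} (hW : IsCanonical W) {n : ℕ} (hn : 0 < n)
    (hD : E.D = n • W) :
    ∃ C, ∀ P : Fin (genusFF Qb F) → Place Qb F, ell (∑ i, Finsupp.single (P i) (1 : ℤ)) = 1 →
      (n : ℝ) * ∑ l, ∑ i ∈ Finset.Iio l, E.lam (P l) (P i) ≤ (∑ l, E.hP (P l)) + C := by
  classical
  let b : Module.Basis (Fin (genusFF Qb F)) Qb (riemannRochSpace W) :=
    Module.finBasisOfFinrankEq Qb _ hW.2
  let e : Fin (genusFF Qb F) → F := fun j => (b j : F)
  have he : ∀ j, e j ∈ riemannRochSpace W := fun j => (b j).2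
  have hli : LinearIndependent Qb e :=
    b.linearIndependent.map' (riemannRochSpace W).subtype (Submodule.ker_subtype _)
  obtain ⟨S, hS'⟩ := E.exists_leadingCoeff_bound hD he
  refine ⟨hS (genusFF Qb F • S), fun P hP => ?_⟩
  obtain ⟨A, hA⟩ := exists_isLeadingMatrix W P e
  exact E.mul_sum_lam_le_of_local P (hA.det_ne_zero hW he hli hP) fun v hv =>
    E.log_det_le_of_leadingCoeff_bound hn he hv hA (hA.det_ne_zero hW he hli hP) (hS' v hv P)

end Emb

end Fermat.HT.MW

end
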