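import Fermat.Agent.HT.MW.Chow
import Fermat.Agent.HT.MW.Local

/-!
# Secants of the curve against the Chow form

Restricting the Chow form to forms through a point `y` of the curve gives `(s·y) G(y,s)`.
-/

set_option autoImplicit false

noncomputable section

open AlgebraicCurve Fermat.FF

namespace Fermat.HT.MW

namespace Emb

variable {K F : Type*} [Field K] [Field F] [Algebra K F] [IsAlgClosed K] [IsFunctionField K F]
  (E : Emb K F)

/-- The index type of secants. -/
abbrev PIdx : Type := Fin E.r × Fin E.r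

/-- The coefficients of the moment curve forms on secants. -/
def wt (a : ℕ) (p : E.PIdx) : K := (a : K) ^ (Fintype.equivFin E.PIdx p : ℕ)

/-- Contraction of a secant form with a point. -/
def iota {A : Type*} [CommRing A] [Algebra K A] (a : ℕ) (y : Fin E.r → A) (l : Fin E.r) : A :=
  ∑ i, y i * algebraMap K A (E.wt a (i, l) - E.wt a (l, i))

/-- The contraction commutes with algebra maps. -/
theorem map_iota {A B : Type*} [CommRing A] [Algebra K A] [CommRing B] [Algebra K B]
    (φ : A →ₐ[K] B) (a : ℕ) (y : Fin E.r → A) (l : Fin E.r) :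
    φ (E.iota a y l) = E.iota a (fun i => φ (y i)) l := by
  simp [iota, map_sum, AlgHom.commutes]

/-- The contraction at `y`, evaluated at `z`, pairs `y ∧ z` with the weights. -/
theorem sum_iota {A : Type*} [CommRing A] [Algebra K A] (a : ℕ) (y z : Fin E.r → A) :
    ∑ l, E.iota a y l * z l
      = ∑ p : E.PIdx, (y p.1 * z p.2 - y p.2 * z p.1) * algebraMap K A (E.wt a p) := by
  rw [Fintype.sum_prod_type]
  simp only [iota, Finset.sum_mul, sub_mul, map_sub, mul_sub, Finset.sum_sub_distrib]
  congr 1
  · rw [Finset.sum_comm]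
    exact Finset.sum_congr rfl fun i _ => Finset.sum_congr rfl fun l _ => by ring
  · exact Finset.sum_congr rfl fun l _ => Finset.sum_congr rfl fun i _ => by ring

/-- The contraction at `y`, evaluated at `z`, is the moment form of `y ∧ z`. -/
theorem sum_iota_eq_mform (a : ℕ) (y z : Fin E.r → K) :
    ∑ l, E.iota a y l * z l = mform (a : K) (wedge y z) := by
  rw [sum_iota]
  rfl

variable (R : MvPolynomial (Fin E.r ⊕ Fin E.r) K)

/-- The defining property of a Chow form. -/
def IsChow : Prop :=
  ∀ s : Fin E.r → K, s ≠ 0 → ∀ Q, E.IsZeros s Q →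
    ∃ c : K, c ≠ 0 ∧ ∀ u, MvPolynomial.eval (Sum.elim s u) R = c * E.evQ Q u

/-- The restricted Chow form, in the variables `(y, s)`. -/
def restr (a : ℕ) : MvPolynomial (Fin E.r ⊕ Fin E.r) K :=
  MvPolynomial.aeval (Sum.elim (fun i => MvPolynomial.X (Sum.inr i))
    (E.iota a fun i => MvPolynomial.X (Sum.inl i))) R

/-- The restricted Chow form evaluates as the Chow form at `(s, iota y)`. -/
theorem aeval_restr {A : Type*} [CommRing A] [Algebra K A] (a : ℕ) (y s : Fin E.r → A) :
    MvPolynomial.aeval (Sum.elim y s) (E.restr R a)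
      = MvPolynomial.aeval (Sum.elim s (E.iota a y)) R := by
  rw [restr, ← AlgHom.comp_apply, MvPolynomial.comp_aeval]
  congr 2
  funext j
  rcases j with i | l
  · simp
  · simp [E.map_iota]

/-- The incidence form of the chart `b`. -/
def lin (b : Fin E.r) : MvPolynomial (Fin E.r ⊕ Fin E.r) K :=
  MvPolynomial.X (Sum.inr b)
    + ∑ i ∈ Finset.univ.erase b, MvPolynomial.X (Sum.inl i) * MvPolynomial.X (Sum.inr i)

/-- The incidence form evaluates to `y · s` when `y b = 1`. -/
theorem aeval_lin {A : Type*} [CommRing A] [Algebra K A] (b : Fin E.r) (y s : Fin E.r → A)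
    (hy : y b = 1) : MvPolynomial.aeval (Sum.elim y s) (E.lin b) = ∑ i, y i * s i := by
  rw [← Finset.add_sum_erase Finset.univ (fun i => y i * s i) (Finset.mem_univ b), hy, one_mul]
  simp [lin, map_sum]

/-- Substituting away `s b`. -/
def subst (b : Fin E.r) : Fin E.r ⊕ Fin E.r → MvPolynomial (Fin E.r ⊕ Fin E.r) K :=
  Function.update MvPolynomial.X (Sum.inr b) (MvPolynomial.X (Sum.inr b) - E.lin b)

/-- Division by the linear form of the point, with remainder the substitution. -/
theorem exists_quot (b : Fin E.r) (p : MvPolynomial (Fin E.r ⊕ Fin E.r) K) :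
    ∃ G, p = E.lin b * G + MvPolynomial.aeval (E.subst b) p := by
  have h : (Ideal.Quotient.mkₐ K (Ideal.span {E.lin b})).comp (MvPolynomial.aeval (E.subst b))
      = Ideal.Quotient.mkₐ K (Ideal.span {E.lin b}) := MvPolynomial.algHom_ext fun j => by
    rw [AlgHom.comp_apply, MvPolynomial.aeval_X, Ideal.Quotient.mkₐ_eq_mk, Ideal.Quotient.eq,
      Ideal.mem_span_singleton, subst]
    rcases eq_or_ne j (Sum.inr b) with rfl | hj
    · rw [Function.update_self, sub_sub_cancel_left]
      exact dvd_neg.2 dvd_rfl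
    · rw [Function.update_of_ne hj, sub_self]
      exact dvd_zero _
  have := AlgHom.congr_fun h p
  rw [AlgHom.comp_apply, Ideal.Quotient.mkₐ_eq_mk, Ideal.Quotient.eq,
    Ideal.mem_span_singleton] at this
  obtain ⟨G, hG⟩ := this
  exact ⟨-G, by linear_combination -hG⟩

/-- The quotient of the restricted Chow form by the incidence form. -/
def G (b : Fin E.r) (a : ℕ) : MvPolynomial (Fin E.r ⊕ Fin E.r) K :=
  (E.exists_quot b (E.restr R a)).choose

/-- Division of the restricted Chow form by the incidence form. -/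
theorem restr_eq (b : Fin E.r) (a : ℕ) :
    E.restr R a = E.lin b * E.G R b a + MvPolynomial.aeval (E.subst b) (E.restr R a) :=
  (E.exists_quot b (E.restr R a)).choose_spec

variable {R}

/-- The remainder of the restricted Chow form vanishes on the curve. -/
theorem eval_rem (hR : E.IsChow R) {P : Place K F} {b : Fin E.r} (hb : E.x P b ≠ 0) (a : ℕ)
    (s : Fin E.r → K) :
    MvPolynomial.eval (Sum.elim (fun i => E.x P i / E.x P b) s)
      (MvPolynomial.aeval (E.subst b) (E.restr R a)) = 0 := by
  classical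
  set y : Fin E.r → K := fun i => E.x P i / E.x P b
  have hyb : y b = 1 := div_self hb
  have key : ∀ p, MvPolynomial.eval (Sum.elim y s) p = MvPolynomial.aeval (Sum.elim y s) p :=
    fun p => by rw [← MvPolynomial.coe_aeval_eq_eval]; rfl
  let sb : (Fin E.r → K) → Fin E.r → K := fun s =>
    Function.update s b (-∑ i ∈ Finset.univ.erase b, y i * s i)
  have hsub : ∀ s : Fin E.r → K, MvPolynomial.aeval (Sum.elim y s)
      (MvPolynomial.aeval (E.subst b) (E.restr R a))
        = MvPolynomial.eval (Sum.elim (sb s) (E.iota a y)) R := fun s => by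
    rw [← AlgHom.comp_apply, MvPolynomial.comp_aeval]
    have : (fun j => MvPolynomial.aeval (Sum.elim y s) (E.subst b j)) = Sum.elim y (sb s) := by
      funext j
      rcases eq_or_ne j (Sum.inr b) with rfl | hj
      · simp [subst, sb, lin, map_sum]
      · rw [subst, Function.update_of_ne hj, MvPolynomial.aeval_X]
        rcases j with i | i
        · rfl
        · have : i ≠ b := fun h => hj (by rw [h])
          simp [sb, Function.update_of_ne this]
    rw [this, E.aeval_restr R a y (sb s), ← MvPolynomial.coe_aeval_eq_eval]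
    rfl
  -- away from the line `sb s = 0`
  have h0 : ∀ s : Fin E.r → K, sb s ≠ 0 →
      MvPolynomial.eval (Sum.elim (sb s) (E.iota a y)) R = 0 := fun s hs => by
    obtain ⟨Q, hQ⟩ := E.exists_isZeros hs
    obtain ⟨c, -, hc⟩ := hR _ hs Q hQ
    have hy : ∑ i, sb s i * y i = 0 := by
      rw [← Finset.add_sum_erase Finset.univ (fun i => sb s i * y i) (Finset.mem_univ b), hyb,
        mul_one, Finset.sum_congr rfl fun i hi => ?_]
      · change sb s b + ∑ i ∈ Finset.univ.erase b, y i * s i = 0
        simp [sb]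
      · rw [show sb s i = s i from Function.update_of_ne (Finset.ne_of_mem_erase hi) _ _, mul_comm]
    have hx : ∑ i, sb s i * E.x P i = 0 := by
      have : ∀ i, sb s i * E.x P i = E.x P b * (sb s i * y i) := fun i => by
        simp only [y]; field_simp
      rw [Finset.sum_congr rfl fun i _ => this i, ← Finset.mul_sum, hy, mul_zero]
    obtain ⟨j, hj⟩ := hQ.exists_eq E hs hx
    rw [hc, evQ, Finset.prod_eq_zero (Finset.mem_univ j) ?_, mul_zero]
    rw [hj, E.sum_iota_eq_mform]
    have : wedge y (E.x P) = 0 := by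
      funext p; simp only [wedge, y, Pi.zero_apply]; field_simp; ring
    simp [this, mform]
  obtain ⟨i, hi⟩ : ∃ i, i ≠ b := by
    have : Nontrivial (Fin E.r) := Fin.nontrivial_iff_two_le.2 E.two_le_r
    exact exists_ne b
  -- a polynomial in `s` vanishing off a hyperplane
  set p : MvPolynomial (Fin E.r) K := MvPolynomial.aeval
    (Sum.elim (fun i => MvPolynomial.C (y i)) MvPolynomial.X)
    (MvPolynomial.aeval (E.subst b) (E.restr R a))
  have hp : ∀ s, MvPolynomial.eval s p = MvPolynomial.aeval (Sum.elim y s)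
      (MvPolynomial.aeval (E.subst b) (E.restr R a)) := fun s => by
    simp only [p]
    rw [show MvPolynomial.eval s = ((MvPolynomial.aeval s : MvPolynomial (Fin E.r) K →ₐ[K] K) :
      MvPolynomial (Fin E.r) K →+* K) from rfl, AlgHom.coe_toRingHom, ← AlgHom.comp_apply,
      MvPolynomial.comp_aeval]
    congr 2
    funext j
    rcases j with l | l <;> simp
  have : p * MvPolynomial.X i = 0 := MvPolynomial.funext fun s => by
    rw [map_mul, map_zero, MvPolynomial.eval_X]
    by_cases hsi : s i = 0
    · rw [hsi, mul_zero]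
    rw [hp, hsub, h0 s fun h => hsi (by
      have := congrFun h i
      rwa [show sb s i = s i from Function.update_of_ne hi _ _] at this), zero_mul]
  rw [key, ← hp, (mul_eq_zero.1 this).resolve_right (MvPolynomial.X_ne_zero i), map_zero]

/-- The restricted Chow form in the function field. -/
theorem identity_F (hR : E.IsChow R) (b : Fin E.r) (a : ℕ) {s : Fin E.r → K} {c : K}
    {Q : Fin E.M → Place K F}
    (hc : ∀ u, MvPolynomial.eval (Sum.elim s u) R = c * E.evQ Q u) :
    MvPolynomial.aeval (Sum.elim (E.Y b) fun i => algebraMap K F (s i)) (E.G R b a)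
        * (E.sec s * (E.f b)⁻¹)
      = algebraMap K F c
        * ∏ j, ∑ l, E.iota a (E.Y b) l * algebraMap K F (E.x (Q j) l) := by
  classical
  -- the remainder vanishes
  set q : MvPolynomial (Fin E.r) K := MvPolynomial.aeval
    (Sum.elim MvPolynomial.X fun i => MvPolynomial.C (s i))
    (MvPolynomial.aeval (E.subst b) (E.restr R a))
  have hq : q ∈ E.Ib b := E.mem_Ib_of_forall fun P hb => by
    rw [← E.eval_rem hR hb a s]
    simp only [q]
    rw [show MvPolynomial.eval (fun i => E.x P i / E.x P b)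
        = ((MvPolynomial.aeval (fun i => E.x P i / E.x P b) : MvPolynomial (Fin E.r) K →ₐ[K] K) :
          MvPolynomial (Fin E.r) K →+* K) from rfl, AlgHom.coe_toRingHom, ← AlgHom.comp_apply,
      MvPolynomial.comp_aeval, ← MvPolynomial.coe_aeval_eq_eval]
    change _ = MvPolynomial.aeval _ _
    congr 2
    funext j
    rcases j with l | l <;> simp
  have hrem : MvPolynomial.aeval (Sum.elim (E.Y b) fun i => algebraMap K F (s i))
      (MvPolynomial.aeval (E.subst b) (E.restr R a)) = 0 := by
    rw [← (RingHom.mem_ker.1 hq : MvPolynomial.aeval (E.Y b) q = 0)]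
    simp only [q]
    conv_rhs => rw [← AlgHom.comp_apply, MvPolynomial.comp_aeval]
    congr 2
    funext j
    rcases j with l | l <;> simp
  have h1 := congrArg (MvPolynomial.aeval (Sum.elim (E.Y b) fun i => algebraMap K F (s i)))
    (E.restr_eq R b a)
  rw [map_add, hrem, add_zero, map_mul, E.aeval_restr, E.aeval_lin b _ _ (E.Y_self b)] at h1
  have hsec : E.sec s * (E.f b)⁻¹ = ∑ i, E.Y b i * algebraMap K F (s i) := by
    rw [sec, Finset.sum_mul]
    exact Finset.sum_congr rfl fun i _ => by rw [Algebra.smul_def, Y]; ring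
  rw [hsec, mul_comm, ← h1]
  -- the formula for `R` as a polynomial identity in `u`
  have hpoly : MvPolynomial.aeval (Sum.elim (fun i => MvPolynomial.C (s i)) MvPolynomial.X) R
      = MvPolynomial.C c * ∏ j, linPoly (E.x (Q j)) := MvPolynomial.funext fun u => by
    rw [map_mul, MvPolynomial.eval_C, map_prod]
    simp only [eval_linPoly]
    rw [show MvPolynomial.eval u = ((MvPolynomial.aeval u : MvPolynomial (Fin E.r) K →ₐ[K] K) :
        MvPolynomial (Fin E.r) K →+* K) from rfl, AlgHom.coe_toRingHom, ← AlgHom.comp_apply,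
      MvPolynomial.comp_aeval, ← show E.evQ Q u = ∏ j, ∑ i, u i * E.x (Q j) i from rfl, ← hc u,
      ← MvPolynomial.coe_aeval_eq_eval]
    change MvPolynomial.aeval _ R = MvPolynomial.aeval _ R
    congr 2
    funext j
    rcases j with l | l <;> simp
  have h2 := congrArg (MvPolynomial.aeval (E.iota a (E.Y b))) hpoly
  rw [← AlgHom.comp_apply, MvPolynomial.comp_aeval, map_mul, MvPolynomial.aeval_C, map_prod] at h2
  refine Eq.trans ?_ (h2.trans ?_)
  · congr 2
    funext j
    rcases j with l | l <;> simp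
  · simp only [linPoly, map_sum, map_mul, MvPolynomial.aeval_C, MvPolynomial.aeval_X]
    congr 1
    exact Finset.prod_congr rfl fun j _ => Finset.sum_congr rfl fun l _ => mul_comm _ _

/-- The value of a quotient by a unit at a place. -/
theorem evalAt_div_unit {P : Place K F} {h U : F} (hh : OrdGE P h 0) (hU : U ≠ 0)
    (hUo : P.ord U = 0) : OrdGE P (h * U⁻¹) 0 ∧ evalAt P (h * U⁻¹) = evalAt P h / evalAt P U := by
  have hUi : OrdGE P U⁻¹ 0 := ordGE_iff.2 (.inr (by rw [P.ord_inv, hUo, neg_zero]))
  exact ⟨by simpa using hh.mul hUi,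
    by rw [evalAt_mul hh hUi, evalAt_inv hU hUo, div_eq_mul_inv]⟩

/-- Near a place of the chart `b` the function `f b` times a power of the uniformiser is a unit
with value the coordinate. -/
theorem f_mul_unif {P : Place K F} {b : Fin E.r} (hb : E.x P b ≠ 0) :
    E.f b * unif P ^ (E.D P) ≠ 0 ∧ P.ord (E.f b * unif P ^ (E.D P)) = 0 ∧
      evalAt P (E.f b * unif P ^ (E.D P)) = E.x P b := by
  refine ⟨mul_ne_zero (E.f_ne_zero b) (zpow_ne_zero _ (unif_ne_zero P)), ?_, by
    rw [x, co, sub_zero]⟩
  rw [P.ord_mul (E.f_ne_zero b) (zpow_ne_zero _ (unif_ne_zero P)), E.ord_f_of_x_ne_zero hb,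
    P.ord_zpow, ord_unif]
  ring

/-- The value at `P` of a factor of the restricted form, divided by a uniformiser at `P` itself. -/
theorem evalAt_factor {P : Place K F} {b : Fin E.r} (hb : E.x P b ≠ 0) (a : ℕ) (Q : Place K F)
    [Decidable (Q = P)] :
    OrdGE P ((∑ l, E.iota a (E.Y b) l * algebraMap K F (E.x Q l)) *
        (if Q = P then (unif P)⁻¹ else 1)) 0 ∧
      evalAt P ((∑ l, E.iota a (E.Y b) l * algebraMap K F (E.x Q l)) *
        (if Q = P then (unif P)⁻¹ else 1))
      = (if Q = P then -1 else 1) * mform (a : K) (E.pw P Q) / E.x P b := by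
  classical
  set t := unif P
  have ht : t ≠ 0 := unif_ne_zero P
  set U : F := E.f b * t ^ (E.D P) with hU
  -- `U` is a unit with value `x P b`
  obtain ⟨hU0, hUord, hUev⟩ : U ≠ 0 ∧ P.ord U = 0 ∧ evalAt P U = E.x P b := E.f_mul_unif hb
  -- expand in the Plücker coordinates
  have hexp : (∑ l, E.iota a (E.Y b) l * algebraMap K F (E.x Q l))
      = ∑ p : E.PIdx, (E.wt a p) •
        (E.Y b p.1 * algebraMap K F (E.x Q p.2) - E.Y b p.2 * algebraMap K F
          (E.x Q p.1)) := by
    rw [sum_iota]
    exact Finset.sum_congr rfl fun p _ => by rw [Algebra.smul_def, mul_comm]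
  by_cases hQP : Q = P
  -- `Q = P`: divide by the uniformiser
  · rw [if_pos hQP, if_pos hQP, hQP]
    rw [hQP] at hexp
    set Z : Fin E.r → F := fun i =>
      (E.f i * t ^ (E.D P) - algebraMap K F (E.x P i)) * t⁻¹
    have hZ : ∀ p : E.PIdx, OrdGE P
        (Z p.1 * algebraMap K F (E.x P p.2) - Z p.2 * algebraMap K F (E.x P p.1)) 0 := fun p =>
      OrdGE.sub (by simpa using (E.ordGE_dx P p.1).mul (ordGE_algebraMap P _))
        (by simpa using (E.ordGE_dx P p.2).mul (ordGE_algebraMap P _))
    have hfac : (∑ l, E.iota a (E.Y b) l * algebraMap K F (E.x P l)) * t⁻¹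
        = (∑ p : E.PIdx, (E.wt a p) •
          (Z p.1 * algebraMap K F (E.x P p.2) - Z p.2 * algebraMap K F (E.x P p.1))) * U⁻¹ := by
      rw [hexp, Finset.sum_mul, Finset.sum_mul]
      refine Finset.sum_congr rfl fun p _ => ?_
      simp only [smul_mul_assoc, Z, Y, hU]
      congr 1
      field_simp [E.f_ne_zero b, ht, zpow_ne_zero (E.D P) ht]
      ring
    have hreg : OrdGE P (∑ p : E.PIdx, (E.wt a p) •
        (Z p.1 * algebraMap K F (E.x P p.2) - Z p.2 * algebraMap K F (E.x P p.1))) 0 :=
      OrdGE.sum fun p _ => (hZ p).smul _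
    obtain ⟨r1, r2⟩ := evalAt_div_unit hreg hU0 hUord
    rw [hfac]
    refine ⟨r1, ?_⟩
    rw [r2, hUev, evalAt_sum _ _ fun p _ => (hZ p).smul _, pw, if_pos rfl, mform, neg_one_mul,
      ← Finset.sum_neg_distrib]
    congr 1
    refine Finset.sum_congr rfl fun p _ => ?_
    have e : ∀ i, evalAt P (Z i) = E.dx P i := fun i => rfl
    rw [evalAt_const_smul _ (hZ p), evalAt_sub
      (by simpa using (E.ordGE_dx P p.1).mul (ordGE_algebraMap P _))
        (by simpa using (E.ordGE_dx P p.2).mul (ordGE_algebraMap P _)),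
      evalAt_mul (E.ordGE_dx P p.1) (ordGE_algebraMap P _),
      evalAt_mul (E.ordGE_dx P p.2) (ordGE_algebraMap P _), e, e, evalAt_algebraMap,
      evalAt_algebraMap, wedge, wt]
    ring
  · rw [if_neg hQP, if_neg hQP, mul_one, one_mul, hexp]
    have hY : ∀ i l, OrdGE P (E.Y b i * algebraMap K F (E.x Q l)) 0 := fun i l => by
      simpa using (E.ordGE_Y hb i).mul (ordGE_algebraMap P _)
    refine ⟨OrdGE.sum fun p _ => ((hY _ _).sub (hY _ _)).smul _, ?_⟩
    rw [evalAt_sum _ _ fun p _ => ((hY _ _).sub (hY _ _)).smul _, pw, if_neg (Ne.symm hQP), mform,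
      Finset.sum_div]
    refine Finset.sum_congr rfl fun p _ => ?_
    rw [evalAt_const_smul _ ((hY _ _).sub (hY _ _)), evalAt_sub (hY _ _) (hY _ _),
      evalAt_mul (E.ordGE_Y hb _) (ordGE_algebraMap P _),
      evalAt_mul (E.ordGE_Y hb _) (ordGE_algebraMap P _), evalAt_algebraMap, evalAt_algebraMap,
      E.evalAt_Y hb, E.evalAt_Y hb, wedge, wt]
    field_simp

/-- The value of the quotient at a point, including at zeros of the section. -/
theorem G_value (hR : E.IsChow R) {P : Place K F} {b : Fin E.r} (hb : E.x P b ≠ 0) (a : ℕ)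
    {s : Fin E.r → K} (hs : s ≠ 0) {Q : Fin E.M → Place K F} (hQ : E.IsZeros s Q) {c : K}
    (hc : ∀ u, MvPolynomial.eval (Sum.elim s u) R = c * E.evQ Q u)
    [DecidablePred fun j => Q j = P] :
    ∃ ε : K, (ε = 1 ∨ ε = -1) ∧
      MvPolynomial.eval (Sum.elim (fun i => E.x P i / E.x P b) s) (E.G R b a)
          * co E.D P (Finset.univ.filter fun j => Q j = P).card (E.sec s) * E.x P b ^ (E.M - 1)
        = ε * c * ∏ j, mform (a : K) (E.pw P (Q j)) := by
  classical
  have hcount := hQ.apply E P
  set k : ℕ := (Finset.univ.filter fun j => Q j = P).card with hk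
  set t := unif P
  have ht : t ≠ 0 := unif_ne_zero P
  set U : F := E.f b * t ^ (E.D P) with hU
  -- `U` is a unit with value `x P b`
  obtain ⟨hU0, hUord, hUev⟩ : U ≠ 0 ∧ P.ord U = 0 ∧ evalAt P U = E.x P b := E.f_mul_unif hb
  -- the regular factors
  let Φ : Fin E.M → F := fun j =>
    (∑ l, E.iota a (E.Y b) l * algebraMap K F (E.x (Q j) l)) * (if Q j = P then t⁻¹ else 1)
  have hΦ : ∀ j, OrdGE P (Φ j) 0 ∧ evalAt P (Φ j)
      = (if Q j = P then -1 else 1) * mform (a : K) (E.pw P (Q j)) / E.x P b :=
    fun j => E.evalAt_factor hb a (Q j)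
  -- evaluate the identity
  set H : F := MvPolynomial.aeval (Sum.elim (E.Y b) fun i => algebraMap K F (s i)) (E.G R b a)
  obtain ⟨hH, hHev⟩ := evalAt_aeval (P := P) (Y := Sum.elim (E.Y b) fun i => algebraMap K F (s i))
    (z := Sum.elim (fun i => E.x P i / E.x P b) s)
    (fun j => by rcases j with i | i; exacts [E.ordGE_Y hb i, ordGE_algebraMap P _])
    (fun j => by rcases j with i | i; exacts [E.evalAt_Y hb i, evalAt_algebraMap P _]) (E.G R b a)
  have hco : OrdGE P (E.sec s) ((k : ℤ) - E.D P) :=
    (ordGE_iff_of_ne fun h => hs (E.sec_eq_zero.1 h)).2 (by omega)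
  have hid : H * (E.sec s * t ^ (E.D P - k)) = U * (algebraMap K F c * ∏ j, Φ j) := by
    simp only [Φ, Finset.prod_mul_distrib, Finset.prod_ite, Finset.prod_const_one, mul_one,
      Finset.prod_const]
    rw [← mul_assoc (algebraMap K F c), ← E.identity_F hR b a hc, ← hk, hU, zpow_sub₀ ht,
      zpow_natCast, inv_pow]
    field_simp [E.f_ne_zero b, ht]
    simp only [H]; ring
  have hprod : ∀ S : Finset (Fin E.M), OrdGE P (∏ j ∈ S, Φ j) 0 ∧
      evalAt P (∏ j ∈ S, Φ j) = ∏ j ∈ S, evalAt P (Φ j) := fun S => by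
    induction S using Finset.induction_on with
    | empty => exact ⟨by simpa using ordGE_one P, by simp⟩
    | insert j S hj ih =>
      rw [Finset.prod_insert hj, Finset.prod_insert hj]
      exact ⟨by simpa using (hΦ j).1.mul ih.1, by rw [evalAt_mul (hΦ j).1 ih.1, ih.2]⟩
  have hev := congrArg (evalAt P) hid
  rw [evalAt_mul hH (ordGE_co hco), evalAt_mul (ordGE_iff.2 (.inr hUord.ge))
      (by simpa using (ordGE_algebraMap P c).mul (hprod Finset.univ).1),
    evalAt_mul (ordGE_algebraMap P c) (hprod Finset.univ).1, (hprod Finset.univ).2,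
    evalAt_algebraMap, hUev, hHev, ← show co E.D P k (E.sec s) =
      evalAt P (E.sec s * t ^ (E.D P - (k : ℤ))) from rfl,
    Finset.prod_congr rfl fun j _ => (hΦ j).2, Finset.prod_div_distrib, Finset.prod_mul_distrib,
    Finset.prod_const, Finset.card_univ, Fintype.card_fin] at hev
  refine ⟨∏ j, if Q j = P then -1 else 1, ?_, ?_⟩
  · rw [Finset.prod_ite, Finset.prod_const, Finset.prod_const_one, mul_one]
    exact neg_one_pow_eq_or K _
  · rw [hev]
    have hM : E.M - 1 + 1 = E.M := by have := E.four_le_M; omega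
    rw [show E.x P b ^ E.M = E.x P b ^ (E.M - 1) * E.x P b by rw [← pow_succ, hM]]
    field_simp

end Emb

end Fermat.HT.MW

end
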